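import Fermat.Agent.DR.S35.Provider
import Fermat.Agent.S27Lib.FrobCount
import Fermat.Agent.DR.Mod.FrobFixed
import Fermat.Agent.FrobExists
import Fermat.Agent.GAL.Smooth
import Fermat.Agent.RR.HoloModular
import Fermat.Agent.JAN.DegeneracyBar

set_option autoImplicit false
set_option linter.unusedSectionVars false
set_option linter.style.haveILetI false

/-!
# Hecke operators killing `S₂(Γ₀(M))` kill the reduction of `J₀(M)` modulo `q ∤ M`

For `t` in the anemic Hecke algebra acting as `0` on `S₂(Γ₀(M))`: `red (t x) = 0` for all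
`x ∈ J₀(M)(ℚ̄)`, hence `Spec X m x y₁ y₂ → Spec X m (t x) 0 0` for every `m`, including the residue
characteristic.

Proof: `t` kills the torsion of `J₀(M)`.  If `x` is defined over a number field `K` and `n y = x`
then `t y` is defined over `K`, so `red (t y)` belongs to a finite group which does not depend on
`n`; take for `n` the order of this group.
-/

noncomputable section

open AlgebraicCurve ModularCurve
open Fermat.Agent.JRED Fermat.Agent.RR Fermat.Agent.DR.Mod
open Fermat.Agent.S30Wiring (AnemicAlg anemicIncl anemicEval)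

namespace Fermat.Agent.DR.AtP

local notation "Qbar" => AlgebraicClosure ℚ
local notation "Γℚ" => (AlgebraicClosure ℚ ≃ₐ[ℚ] AlgebraicClosure ℚ)

/-- A power of `σ` fixes a given finite extension. -/
theorem exists_pow_fix (L : IntermediateField ℚ Qbar) [FiniteDimensional ℚ L] (σ : Γℚ) :
    ∃ n : ℕ, 1 ≤ n ∧ ∀ y ∈ L, (σ ^ n) y = y := by
  obtain ⟨i, j, hij, h⟩ := Finite.exists_ne_map_eq_of_infinite
    (fun n : ℕ => (((σ ^ n : Γℚ) : Qbar →ₐ[ℚ] Qbar).comp L.val : L →ₐ[ℚ] Qbar))
  wlog hlt : i < j generalizing i j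
  · exact this j i hij.symm h.symm (lt_of_le_of_ne (not_lt.mp hlt) hij.symm)
  refine ⟨j - i, by omega, fun y hy => ?_⟩
  have h1 : (σ ^ i) y = (σ ^ j) y := DFunLike.congr_fun h ⟨y, hy⟩
  have h2 : σ ^ j = σ ^ i * σ ^ (j - i) := by rw [← pow_add]; congr 1; omega
  rw [h2, AlgEquiv.mul_apply] at h1
  exact ((σ ^ i).injective h1).symm

section Frob

variable {k : Type} [Field k] {q : ℕ} [hq : Fact q.Prime] [CharP k q] (M : ℕ)

theorem isFrob_coeffSemi (halg : letI := ZMod.algebra k q; Algebra.IsAlgebraic (ZMod q) k)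
    (τ : k ≃+* k) (hτ : ∀ c, τ c = c ^ q) :
    S27Lib.IsFrob q 1 (ESSemi.coeffSemi M τ) where
  r_ne_zero := one_ne_zero
  base a := by rw [pow_one]; exact hτ a
  fin u := by
    letI := ZMod.algebra k q
    have hit : ∀ (n : ℕ) (c : k), (τ : k → k)^[n] c = c ^ q ^ n := by
      intro n c
      induction n with
      | zero => simp
      | succ n ih => rw [Function.iterate_succ_apply', ih, hτ, ← pow_mul, ← pow_succ]
    obtain ⟨n, hn, h⟩ := exists_iterate_eq M τ (fun c => by
      obtain ⟨r, hr, h⟩ := S27Lib.exists_pow_eq q c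
      exact ⟨r, by omega, by rw [hit, h]⟩) u
    refine ⟨n, by omega, ?_⟩
    have h2 : ∀ (n : ℕ) (v : modularFunctionFieldFullC k M),
        (fun v : modularFunctionFieldFullC k M => ESSemi.coeffSemi M τ • v)^[n] v =
          (ESSemi.coeffSemi M τ ^ n) • v := by
      intro n v
      induction n with
      | zero => simp
      | succ n ih => rw [Function.iterate_succ_apply', ih, smul_smul, ← pow_succ']
    rw [← h2, h]

theorem coeffSemi_smul_cuspPlaceC (τ : k ≃+* k) :
    ESSemi.coeffSemi M τ • cuspPlaceC k M = cuspPlaceC k M :=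
  smul_qPlace _ _ fun f => by
    rw [ESSemi.coe_coeffSemi_smul]
    exact order_coeffMap_of_injective _ τ.injective _

end Frob

section Abs

variable {K G k Gb : Type*} [Field K] [Field G] [Algebra K G] [Field k]
  [Field Gb] [Algebra k Gb] {A : ValuationSubring K} {π : A →+* k}
  {R : RedDatum K G k Gb A π} {r : Place K G → Place k Gb}

theorem redPic_semi (hr : PlaceRed R r) (hdeg : ∀ P, (r P).deg = P.deg) (g : SemilinearAut K G)
    (g' : SemilinearAut k Gb) (h : ∀ D : Divisor K G, Divisor.degree D = 0 →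
      Finsupp.mapDomain r (g • D) = g' • Finsupp.mapDomain r D)
    (x : Pic0 K G) : redPic hr hdeg (g • x) = g' • redPic hr hdeg x := by
  obtain ⟨D, rfl⟩ := Pic0.mk_surjective x
  rw [SemilinearAut.pic0_smul_mk, redPic_mk, redPic_mk, SemilinearAut.pic0_smul_mk]
  refine congrArg Pic0.mk (Subtype.ext ?_)
  show Finsupp.mapDomain r (g • (D : Divisor K G)) = g' • Finsupp.mapDomain r (D : Divisor K G)
  exact h _ (Divisor.mem_degZero.mp D.2)

end Abs

section Red

variable {A : ValuationSubring Qbar} {k : Type} [Field k] {π : A →+* k} {q M : ℕ} [NeZero M]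
  [hq : Fact q.Prime] [CharP k q] [IsAlgClosed k]
  [FunctionField Qbar (modularFunctionFieldBar M)]
  [FunctionField k (modularFunctionFieldFullC k M)]
  {r : Place Qbar (modularFunctionFieldBar M) → Place k (modularFunctionFieldFullC k M)}

theorem mapDomain_gal (hD : DegreeInput M k) (hπ : Function.Surjective π)
    (hr : PlaceRed (hD.redDatum hπ) r) {σ : Γℚ} {τ : k ≃+* k}
    (hτ : ESGalois.IsResidual π σ τ) {D : Divisor Qbar (modularFunctionFieldBar M)}
    (h0 : Divisor.degree D = 0) :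
    Finsupp.mapDomain r (arithmeticGalois (modularFunctionFieldFull M) σ • D) =
      ESSemi.coeffSemi M τ • Finsupp.mapDomain r D :=
  ESGalois.mapDomain_galois (hD.modularConstRed hπ) (isPlaceMap_of_placeRed hD hπ hr) hτ h0

/-- The reduction is Galois equivariant. -/
theorem redPic_galois (hD : DegreeInput M k) (hπ : Function.Surjective π)
    (hr : PlaceRed (hD.redDatum hπ) r) {σ : Γℚ} {τ : k ≃+* k}
    (hτ : ESGalois.IsResidual π σ τ) (x : JZero M) :
    redPic hr (deg_place_eq r) (σ • x) =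
      ESSemi.coeffSemi M τ • redPic hr (deg_place_eq r) x :=
  redPic_semi hr (deg_place_eq r) (arithmeticGalois (modularFunctionFieldFull M) σ)
    (ESSemi.coeffSemi M τ) (fun _ h0 => mapDomain_gal hD hπ hr hτ h0) x

theorem redPic_galois_pow (hD : DegreeInput M k) (hπ : Function.Surjective π)
    (hr : PlaceRed (hD.redDatum hπ) r) {σ : Γℚ} {τ : k ≃+* k}
    (hτ : ESGalois.IsResidual π σ τ) (n : ℕ) (x : JZero M) :
    redPic hr (deg_place_eq r) ((σ ^ n) • x) =
      (ESSemi.coeffSemi M τ ^ n) • redPic hr (deg_place_eq r) x := by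
  induction n with
  | zero => rw [pow_zero, pow_zero, one_smul, one_smul]
  | succ n ih => rw [pow_succ', pow_succ', mul_smul, mul_smul, redPic_galois hD hπ hr hτ, ih]

/-- The order of the finite group of classes fixed by a power of Frobenius. -/
theorem exists_bound (hπ : Function.Surjective π) (hA : A.LiesOverPrime q) (M : ℕ)
    [FunctionField k (modularFunctionFieldFullC k M)] {τ : k ≃+* k} (hτ : ∀ c, τ c = c ^ q)
    {n : ℕ} (hn : 1 ≤ n) :
    ∃ m : ℕ, m ≠ 0 ∧ ∀ z : Pic0 k (modularFunctionFieldFullC k M),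
      (ESSemi.coeffSemi M τ ^ n) • z = z → m • z = 0 := by
  have halg := S35.isAlgebraic_residue hπ hq.out hA
  have hF := (isFrob_coeffSemi M halg τ hτ).pow hn
  have hP₀ : (ESSemi.coeffSemi M τ ^ n) • cuspPlaceC k M = cuspPlaceC k M := by
    rw [← map_pow]
    exact coeffSemi_smul_cuspPlaceC M (τ ^ n)
  have hfin : Finite (S27Lib.fixedCls (K := k) (F := modularFunctionFieldFullC k M)
      (ESSemi.coeffSemi M τ ^ n)) := S27Lib.finite_fixedCls hF hP₀
  refine ⟨Nat.card (S27Lib.fixedCls (K := k) (F := modularFunctionFieldFullC k M)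
    (ESSemi.coeffSemi M τ ^ n)), Nat.card_pos.ne', fun z hz => ?_⟩
  exact congrArg Subtype.val (card_nsmul_eq_zero' (G := S27Lib.fixedCls (K := k)
    (F := modularFunctionFieldFullC k M) (ESSemi.coeffSemi M τ ^ n)) (x := ⟨z, hz⟩))

/-- If `t` kills the torsion of `J₀(M)`, then `t y` is defined over the same field as `m y`. -/
theorem smul_smul_of_torsion {S : Finset ℕ} (hMS : ∀ ℓ : ℕ, ℓ.Prime → ℓ ∣ M → ℓ ∈ S)
    {t : AnemicAlg S} (ht : anemicEval (N := M) hMS t = 0) {m : ℕ} (hm : m ≠ 0) {y : JZero M}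
    {σ : Γℚ} (hσ : σ • (m • y) = m • y) :
    letI := heckeModuleBar M
    σ • (anemicIncl S t • y) = anemicIncl S t • y := by
  letI := heckeModuleBar M
  have hcomm : SMulCommClass Γℚ HeckeAlg (JZero M) :=
    Jan.GaloisHecke.smulCommClass_heckeModuleBar M
  rw [smul_comm, ← sub_eq_zero, ← smul_sub]
  refine JAN.AnnFinal.smul_eq_zero_of_torsion hMS ht hm ?_
  rw [nsmul_sub, sub_eq_zero, ← hσ]
  exact (map_nsmul (DistribSMul.toAddMonoidHom (JZero M) σ) m y).symm

/-- **`t` kills the reduction of `J₀(M)`** if it acts as `0` on `S₂(Γ₀(M))`. -/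
theorem redPic_smul_eq_zero (hπ : Function.Surjective π) (hA : A.LiesOverPrime q)
    (hD : DegreeInput M k) (hr : PlaceRed (hD.redDatum hπ) r) {S : Finset ℕ}
    (hMS : ∀ ℓ : ℕ, ℓ.Prime → ℓ ∣ M → ℓ ∈ S) {t : AnemicAlg S}
    (ht : anemicEval (N := M) hMS t = 0) (x : JZero M) :
    letI := heckeModuleBar M
    redPic hr (deg_place_eq r) (anemicIncl S t • x) = 0 := by
  letI := heckeModuleBar M
  have hpd : HasPrincipalDivisors Qbar (modularFunctionFieldBar M) := inferInstance
  obtain ⟨L, hL, hfix⟩ := GAL.Smooth.smooth_JZero M x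
  obtain ⟨σ, hσ⟩ := FrobExists.exists_isFrobeniusAt A hq.out hA
  obtain ⟨n, hn, hσn⟩ := exists_pow_fix L σ
  have hEC : ExpChar k q := ExpChar.prime hq.out
  have hτ : ∀ c, frobeniusEquiv k q c = c ^ q := fun c => frobenius_def q c
  obtain ⟨m, hm0, hm⟩ := exists_bound hπ hA M hτ hn
  obtain ⟨y, hy⟩ := JAN.AnnFinal.jZero_divisible M hm0 x
  -- `t y` is fixed by `σ ^ n`
  have hty : (σ ^ n) • (anemicIncl S t • y) = anemicIncl S t • y :=
    smul_smul_of_torsion hMS ht hm0 (by rw [hy]; exact hfix (σ ^ n) hσn)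
  have h1 := redPic_galois_pow hD hπ hr
    (ESGalois.isResidual_of_frobenius hπ hσ (frobeniusEquiv k q) hτ) n (anemicIncl S t • y)
  rw [hty] at h1
  have h2 := hm _ h1.symm
  rw [← map_nsmul] at h2
  have h3 : anemicIncl S t • x = m • (anemicIncl S t • y) := by
    rw [← hy]
    exact map_nsmul (DistribSMul.toAddMonoidHom (JZero M) (anemicIncl S t)) m y
  rw [h3]
  exact h2

end Red

section Spec

variable {A : ValuationSubring Qbar} {k : Type} [Field k] {π : A →+* k}
  {M q : ℕ} [NeZero M] [hq : Fact q.Prime] [CharP k q]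
  {w : laurentBaseChange Qbar (modularFunctionFieldFull (M * q)) ≃ₐ[Qbar]
      laurentBaseChange Qbar (modularFunctionFieldFull (M * q))}
  [IsAlgClosed k]
  [FunctionField Qbar (modularFunctionFieldBar (M * q))]
  [FunctionField Qbar (modularFunctionFieldBar M)]
  [FunctionField k (modularFunctionFieldFullC k M)]
  {X : NodalDatum Qbar (modularFunctionFieldBar (M * q)) k
    (modularFunctionFieldFullC k M) (modularFunctionFieldFullC k M) A π}

/-- **`t x` specialises to `0`** if `x` has a specialisation and `t` acts as `0` on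
`S₂(Γ₀(M))`; no condition on `m`. -/
theorem spec_smul_eq_zero [ExpChar k q] (hA : A.LiesOverPrime q) (hqM : ¬ q ∣ M) (S : Setup π w)
    (h₁ : X.R₁ = redOne S) (h₂ : X.R₂ = redTwo S) {S' : Finset ℕ} (hqS : q ∈ S')
    (hMS : ∀ ℓ : ℕ, ℓ.Prime → ℓ ∣ M → ℓ ∈ S') {t : AnemicAlg S'}
    (ht : anemicEval (N := M) hMS t = 0) {m : ℕ} (hm : 0 < m)
    {x : JZero (M * q)} {y₁ y₂ : Pic0 k (modularFunctionFieldFullC k M)}
    (hs : Spec X m x y₁ y₂) :
    letI := heckeModuleBar (M * q)
    Spec X m (anemicIncl S' t • x) 0 0 := by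
  letI := heckeModuleBar M
  letI := heckeModuleBar (M * q)
  have hdeg : DegreeInput M k := degreeInput' (NeZero.ne M) hqM
  have hgood : GoodReduction M k := goodReduction S.surj hq.out (NeZero.ne M) hqM
  obtain ⟨r, hr⟩ := exists_placeRed hdeg S.surj hgood
  obtain ⟨tb, h1, h2⟩ := exists_hecke_poly hq.out hqM S h₁ h₂ hdeg hr (deg_place_eq r)
    (S35.anemicIncl_mem_heckeAway hqS t)
  have hsurj : Function.Surjective r :=
    (hdeg.modularConstRed S.surj).isPlaceMap_surjective hdeg (isPlaceMap_of_placeRed hdeg S.surj hr)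
  have h3 : ∀ y, tb y = 0 := by
    intro y
    obtain ⟨x, rfl⟩ := redPic_surjective hr (deg_place_eq r) hsurj y
    rw [← h1, redPic_smul_eq_zero S.surj hA hdeg hr hMS ht]
  have h4 := h2 m x y₁ y₂ hm hs
  rwa [h3, h3] at h4

/-- **`t x` is toric** if `x` has a specialisation and `t` acts as `0` on `S₂(Γ₀(M))`. -/
theorem inTorus_smul [ExpChar k q] (hA : A.LiesOverPrime q) (hqM : ¬ q ∣ M) (S : Setup π w)
    (h₁ : X.R₁ = redOne S) (h₂ : X.R₂ = redTwo S) {S' : Finset ℕ} (hqS : q ∈ S')
    (hMS : ∀ ℓ : ℕ, ℓ.Prime → ℓ ∣ M → ℓ ∈ S') {t : AnemicAlg S'}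
    (ht : anemicEval (N := M) hMS t = 0) {m : ℕ} (hm : 0 < m)
    {x : JZero (M * q)} {y₁ y₂ : Pic0 k (modularFunctionFieldFullC k M)}
    (hs : Spec X m x y₁ y₂) :
    letI := heckeModuleBar (M * q)
    InTorus X m (anemicIncl S' t • x) :=
  (spec_smul_eq_zero hA hqM S h₁ h₂ hqS hMS ht hm hs).inTorus

/-- `t x` is new: killed by both push-forwards, for torsion `x`. -/
theorem push_smul_eq_zero {S' : Finset ℕ} (hqS : q ∈ S')
    (hMS : ∀ ℓ : ℕ, ℓ.Prime → ℓ ∣ M → ℓ ∈ S') {t : AnemicAlg S'}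
    (ht : anemicEval (N := M) hMS t = 0) {n : ℕ} (hn : n ≠ 0) {x : JZero (M * q)}
    (hx : n • x = 0) :
    letI := heckeModuleBar (M * q)
    JAN.Degeneracy.alphaPush M q (anemicIncl S' t • x) = 0 ∧
      JAN.Degeneracy.betaPush M q (anemicIncl S' t • x) = 0 := by
  letI := heckeModuleBar M
  letI := heckeModuleBar (M * q)
  constructor
  · refine (JAN.Degeneracy.alphaPush_anemic hq.out hqS t x).trans ?_
    refine JAN.AnnFinal.smul_eq_zero_of_torsion hMS ht hn ?_
    rw [← map_nsmul, hx, map_zero]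
  · refine (JAN.Degeneracy.betaPush_anemic hq.out hqS t x).trans ?_
    refine JAN.AnnFinal.smul_eq_zero_of_torsion hMS ht hn ?_
    rw [← map_nsmul, hx, map_zero]

end Spec

end Fermat.Agent.DR.AtP
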