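import Fermat.Agent.DR.AtP.FinalAlg
import Fermat.Agent.DR.S39.Defs

/-!
# The final algebraic step at `p`: `DR.S39.AtPCore`
-/

set_option autoImplicit false
set_option linter.style.haveILetI false

open WeierstrassCurve WeierstrassCurve.Affine WeierstrassCurve.Affine.Point Polynomial
open scoped WeierstrassCurve.Affine

namespace Fermat.Agent.DR.AtP

open Fermat.Agent.DR.Mazur

/-- **The final algebraic step of level lowering at `p`.** -/
theorem atPCore (p : ℕ) [Fact p.Prime] : DR.S39.AtPCore p := by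
  intro A J _ _ _ _ _ S x hlev hfrob χ W hΔ hp2 hsemi hpeu hcard hker habs hρ m₀ hm₀ hm₀' B hB Kr
    h1 h2 hcore
  have hdvd : p ∣ padicValInt p W.Δ := by
    have h := hpeu
    unfold WeierstrassCurve.IsPeuRamifieeAt at h
    have h3 : (W.map (Int.castRingHom ℚ)).Δ = ((W.Δ : ℤ) : ℚ) := by
      rw [WeierstrassCurve.map_Δ]; rfl
    rw [h3, padicValRat.of_int] at h
    exact_mod_cast h
  refine false_of_core S x χ W hΔ hp2 hsemi hdvd B hB hcard hker habs hlev hfrob hρ hm₀ hm₀' ?_ ?_
  · intro z hz σ hσ τ hτ a ha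
    exact h2 _ (AddSubgroup.sub_mem _ (smul_mem_tors σ hz) hz) (h1 z hz σ hσ) τ hτ a ha
  · intro μ v' hμ hv' hf z hz hfix τ hτ a ha
    exact hcore μ v' hμ hv' hf z hz hfix τ hτ a ha

end Fermat.Agent.DR.AtP
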