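import Fermat.Agent.DR.AtP.Tres
import Fermat.Agent.EllRed.ResidueField
import Fermat.Agent.QbarInst

set_option autoImplicit false

/-!
# The three types of Kummer extensions of degree `p` of the inertia field
-/

noncomputable section

open Finset

namespace Fermat.Agent.DR.AtP

/-- Residue fields of places of `ℚ̄` are perfect: `p`-power Frobenius is periodic. -/
theorem exists_frob_period (A : ValuationSubring (AlgebraicClosure ℚ)) {p : ℕ} (hp : p.Prime)
    (hA : A.LiesOverPrime p) {u : AlgebraicClosure ℚ} (hu : A.valuation u ≤ 1) :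
    ∃ n : ℕ, A.valuation (u ^ (p ^ (n + 1)) - u) < 1 := by
  classical
  have hfp : Fact p.Prime := ⟨hp⟩
  have hchar := Fermat.Agent.ResField.charP_residueField hp hA
  let _ : Algebra (ZMod p) (IsLocalRing.ResidueField A) := ZMod.algebra _ p
  have halg := Fermat.Agent.ResField.isAlgebraic_residueField (A := A) hp
  rw [A.valuation_le_one_iff] at hu
  let y : IsLocalRing.ResidueField A := IsLocalRing.residue A ⟨u, hu⟩
  let E := IntermediateField.adjoin (ZMod p) {y}
  have hfin : FiniteDimensional (ZMod p) E :=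
    IntermediateField.adjoin.finiteDimensional (halg.isAlgebraic y).isIntegral
  have hfin' : Finite E := Module.finite_of_finite (ZMod p)
  have hft : Fintype E := Fintype.ofFinite E
  have hEchar : CharP E p := charP_of_injective_algebraMap (algebraMap (ZMod p) E).injective p
  obtain ⟨n, -, hn⟩ := FiniteField.card E p
  have hy : y ^ (p ^ (n : ℕ)) = y := by
    have h1 := FiniteField.pow_card (⟨y, IntermediateField.mem_adjoin_simple_self _ y⟩ : E)
    rw [hn] at h1
    have h2 := congrArg (fun z : E => (z : IsLocalRing.ResidueField A)) h1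
    simpa using h2
  obtain ⟨m, hm⟩ : ∃ m, (n : ℕ) = m + 1 := ⟨n - 1, by have := n.pos; omega⟩
  refine ⟨m, ?_⟩
  rw [← hm]
  have h3 : IsLocalRing.residue A ((⟨u, hu⟩ : A) ^ (p ^ (n : ℕ)) - ⟨u, hu⟩) = 0 := by
    rw [map_sub, map_pow]
    exact sub_eq_zero.mpr hy
  rw [IsLocalRing.residue_eq_zero_iff, A.valuation_lt_one_iff] at h3
  simpa using h3

namespace InertialAction

variable {K Γ₀ : Type*} [Field K] [LinearOrderedCommGroupWithZero Γ₀] {v : Valuation K Γ₀}
  {G : Type*} [Group G] [MulSemiringAction G K] {p : ℕ} (I : InertialAction v G p)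

lemma smul_zpow' {G K : Type*} [Group G] [Field K] [MulSemiringAction G K] (σ : G) (a : K)
    (n : ℤ) : σ • (a ^ n) = (σ • a) ^ n := by
  show (MulSemiringAction.toRingHom G K σ) (a ^ n) = _
  rw [map_zpow₀]
  rfl

include I in
/-- The trichotomy for a Kummer extension `K₀(μ)`: trivial, peu ramifiée, très ramifiée. -/
theorem kummer_trichotomy (hp2 : p ≠ 2)
    (hres : ∀ u : K, v u ≤ 1 → ∃ n : ℕ, v (u ^ (p ^ (n + 1)) - u) < 1)
    {ζ μ : K} (hζ : IsPrimitiveRoot ζ p) (hμ0 : μ ≠ 0) (hμp : ∀ σ : G, σ • (μ ^ p) = μ ^ p) :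
    (∃ i : ℕ, ∀ σ : G, σ • (ζ ^ i * μ) = ζ ^ i * μ) ∨
    (∃ w v' : K, w ≠ 0 ∧ (∀ σ : G, σ • w = w) ∧ (∀ σ : G, σ • v' = v') ∧ v v' = 1 ∧
      (μ * w) ^ p = 1 + p * v') ∨
    (∃ (r : ℕ) (s : ℤ), ¬ p ∣ r ∧ v (μ ^ r * (p : K) ^ s) ^ p = v (p : K)) := by
  classical
  have hp := I.prime
  have hp0 := hp.ne_zero
  have hpK := I.p_ne_zero
  have hζ1 := hζ.pow_eq_one
  have hζ0 : ζ ≠ 0 := hζ.ne_zero hp0
  have hvp0 := I.v_p_pos
  have hvp1 := I.v_p_lt
  obtain ⟨n, hn⟩ := I.v_fixed (μ ^ p) hμp (pow_ne_zero _ hμ0)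
  by_cases hpn : (p : ℤ) ∣ n
  · obtain ⟨m, rfl⟩ := hpn
    have hvμ : v μ = v (p : K) ^ m := by
      rw [map_pow, mul_comm, zpow_mul, zpow_natCast] at hn
      exact (pow_left_inj₀ zero_le zero_le hp0).mp hn
    set w₀ : K := (p : K) ^ (-m) with hw₀
    have hw₀0 : w₀ ≠ 0 := zpow_ne_zero _ hpK
    have hw₀f : ∀ σ : G, σ • w₀ = w₀ := fun σ => by rw [hw₀, smul_zpow', smul_natCast']
    have hv0 : v (μ * w₀) = 1 := by
      rw [map_mul, hvμ, hw₀, map_zpow₀, ← zpow_add₀ hvp0.ne', add_neg_cancel, zpow_zero]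
    set u : K := (μ * w₀) ^ p with hu
    have huf : ∀ σ : G, σ • u = u := fun σ => by
      rw [hu, mul_pow, smul_mul', hμp, smul_pow', hw₀f]
    have hvu : v u = 1 := by rw [hu, map_pow, hv0, one_pow]
    have hu0 : u ≠ 0 := by
      intro h
      rw [h, map_zero] at hvu
      exact zero_ne_one hvu
    obtain ⟨k, hk⟩ := hres u hvu.le
    set w : K := w₀ * (u ^ p ^ k)⁻¹ with hw
    have hw0 : w ≠ 0 := mul_ne_zero hw₀0 (inv_ne_zero (pow_ne_zero _ hu0))
    have hwf : ∀ σ : G, σ • w = w := fun σ => by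
      rw [hw, smul_mul', hw₀f, smul_inv'', smul_pow', huf]
    have hvw : v (μ * w) = 1 := by
      rw [hw, ← mul_assoc, map_mul, hv0, map_inv₀, map_pow, hvu, one_pow, inv_one, one_mul]
    set y : K := (μ * w) ^ p - 1 with hy
    have hyf : ∀ σ : G, σ • y = y := fun σ => by
      rw [hy, smul_sub, smul_one, mul_pow, smul_mul', hμp, smul_pow', hwf]
    have hvy : v y < 1 := by
      have e : y = -((u ^ p ^ (k + 1))⁻¹ * (u ^ p ^ (k + 1) - u)) := by
        have h1 : (μ * w) ^ p = u * (u ^ p ^ (k + 1))⁻¹ := by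
          rw [hw, ← mul_assoc, mul_pow, ← hu, inv_pow, ← pow_mul, pow_succ]
        rw [hy, h1]
        field_simp
        ring
      rw [e, Valuation.map_neg, map_mul, map_inv₀, map_pow, hvu, one_pow, inv_one, one_mul]
      exact hk
    by_cases hy0 : y = 0
    · -- `μ w` is a root of unity
      left
      have h1 : (μ * w) ^ p = 1 := sub_eq_zero.mp hy0
      have : NeZero p := ⟨hp0⟩
      obtain ⟨i, hi, h⟩ := hζ.eq_pow_of_pow_eq_one h1
      refine ⟨p - i, fun σ => ?_⟩
      have h2 : ζ ^ (p - i) * μ = w⁻¹ := by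
        have h3 : ζ ^ (p - i) * ζ ^ i = 1 := by
          rw [← pow_add, Nat.sub_add_cancel hi.le, hζ1]
        rw [← mul_eq_one_iff_eq_inv₀ hw0, mul_assoc, ← h, h3]
      rw [h2, smul_inv'', hwf]
    obtain ⟨l, hl⟩ := I.v_fixed y hyf hy0
    have hl1 : 1 ≤ l := by
      by_contra hcon
      push Not at hcon
      have h1 : v y ≤ 1 → False := fun _ => by
        rw [hl] at hvy
        have : 1 ≤ v (p : K) ^ l := by
          have h2 : l = -((-l).toNat : ℤ) := by omega
          rw [h2, zpow_neg, zpow_natCast]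
          exact (one_le_inv₀ (pow_pos hvp0 _)).mpr (pow_le_one₀ zero_le hvp1.le)
        exact absurd hvy (not_lt.mpr this)
      exact h1 hvy.le
    by_cases hl2 : l = 1
    · -- peu ramifiée
      right; left
      refine ⟨w, y / p, hw0, hwf, fun σ => ?_, ?_, ?_⟩
      · rw [smul_div₀', hyf, smul_natCast']
      · rw [map_div₀, hl, hl2, zpow_one, div_self hvp0.ne']
      · rw [hy]
        field_simp
        ring
    · left
      have hvy2 : v y ≤ v (p : K) ^ 2 := by
        rw [hl, ← zpow_natCast]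
        exact (zpow_le_zpow_iff_right_of_lt_one₀ hvp0 hvp1).mpr (by push_cast; omega)
      have hϖ0 : 0 < v (ζ - 1) := by
        rw [Valuation.pos_iff]; exact zeta_sub_one_ne_zero hp hζ
      have hϖ1 : v (ζ - 1) < 1 := v_zeta_sub_one_lt hp hζ hvp1
      have hϖp := v_zeta_sub_one_pow (v := v) hp hζ
      have hp3 : 3 ≤ p := by
        have := hp.two_le
        omega
      -- one of the factors of `(μ w) ^ p - 1` is small
      obtain ⟨i, hi, hsmall⟩ : ∃ i < p, v (μ * w - ζ ^ i) < v (ζ - 1) := by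
        by_contra hcon
        push Not at hcon
        have hprod : y = ∏ i ∈ range p, (μ * w - ζ ^ i) := by
          have h1 := Polynomial.X_pow_sub_one_eq_prod hp.pos hζ
          have h2 := congrArg (Polynomial.eval (μ * w)) h1
          rw [Polynomial.eval_sub, Polynomial.eval_pow, Polynomial.eval_X, Polynomial.eval_one,
            Polynomial.eval_prod] at h2
          rw [hy, h2]
          refine (Finset.prod_bij (fun i _ => ζ ^ i) ?_ ?_ ?_ ?_).symm
          · intro i _
            rw [Polynomial.mem_nthRootsFinset hp.pos, ← pow_mul, mul_comm, pow_mul, hζ1, one_pow]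
          · intro i hi j hj h
            exact hζ.pow_inj (Finset.mem_range.mp hi) (Finset.mem_range.mp hj) h
          · intro b hb
            have : NeZero p := ⟨hp0⟩
            rw [Polynomial.mem_nthRootsFinset hp.pos] at hb
            obtain ⟨i, hi, h⟩ := hζ.eq_pow_of_pow_eq_one hb
            exact ⟨i, Finset.mem_range.mpr hi, h⟩
          · intro i _
            simp
        have h1 : v (ζ - 1) ^ p ≤ v y := by
          rw [hprod, map_prod]
          calc v (ζ - 1) ^ p = ∏ i ∈ range p, v (ζ - 1) := by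
                rw [Finset.prod_const, Finset.card_range]
            _ ≤ ∏ i ∈ range p, v (μ * w - ζ ^ i) :=
                Finset.prod_le_prod' fun i hi => hcon i (Finset.mem_range.mp hi)
        have h2 : v (p : K) ^ 2 < v (ζ - 1) ^ p := by
          obtain ⟨q, rfl⟩ : ∃ q, p = q + 1 := ⟨p - 1, by omega⟩
          rw [← hϖp, Nat.add_sub_cancel, ← pow_mul]
          exact pow_lt_pow_right_of_lt_one₀ hϖ0 hϖ1 (by omega)
        exact absurd (h1.trans hvy2) (not_le.mpr h2)
      set μ' : K := ζ ^ (p - i) * μ * w with hμ'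
      have hζi : ζ ^ (p - i) * ζ ^ i = 1 := by
        rw [← pow_add, Nat.sub_add_cancel hi.le, hζ1]
      have hvζ : v ζ = 1 := v_zeta hp hζ
      have hμ's : v (μ' - 1) < v (ζ - 1) := by
        have e : μ' - 1 = ζ ^ (p - i) * (μ * w - ζ ^ i) := by
          rw [hμ']
          linear_combination hζi
        rw [e, map_mul, map_pow, hvζ, one_pow, one_mul]
        exact hsmall
      have hμ'0 : μ' ≠ 0 := mul_ne_zero (mul_ne_zero (pow_ne_zero _ hζ0) hμ0) hw0
      have hμ'p : ∀ σ : G, σ • (μ' ^ p) = μ' ^ p := by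
        intro σ
        have e : μ' ^ p = μ ^ p * w ^ p := by
          rw [hμ', mul_pow, mul_pow, ← pow_mul, mul_comm (p - i) p, pow_mul, hζ1, one_pow, one_mul]
        rw [e, smul_mul', hμp, smul_pow', hwf]
      have hvμ' : v μ' = 1 := by
        rw [hμ', mul_assoc, map_mul, map_pow, hvζ, one_pow, one_mul, hvw]
      have hfix : ∀ σ : G, σ • μ' = μ' := by
        intro σ
        obtain ⟨k', hk', hk''⟩ := I.exists_smul_mu_eq' hζ hμ'0 hμ'p σ
        by_cases h0 : k' = 0
        · rw [hk'', h0, pow_zero, one_mul]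
        exfalso
        have h1 : v (σ • μ' - μ') = v (ζ - 1) := by
          rw [hk'', show ζ ^ k' * μ' - μ' = (ζ ^ k' - 1) * μ' by ring, map_mul, hvμ', mul_one]
          refine v_zeta_pow_sub_one hp hζ fun hdvd => ?_
          exact absurd (Nat.le_of_dvd (Nat.pos_of_ne_zero h0) hdvd) (not_le.mpr hk')
        have h2 : v (σ • μ' - μ') < v (ζ - 1) := by
          have e : σ • μ' - μ' = σ • (μ' - 1) - (μ' - 1) := by
            rw [smul_sub, smul_one]; ring
          rw [e]
          refine v.map_sub_lt ?_ hμ's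
          rw [I.v_smul]
          exact hμ's
        exact h2.ne h1
      refine ⟨p - i, fun σ => ?_⟩
      have h1 := hfix σ
      rw [hμ', smul_mul', hwf] at h1
      exact mul_right_cancel₀ hw0 h1
  · -- très ramifiée
    right; right
    have hcop : IsCoprime n (p : ℤ) := by
      rw [isCoprime_comm, Int.isCoprime_iff_gcd_eq_one]
      rcases (Nat.dvd_prime hp).mp (Int.gcd_dvd_natAbs_left (p : ℤ) n) with h | h
      · exact h
      · exfalso
        apply hpn
        have := Int.gcd_dvd_right (p : ℤ) n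
        rwa [h] at this
    obtain ⟨a, b, hab⟩ := hcop
    -- `a * n + b * p = 1`
    refine ⟨(a % p).toNat, b + n * (a / p), ?_, ?_⟩
    · intro hdvd
      have hpz : (0 : ℤ) < p := by exact_mod_cast hp.pos
      have h1 : ((a % p).toNat : ℤ) = a % p := Int.toNat_of_nonneg (Int.emod_nonneg _ hpz.ne')
      have h2 : (p : ℤ) ∣ a % p := by
        rw [← h1]
        exact_mod_cast hdvd
      have h3 : (p : ℤ) ∣ a := (Int.dvd_iff_emod_eq_zero).mpr (by
        rcases h2 with ⟨c, hc⟩
        have h4 := Int.emod_nonneg a hpz.ne'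
        have h5 := Int.emod_lt_of_pos a hpz
        have h6 : c = 0 := by
          rw [hc] at h4 h5
          have : c < 1 := by
            by_contra hcon
            push Not at hcon
            nlinarith
          have : 0 ≤ c := by
            by_contra hcon
            push Not at hcon
            nlinarith
          omega
        rw [hc, h6, mul_zero])
      have h4 : (p : ℤ) ∣ 1 := by
        rw [← hab]
        exact dvd_add (Dvd.dvd.mul_right h3 _) (Dvd.intro_left _ rfl)
      have h5 : p ∣ 1 := by exact_mod_cast h4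
      exact hp.one_lt.ne' (Nat.dvd_one.mp h5)
    · have hpz : (0 : ℤ) < p := by exact_mod_cast hp.pos
      have h1 : ((a % p).toNat : ℤ) = a % p := Int.toNat_of_nonneg (Int.emod_nonneg _ hpz.ne')
      have h2 : v (μ ^ (a % p).toNat * (p : K) ^ (b + n * (a / p))) ^ p =
          v (p : K) ^ (n * (a % p) + p * (b + n * (a / p))) := by
        rw [map_mul, mul_pow, map_zpow₀, map_pow, ← pow_mul, mul_comm _ p, pow_mul,
          ← map_pow v μ p, hn, ← zpow_natCast _ (a % p).toNat, h1, ← zpow_mul, ← zpow_natCast _ p,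
          ← zpow_mul, ← zpow_add₀ hvp0.ne', mul_comm _ (p : ℤ)]
      rw [h2]
      have h3 : n * (a % p) + p * (b + n * (a / p)) = 1 := by
        have h4 := Int.emod_add_mul_ediv a p
        calc n * (a % p) + p * (b + n * (a / p)) = n * (a % p + p * (a / p)) + b * p := by ring
          _ = n * a + b * p := by rw [h4]
          _ = 1 := by linear_combination hab
      rw [h3, zpow_one]

end InertialAction

end Fermat.Agent.DR.AtP
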