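import Fermat.Agent.JAN.PlacesDesc
import Fermat.Agent.JAN.AnFun
import Fermat.Agent.Oldform

/-!
# Elliptic points of `X₀(M ℓ)`: forms

* `isCharForm_diag`: the form `A(ℓ τ)` of level `M ℓ`;
* `isQuot_alpha`, `isQuot_beta`: quotients of forms along the two degeneracy maps;
* `ordH_smul_of_slash`: invariance of the order of vanishing.
-/

set_option autoImplicit false
set_option linter.style.haveILetI false

noncomputable section

open UpperHalfPlane CongruenceSubgroup ModularCurve FermatJ Filter Set AlgebraicCurve ModularForm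
open ModularFormClass
open scoped MatrixGroups ModularForm Manifold Topology

namespace Fermat.Agent.DR.AtP.Ell

open Fermat.Agent.JAN Fermat.Agent.JAN.PlacesVal Fermat.Agent.JAN.PlacesExact

/-! ### Forms -/

theorem isCharForm_mono {M N : ℕ} (h : M ∣ N) {k : ℤ} {A : ℍ → ℂ} (hA : IsCharForm M k 1 A) :
    IsCharForm N k 1 A where
  holo := hA.holo
  slash γ := by
    have h1 : (γ : SL(2, ℤ)) ∈ Gamma0 M := by
      have h2 := γ.2
      rw [Gamma0_mem, ZMod.intCast_zmod_eq_zero_iff_dvd] at h2 ⊢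
      exact (Int.natCast_dvd_natCast.mpr h).trans h2
    have h3 := hA.slash ⟨_, h1⟩
    simpa using h3
  bdd := hA.bdd

/-- `f ↦ f ∣[k] diag(q, 1)` on modular forms. -/
def diagM {M N : ℕ} (k : ℤ) [NeZero N] {q : ℕ} (hq : q ≠ 0) (h : M * q ∣ N)
    (f : ModularForm (Gamma0 M : Subgroup (GL (Fin 2) ℝ)) k) :
    ModularForm (Gamma0 N : Subgroup (GL (Fin 2) ℝ)) k :=
  haveI : NeZero M := ⟨fun h0 => NeZero.ne N (by rw [h0, zero_mul, zero_dvd_iff] at h; exact h)⟩
  { toFun := ⇑f ∣[k] heckeDiagMatrix q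
    slash_action_eq' := fun γ hγ => Fermat.Agent.Oldform.slash_heckeDiagMatrix_slash_eq k hq h
      (fun γ hγ => SlashInvariantFormClass.slash_action_eq f γ hγ) γ hγ
    holo' := (ModularFormClass.holo f).slash k _
    bdd_at_cusps' := fun {c} hc => by
      obtain ⟨g, hg⟩ := Fermat.Agent.Oldform.exists_ratGL_heckeDiagMatrix q
      rw [hg]
      have hc' : IsCusp c (Gamma0 M : Subgroup (GL (Fin 2) ℝ)) :=
        hc.mono (Fermat.Agent.Oldform.map_gamma0_le_of_dvd ((Dvd.intro _ rfl).trans h))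
      exact OnePoint.IsBoundedAt.smul_iff.mp
        (ModularFormClass.bdd_at_cusps f (Fermat.Agent.Oldform.isCusp_ratGL_smul hc' g)) }

theorem slash_diag_apply {k : ℤ} {q : ℕ} (hq : q ≠ 0) (f : ℍ → ℂ) (τ : ℍ) :
    (f ∣[k] heckeDiagMatrix q) τ = (q : ℂ) ^ (k - 1) * f (heckeDiagMatrix q • τ) := by
  have hdet : (heckeDiagMatrix q).det.val = q := by
    have h1 : (heckeDiagMatrix q).det.val = (heckeDiagMatrix q : Matrix (Fin 2) (Fin 2) ℝ).det :=
      rfl
    rw [h1, val_heckeDiagMatrix hq, Matrix.det_fin_two_of]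
    ring
  have hpos : 0 < (heckeDiagMatrix q).det.val := by
    rw [hdet]
    exact_mod_cast Nat.pos_of_ne_zero hq
  have hden : denom (heckeDiagMatrix q) τ = 1 := by
    simp [denom, val_heckeDiagMatrix hq]
  rw [ModularForm.slash_apply, σ, if_pos hpos, ContinuousAlgEquiv.refl_apply, mul_assoc, hden,
    hdet, mul_comm]
  congr 1
  simp

/-- The form `A(q τ)`. -/
theorem isCharForm_diag {M N : ℕ} [NeZero M] [NeZero N] {k : ℤ} {q : ℕ} (hq : q ≠ 0)
    (h : M * q ∣ N) {A : ℍ → ℂ} (hA : IsCharForm M k 1 A) :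
    IsCharForm N k 1 (fun τ => A (heckeDiagMatrix q • τ)) := by
  have h1 := IsCharForm.of_modularForm (diagM k hq h hA.toModularForm)
  have h2 := h1.smul ((q : ℂ) ^ (k - 1))⁻¹
  have hq' : (q : ℂ) ≠ 0 := by exact_mod_cast hq
  have h3 : ((q : ℂ) ^ (k - 1))⁻¹ • (⇑(diagM k hq h hA.toModularForm) : ℍ → ℂ) =
      fun τ => A (heckeDiagMatrix q • τ) := by
    funext τ
    have h4 : (⇑(diagM k hq h hA.toModularForm) : ℍ → ℂ) τ =
        (⇑hA.toModularForm ∣[k] heckeDiagMatrix q) τ := rfl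
    rw [Pi.smul_apply, h4, slash_diag_apply hq, IsCharForm.coe_toModularForm, smul_eq_mul,
      inv_mul_cancel_left₀ (zpow_ne_zero _ hq')]
  rwa [h3] at h2

theorem hasExp_diag {q : ℕ} [NeZero q] {f : ℍ → ℂ} {ψ : LaurentSeries ℂ}
    (hf : HasExp (qc 1) f ψ) :
    HasExp (qc 1) (fun τ => f (heckeDiagMatrix q • τ)) (qExpand ℂ q ψ) := by
  have h1 := AnFun.hasExp_upper hf q 1 0
  rw [AnFun.zetaU_one, AnFun.twist_one] at h1
  have h2 : heckeDiagMatrix q = ((AnFun.upper q 1 0 : GL(2, ℝ)⁺) : GL (Fin 2) ℝ) := by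
    apply Units.ext
    rw [val_heckeDiagMatrix (NeZero.ne q)]
    simp [AnFun.upper, Matrix.GeneralLinearGroup.mkOfDetNeZero]
  rw [h2]
  exact h1

/-! ### Quotients of forms along the degeneracy maps -/

section Quot

variable {L : Type*} [Field L] [Algebra ℚ L] [Algebra L ℂ] {M ℓ : ℕ} [NeZero M] [NeZero ℓ]

theorem isQuot_alpha {f : FN L M} {k : ℤ} {A B : ℍ → ℂ} (h : IsQuot M (f : LaurentSeries L) k A B) :
    IsQuot (M * ℓ) ((heckeAlphaBar L M ℓ f : FN L (M * ℓ)) : LaurentSeries L) k A B := by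
  rw [coe_heckeAlphaBar]
  exact ⟨isCharForm_mono (dvd_mul_right M ℓ) h.num, isCharForm_mono (dvd_mul_right M ℓ) h.den,
    h.den_ne, h.exp⟩

theorem isQuot_beta {f : FN L M} {k : ℤ} {A B : ℍ → ℂ} (h : IsQuot M (f : LaurentSeries L) k A B) :
    IsQuot (M * ℓ) ((heckeBetaBar L M ℓ f : FN L (M * ℓ)) : LaurentSeries L) k
      (fun τ => A (heckeDiagMatrix ℓ • τ)) (fun τ => B (heckeDiagMatrix ℓ • τ)) := by
  rw [coe_heckeBetaBar]
  refine ⟨isCharForm_diag (NeZero.ne ℓ) dvd_rfl h.num, isCharForm_diag (NeZero.ne ℓ) dvd_rfl h.den,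
    ?_, ?_⟩
  · intro h0
    apply h.den_ne
    funext τ
    obtain ⟨σ, hσ⟩ : ∃ σ : ℍ, heckeDiagMatrix ℓ • σ = τ :=
      ⟨(heckeDiagMatrix ℓ)⁻¹ • τ, smul_inv_smul _ _⟩
    rw [← hσ]
    exact congrFun h0 σ
  · obtain ⟨β, hβ, hα⟩ := h.exp
    refine ⟨qExpand ℂ ℓ β, hasExp_diag hβ, ?_⟩
    have h1 : toC (qExpand L ℓ (f : LaurentSeries L)) * qExpand ℂ ℓ β =
        qExpand ℂ ℓ (toC (f : LaurentSeries L) * β) := by
      rw [map_mul, toC, toC, coeffMap_qExpand]
    rw [h1]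
    exact hasExp_diag hα

end Quot

/-! ### Invariance of orders -/

theorem ordH_smul_of_slash {k : ℤ} {A : ℍ → ℂ} (hA : MDiff A) {g : SL(2, ℤ)}
    (h : A ∣[k] g = A) (τ : ℍ) : ordH A (g • τ) = ordH A τ := by
  set a : ℂ := ((g 0 0 : ℤ) : ℂ) with ha
  set b : ℂ := ((g 0 1 : ℤ) : ℂ) with hb
  set c : ℂ := ((g 1 0 : ℤ) : ℂ) with hc
  set d : ℂ := ((g 1 1 : ℤ) : ℂ) with hd
  have hdet : a * d - b * c = 1 := by
    have h1 := g.det_coe
    rw [Matrix.det_fin_two] at h1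
    rw [ha, hb, hc, hd]
    exact_mod_cast h1
  have hden : ∀ σ : ℍ, denom g σ = c * σ + d := fun σ => by
    rw [ModularGroup.denom_apply]
  have hne : ∀ σ : ℍ, c * (σ : ℂ) + d ≠ 0 := fun σ => by
    rw [← hden]
    exact denom_ne_zero g σ
  have hcoe : ∀ σ : ℍ, ((g • σ : ℍ) : ℂ) = (a * σ + b) / (c * σ + d) := fun σ => by
    rw [coe_specialLinearGroup_apply]
    simp only [algebraMap_int_eq, eq_intCast, Complex.ofReal_intCast]
    rfl
  have h1 : ((A ∘ ofComplex) ∘ fun z : ℂ => (a * z + b) / (c * z + d)) =ᶠ[𝓝 (τ : ℂ)]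
      ((fun z : ℂ => (c * z + d) ^ k) * (A ∘ ofComplex)) := by
    filter_upwards [isOpen_upperHalfPlaneSet.mem_nhds τ.im_pos] with z hz
    have h2 := hcoe ⟨z, hz⟩
    have h3 := smul_apply_of_slash (c := 1) (by rwa [one_smul]) (⟨z, hz⟩ : ℍ)
    rw [hden, one_mul] at h3
    have h4 : ((⟨z, hz⟩ : ℍ) : ℂ) = z := rfl
    rw [h4] at h2 h3
    simp only [Function.comp_apply, Pi.mul_apply, ← h2, ofComplex_apply,
      ofComplex_apply_of_im_pos hz]
    exact h3
  have hder : HasDerivAt (fun z : ℂ => (a * z + b) / (c * z + d)) (1 / (c * (τ : ℂ) + d) ^ 2)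
      (τ : ℂ) := by
    have h2 := (((hasDerivAt_id (τ : ℂ)).const_mul a).add_const b).div
      (((hasDerivAt_id (τ : ℂ)).const_mul c).add_const d) (hne τ)
    convert! h2 using 1
    simp only [id]
    congr 1
    linear_combination -hdet
  have han : AnalyticAt ℂ (fun z : ℂ => (a * z + b) / (c * z + d)) (τ : ℂ) :=
    ((analyticAt_const.mul analyticAt_id).add analyticAt_const).div
      ((analyticAt_const.mul analyticAt_id).add analyticAt_const) (hne τ)
  have han' : AnalyticAt ℂ (fun z : ℂ => (c * z + d) ^ k) (τ : ℂ) :=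
    ((analyticAt_const.mul analyticAt_id).add analyticAt_const).zpow (hne τ)
  have hA' : AnalyticAt ℂ (A ∘ ofComplex) (τ : ℂ) := PlacesConst.analyticAt_ofComplex hA τ
  have h5 := analyticOrderAt_comp_of_deriv_ne_zero (f := A ∘ ofComplex) han (by
    rw [hder.deriv]
    exact one_div_ne_zero (pow_ne_zero 2 (hne τ)))
  have h6 : analyticOrderAt (fun z : ℂ => (c * z + d) ^ k) (τ : ℂ) = 0 :=
    han'.analyticOrderAt_eq_zero.mpr (zpow_ne_zero _ (hne τ))
  unfold ordH analyticOrderNatAt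
  rw [hcoe τ, ← h5, analyticOrderAt_congr h1, analyticOrderAt_mul han' hA', h6, zero_add]

end Fermat.Agent.DR.AtP.Ell
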