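import Fermat.Agent.DR.AtP.EllForm
import Fermat.Agent.JRED.ModularFF
import Fermat.Agent.QbarInst

/-!
# Elliptic points of order three: the two degeneracy maps agree

`restrict_eq_of_order`: if `W` is a place of `F_{Mℓ}` with `j(ℓ τ) = 0` at `W`, with order prime
to `3`, then the restrictions of `W` along `α` and `β` agree.
-/

set_option autoImplicit false
set_option linter.style.haveILetI false

noncomputable section

open UpperHalfPlane CongruenceSubgroup ModularCurve FermatJ Filter Set AlgebraicCurve ModularForm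
open ModularFormClass EisensteinSeries
open scoped MatrixGroups ModularForm Manifold Topology

namespace Fermat.Agent.DR.AtP.Ell

open Fermat.Agent.JAN Fermat.Agent.JAN.PlacesVal Fermat.Agent.JAN.PlacesExact
  Fermat.Agent.JAN.Places Fermat.Agent.JAN.PlacesCusp

/-! ### Restrictions of places -/

theorem restrictAlong_eq_of_ord {K F F' : Type*} [Field K] [Field F] [Field F'] [Algebra K F]
    [Algebra K F'] (φ ψ : F →ₐ[K] F') (hφ : φ.toRingHom.IsIntegral) (hψ : ψ.toRingHom.IsIntegral)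
    (w : Place K F') (h : ∀ f : F, f ≠ 0 → w.ord (φ f) = w.ord (ψ f)) :
    w.restrictAlong φ hφ = w.restrictAlong ψ hψ := by
  apply Place.ext
  ext f
  show φ f ∈ w.toValuationSubring ↔ ψ f ∈ w.toValuationSubring
  rcases eq_or_ne f 0 with rfl | hf
  · rw [map_zero, map_zero]
  · rw [Fermat.FF.mem_iff_ord w ((_root_.map_ne_zero φ).mpr hf),
      Fermat.FF.mem_iff_ord w ((_root_.map_ne_zero ψ).mpr hf), h f hf]

/-! ### Matrices -/

/-- entries of a matrix fixing `τ` -/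
theorem fixed_eqn {γ : SL(2, ℤ)} {τ : ℍ} (h : γ • τ = τ) :
    ((γ 1 0 : ℤ) : ℂ) * (τ : ℂ) ^ 2 + (((γ 1 1 : ℤ) : ℂ) - ((γ 0 0 : ℤ) : ℂ)) * τ -
      ((γ 0 1 : ℤ) : ℂ) = 0 := by
  have hne := denom_ne_zero γ τ
  rw [ModularGroup.denom_apply] at hne
  have h1 := congrArg (fun z : ℍ => (z : ℂ)) h
  rw [coe_specialLinearGroup_apply] at h1
  simp only [algebraMap_int_eq, eq_intCast, Complex.ofReal_intCast] at h1
  rw [div_eq_iff hne] at h1
  linear_combination -h1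

theorem smul_eqn {δ : SL(2, ℤ)} {τ : ℍ} {ℓ : ℕ} (hℓ : ℓ ≠ 0)
    (h : δ • τ = heckeDiagMatrix ℓ • τ) :
    ((ℓ * δ 1 0 : ℤ) : ℂ) * (τ : ℂ) ^ 2 + ((ℓ * δ 1 1 - δ 0 0 : ℤ) : ℂ) * τ -
      ((δ 0 1 : ℤ) : ℂ) = 0 := by
  have hne := denom_ne_zero δ τ
  rw [ModularGroup.denom_apply] at hne
  have h1 := congrArg (fun z : ℍ => (z : ℂ)) h
  rw [coe_specialLinearGroup_apply, coe_heckeDiagMatrix_smul hℓ] at h1
  simp only [algebraMap_int_eq, eq_intCast, Complex.ofReal_intCast] at h1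
  rw [div_eq_iff hne] at h1
  push_cast
  linear_combination -h1

/-- two integral quadratic relations of `τ ∈ ℍ` are proportional -/
theorem proportional {τ : ℍ} {a b c a' b' c' : ℤ}
    (h : (a : ℂ) * (τ : ℂ) ^ 2 + (b : ℂ) * τ - (c : ℂ) = 0)
    (h' : (a' : ℂ) * (τ : ℂ) ^ 2 + (b' : ℂ) * τ - (c' : ℂ) = 0) :
    a' * b = a * b' ∧ a' * c = a * c' := by
  have h1 : ((a' * b - a * b' : ℤ) : ℂ) * τ - ((a' * c - a * c' : ℤ) : ℂ) = 0 := by
    push_cast
    linear_combination (a' : ℂ) * h - (a : ℂ) * h'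
  have h2 := congrArg Complex.im h1
  have h3 : ((a' * b - a * b' : ℤ) : ℝ) * τ.im = 0 := by
    simpa using h2
  have h4 : a' * b - a * b' = 0 := by
    have := (mul_eq_zero.mp h3).resolve_right τ.im_pos.ne'
    exact_mod_cast this
  rw [h4, Int.cast_zero, zero_mul, zero_sub, neg_eq_zero] at h1
  have h5 : a' * c - a * c' = 0 := by exact_mod_cast h1
  constructor <;> omega

theorem gcd_eq_one {a b c d : ℤ} (hdet : a * d - b * c = 1) (htr : (a + d) ^ 2 = 1) :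
    Int.gcd (Int.gcd c b) (d - a) = 1 := by
  set g : ℕ := Int.gcd (Int.gcd c b) (d - a) with hg
  have h0 : (g : ℤ) ∣ (Int.gcd c b : ℤ) := Int.gcd_dvd_left _ _
  have h1 : (g : ℤ) ∣ c := h0.trans (Int.gcd_dvd_left _ _)
  have h2 : (g : ℤ) ∣ b := h0.trans (Int.gcd_dvd_right _ _)
  have h3 : (g : ℤ) ∣ d - a := Int.gcd_dvd_right _ _
  have h4 : (g : ℤ) * g ∣ 3 := by
    have h5 : (3 : ℤ) = -((d - a) * (d - a) + 4 * (b * c)) := by
      linear_combination htr - 4 * hdet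
    rw [h5]
    exact dvd_neg.mpr (dvd_add (mul_dvd_mul h3 h3) (Dvd.dvd.mul_left (mul_dvd_mul h2 h1) 4))
  have h6 : g * g ∣ 3 := by exact_mod_cast h4
  have h7 : g * g ≤ 3 := Nat.le_of_dvd (by norm_num) h6
  have h8 : g < 2 := by nlinarith
  have h9 : g ≠ 0 := by
    rintro h0
    rw [h0] at h6
    omega
  omega

/-- **The key point**: `δ τ = ℓ τ` and `γ ∈ Γ₀(M ℓ)` of order three fixing `τ` give
`δ ∈ Γ₀(M)`. -/
theorem mem_Gamma0_of_fixed {M ℓ : ℕ} (hℓ : ℓ ≠ 0) {γ δ : SL(2, ℤ)} {τ : ℍ}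
    (hγ : γ ∈ Gamma0 (M * ℓ)) (hτ : γ • τ = τ)
    (htr : ((γ 0 0 : ℤ) + γ 1 1) ^ 2 = 1) (hδ : δ • τ = heckeDiagMatrix ℓ • τ) :
    δ ∈ Gamma0 M := by
  have hdet : (γ 0 0 : ℤ) * γ 1 1 - γ 0 1 * γ 1 0 = 1 := by
    have := γ.det_coe
    rwa [Matrix.det_fin_two] at this
  have e1 := fixed_eqn hτ
  have e2 := smul_eqn hℓ hδ
  have e1' : ((γ 1 0 : ℤ) : ℂ) * (τ : ℂ) ^ 2 + ((γ 1 1 - γ 0 0 : ℤ) : ℂ) * τ -
      ((γ 0 1 : ℤ) : ℂ) = 0 := by
    push_cast
    exact e1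
  obtain ⟨h1, h2⟩ := proportional e1' e2
  have hg := gcd_eq_one hdet htr
  set u : ℤ := ℓ * δ 1 0 with hu
  have d1 : γ 1 0 ∣ u * γ 1 0 := dvd_mul_left _ _
  have d2 : γ 1 0 ∣ u * γ 0 1 := ⟨_, h2⟩
  have d3 : γ 1 0 ∣ u * (γ 1 1 - γ 0 0) := ⟨_, h1⟩
  have d4 : γ 1 0 ∣ u := by
    have h3 : γ 1 0 ∣ (Int.gcd (u * Int.gcd (γ 1 0) (γ 0 1)) (u * (γ 1 1 - γ 0 0)) : ℤ) := by
      refine Int.dvd_coe_gcd ?_ d3
      have h4 : γ 1 0 ∣ (Int.gcd (u * γ 1 0) (u * γ 0 1) : ℤ) := Int.dvd_coe_gcd d1 d2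
      rw [Int.gcd_mul_left] at h4
      push_cast at h4
      have h5 : (|u| : ℤ) * (Int.gcd (γ 1 0) (γ 0 1) : ℤ) ∣ u * (Int.gcd (γ 1 0) (γ 0 1) : ℤ) :=
        mul_dvd_mul_right ((abs_dvd_self u)) _
      exact h4.trans h5
    rw [Int.gcd_mul_left, hg] at h3
    push_cast at h3
    rw [mul_one] at h3
    exact h3.trans (abs_dvd_self u)
  rw [Gamma0_mem, ZMod.intCast_zmod_eq_zero_iff_dvd] at hγ ⊢
  have h5 : ((M * ℓ : ℕ) : ℤ) ∣ u := hγ.trans d4
  push_cast at h5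
  rw [hu, mul_comm (M : ℤ)] at h5
  exact (mul_dvd_mul_iff_left (by exact_mod_cast hℓ)).mp h5

/-- a fixed point whose multiplier is not a fourth root of unity is of order three -/
theorem trace_sq_of_denom {γ : SL(2, ℤ)} {τ : ℍ} (h : γ • τ = τ)
    (h4 : denom γ τ ^ (4 : ℤ) ≠ 1) : ((γ 0 0 : ℤ) + γ 1 1) ^ 2 = 1 := by
  have hdet : (γ 0 0 : ℤ) * γ 1 1 - γ 0 1 * γ 1 0 = 1 := by
    have := γ.det_coe
    rwa [Matrix.det_fin_two] at this
  have hdet' : ((γ 0 0 : ℤ) : ℂ) * ((γ 1 1 : ℤ) : ℂ) - ((γ 0 1 : ℤ) : ℂ) * ((γ 1 0 : ℤ) : ℂ) = 1 := by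
    exact_mod_cast hdet
  have e1 := fixed_eqn h
  have hden : denom γ τ = ((γ 1 0 : ℤ) : ℂ) * τ + ((γ 1 1 : ℤ) : ℂ) := by
    rw [ModularGroup.denom_apply]
  set t : ℤ := γ 0 0 + γ 1 1 with ht
  set μ : ℂ := denom γ τ with hμ
  have hchar : μ ^ 2 - (t : ℂ) * μ + 1 = 0 := by
    rw [hden, ht]
    push_cast
    linear_combination ((γ 1 0 : ℤ) : ℂ) * e1 - hdet'
  have hle := Places.trace_sq_le_of_fixed h
  rw [Matrix.trace_fin_two] at hle
  have hle' : t ^ 2 ≤ 4 := hle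
  have h5 : t ≤ 2 := by nlinarith
  have h6 : -2 ≤ t := by nlinarith
  have h7 : t = -2 ∨ t = -1 ∨ t = 0 ∨ t = 1 ∨ t = 2 := by omega
  have h4' : μ ^ 4 ≠ 1 := by exact_mod_cast h4
  rcases h7 with h7 | h7 | h7 | h7 | h7
  · exfalso
    rw [h7] at hchar
    push_cast at hchar
    have h8 : μ + 1 = 0 := by
      have : (μ + 1) ^ 2 = 0 := by linear_combination hchar
      exact pow_eq_zero_iff (two_ne_zero) |>.mp this
    apply h4'
    rw [show μ = -1 from by linear_combination h8]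
    norm_num
  · rw [h7]; norm_num
  · exfalso
    rw [h7] at hchar
    push_cast at hchar
    apply h4'
    have h8 : μ ^ 2 = -1 := by linear_combination hchar
    calc μ ^ 4 = (μ ^ 2) ^ 2 := by ring
      _ = 1 := by rw [h8]; norm_num
  · rw [h7]; norm_num
  · exfalso
    rw [h7] at hchar
    push_cast at hchar
    have h8 : μ - 1 = 0 := by
      have : (μ - 1) ^ 2 = 0 := by linear_combination hchar
      exact pow_eq_zero_iff (two_ne_zero) |>.mp this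
    apply h4'
    rw [show μ = 1 from by linear_combination h8]
    norm_num

/-- Forms of weight four vanish at such a point. -/
theorem form_eq_zero_of_denom {N : ℕ} {E : ℍ → ℂ} (hE : IsCharForm N 4 1 E) {γ : Gamma0 N} {τ : ℍ}
    (h : (γ : SL(2, ℤ)) • τ = τ) (h4 : denom (γ : SL(2, ℤ)) τ ^ (4 : ℤ) ≠ 1) : E τ = 0 := by
  have h1 := hE.apply_smul γ τ
  rw [h, MonoidHom.one_apply, Units.val_one, one_mul] at h1
  by_contra h0
  apply h4
  have h2 : (denom (γ : SL(2, ℤ)) τ ^ (4 : ℤ) - 1) * E τ = 0 := by linear_combination -h1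
  exact sub_eq_zero.mp ((mul_eq_zero.mp h2).resolve_right h0)

section Place

open MFF

variable {L : Type*} [Field L] [Algebra ℚ L] [Algebra L ℂ] [IsAlgClosed L]
  {M ℓ : ℕ} [NeZero M] [NeZero ℓ]

/-- A place where `j(d τ)` vanishes to an order prime to `3` is an elliptic point of order
three. -/
theorem elliptic_of_ord {N : ℕ} [NeZero N] {d : ℕ} [NeZero d] (hd : d ∣ N) {W : Place L (FN L N)}
    (h0 : 0 < W.ord (jd L d hd)) (h3 : ¬ (3 : ℤ) ∣ W.ord (jd L d hd)) :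
    ∃ (τ : ℍ) (γ : Gamma0 N), (γ : SL(2, ℤ)) • τ = τ ∧ denom (γ : SL(2, ℤ)) τ ^ (4 : ℤ) ≠ 1 ∧
      ∀ (f : FN L N) (k : ℤ) (A B : ℍ → ℂ), f ≠ 0 → IsQuot N (f : LaurentSeries L) k A B →
        (ordH A τ : ℤ) - ordH B τ = 3 * W.ord f := by
  have hj0 : jd L d hd ≠ 0 := by
    have := jd_sub_ne_zero (N := N) hd (0 : L)
    rwa [map_zero, sub_zero] at this
  have hq : IsQuot N ((jd L d hd : FN L N) : LaurentSeries L) 12 (liftMod hd E4cube)
      (liftMod hd Delta) := by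
    have h1 := isQuot_jd_sub hd (0 : L)
    rw [map_zero, sub_zero, map_zero] at h1
    convert h1 using 1
    funext τ
    rw [liftMod_apply, PlacesExact.jNum, Pi.sub_apply, Pi.smul_apply, zero_smul, sub_zero]
  rcases place_analytic W with ⟨τ, e, he, hdvd, hW⟩ | ⟨g, hW⟩
  · have h1 := hW _ 12 _ _ hj0 hq
    have h2 : ordH (liftMod hd E4cube) τ = ordH (⇑E4cube : ℍ → ℂ) (heckeDiagMatrix d • τ) := by
      rw [← ordH_comp_mul]
      congr 1
      funext σ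
      exact liftMod_apply hd _ σ
    have h3' : (⇑E4cube : ℍ → ℂ) = (⇑E₄ : ℍ → ℂ) ^ 3 := by
      funext σ
      have := jNum_apply 0 σ
      rw [PlacesExact.jNum, Pi.sub_apply, Pi.smul_apply, zero_smul, sub_zero, zero_mul,
        sub_zero] at this
      rw [this, Pi.pow_apply]
    rw [ordH_liftMod_Delta, h2, h3', PlacesVal.ordH_pow mdiff_E4] at h1
    have h4 : E₄ (heckeDiagMatrix d • τ) = 0 := by
      by_contra h
      rw [ordH_eq_zero_of_ne mdiff_E4 h] at h1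
      have : (0 : ℤ) < e * W.ord (jd L d hd) := mul_pos (by exact_mod_cast he) h0
      push_cast at h1
      omega
    rw [ordH_E4 h4] at h1
    have h5 : (e : ℤ) * W.ord (jd L d hd) = 3 := by
      push_cast at h1
      linarith
    have h6 : e ∣ 3 := by
      have : (e : ℤ) ∣ 3 := ⟨_, h5.symm⟩
      exact_mod_cast this
    have h7 : e = 3 := by
      rcases (Nat.dvd_prime Nat.prime_three).mp h6 with h | h
      · exfalso
        rw [h, Nat.cast_one, one_mul] at h5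
        exact h3 (by rw [h5])
      · exact h
    subst h7
    have h8 : ¬ ∀ γ : Gamma0 N, (γ : SL(2, ℤ)) • τ = τ →
        denom (γ : SL(2, ℤ)) τ ^ (2 * (2 : ℤ)) = 1 := by
      intro h
      have := hdvd 2 h
      omega
    push Not at h8
    obtain ⟨γ, hγ, hγ'⟩ := h8
    exact ⟨τ, γ, hγ, hγ', fun f k A B hf hfq => by
      have := hW f k A B hf hfq
      push_cast at this
      exact this⟩
  · exfalso
    have : NeZero (wid N g) := ⟨wid_ne_zero g⟩
    have hP := PlacesConst.hasPS_slash hq.num (wid_mem (N := N) g)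
    have hQ := PlacesConst.hasPS_slash hq.den (wid_mem (N := N) g)
    have h1 := hW _ 12 _ _ hj0 hq _ _ hP hQ
    have h2 : qExpansion (wid N g) ((⇑(liftMod hd E4cube) : ℍ → ℂ) ∣[(12 : ℤ)] g) ≠ 0 := by
      rw [Ne, hasPS_qc_eq_zero_iff hP]
      exact slash_ne_zero (liftMod_E4cube_ne_zero hd) g
    have h3 := (ordInf_of_hasPS hP h2).unique (ordInf_liftMod_E4cube hd g)
    have h4 : ((wid N g : ℕ) : ℝ) ≠ 0 := by exact_mod_cast wid_ne_zero (N := N) g
    have h5 := (div_eq_zero_iff.mp h3).resolve_right h4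
    have h6 : (qExpansion (wid N g)
        ((⇑(liftMod hd E4cube) : ℍ → ℂ) ∣[(12 : ℤ)] g)).order.toNat = 0 := by exact_mod_cast h5
    rw [h6] at h1
    push_cast at h1
    omega

/-- **The two degeneracy maps agree at elliptic points of order three.** -/
theorem restrict_eq_of_ord {d : ℕ} [NeZero d] (hd : d ∣ M * ℓ) {W : Place L (FN L (M * ℓ))}
    (h0 : 0 < W.ord (jd L d hd)) (h3 : ¬ (3 : ℤ) ∣ W.ord (jd L d hd))
    (hα : (heckeAlphaBar L M ℓ).toRingHom.IsIntegral)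
    (hβ : (heckeBetaBar L M ℓ).toRingHom.IsIntegral) :
    W.restrictAlong (heckeAlphaBar L M ℓ) hα = W.restrictAlong (heckeBetaBar L M ℓ) hβ := by
  have hℓ : ℓ ≠ 0 := NeZero.ne ℓ
  obtain ⟨τ, γ, hτ, hden, hW⟩ := elliptic_of_ord hd h0 h3
  have htr := trace_sq_of_denom hτ hden
  have hE : E₄ τ = 0 := by
    have h1 := form_eq_zero_of_denom (IsCharForm.of_modularForm (liftMod (one_dvd (M * ℓ)) E₄))
      hτ hden
    rwa [liftMod_apply, heckeDiagMatrix_one_smul] at h1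
  have hE' : E₄ (heckeDiagMatrix ℓ • τ) = 0 := by
    have h1 := form_eq_zero_of_denom (IsCharForm.of_modularForm (liftMod (dvd_mul_left ℓ M) E₄))
      hτ hden
    rwa [liftMod_apply] at h1
  obtain ⟨δ, hδ⟩ := VVMF.exists_smul_eq_of_E4_E6 τ (heckeDiagMatrix ℓ • τ) (by rw [hE, hE']; ring)
  have hδM := mem_Gamma0_of_fixed hℓ γ.2 hτ htr hδ
  have key : ∀ f : FN L M, f ≠ 0 → W.ord (heckeAlphaBar L M ℓ f) = W.ord (heckeBetaBar L M ℓ f) := by
    intro f hf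
    obtain ⟨k, A, B, hq⟩ := exists_isQuot f
    have hα0 : heckeAlphaBar L M ℓ f ≠ 0 := (_root_.map_ne_zero _).mpr hf
    have hβ0 : heckeBetaBar L M ℓ f ≠ 0 := (_root_.map_ne_zero _).mpr hf
    have h1 := hW _ k _ _ hα0 (isQuot_alpha hq)
    have h2 := hW _ k _ _ hβ0 (isQuot_beta hq)
    have hs : ∀ {A : ℍ → ℂ}, IsCharForm M k 1 A →
        ordH (fun σ => A (heckeDiagMatrix ℓ • σ)) τ = ordH A τ := by
      intro A hA
      rw [ordH_comp_mul, ← hδ]
      have h3 := hA.slash ⟨δ, hδM⟩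
      rw [MonoidHom.one_apply, Units.val_one, one_smul] at h3
      exact ordH_smul_of_slash hA.holo h3 τ
    rw [hs hq.num, hs hq.den] at h2
    have h3 : (3 : ℤ) * W.ord (heckeAlphaBar L M ℓ f) = 3 * W.ord (heckeBetaBar L M ℓ f) := by
      rw [← h1, ← h2]
    omega
  exact restrictAlong_eq_of_ord _ _ hα hβ W key

end Place

section Bar

variable {M ℓ : ℕ} [NeZero M] [NeZero ℓ]

open Fermat.Agent.JRED (jBar coe_jBar)

/-- **(*0b)**: the order of `j(ℓ τ)`. -/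
theorem restrict_eq_of_ord_beta {W : Place (AlgebraicClosure ℚ) (modularFunctionFieldBar (M * ℓ))}
    (h0 : 0 < W.ord (heckeBetaBar (AlgebraicClosure ℚ) M ℓ (jBar M)))
    (h3 : ¬ (3 : ℤ) ∣ W.ord (heckeBetaBar (AlgebraicClosure ℚ) M ℓ (jBar M)))
    (hα : (heckeAlphaBar (AlgebraicClosure ℚ) M ℓ).toRingHom.IsIntegral)
    (hβ : (heckeBetaBar (AlgebraicClosure ℚ) M ℓ).toRingHom.IsIntegral) :
    W.restrictAlong (heckeAlphaBar (AlgebraicClosure ℚ) M ℓ) hα =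
      W.restrictAlong (heckeBetaBar (AlgebraicClosure ℚ) M ℓ) hβ := by
  letI : Algebra (AlgebraicClosure ℚ) ℂ :=
    (IsAlgClosed.lift (M := ℂ) (S := AlgebraicClosure ℚ) (R := ℚ)).toRingHom.toAlgebra
  have h : heckeBetaBar (AlgebraicClosure ℚ) M ℓ (jBar M) =
      jd (AlgebraicClosure ℚ) ℓ (dvd_mul_left ℓ M) := by
    apply Subtype.ext
    rw [coe_heckeBetaBar, coe_jBar]
    rfl
  rw [h] at h0 h3
  exact restrict_eq_of_ord (dvd_mul_left ℓ M) h0 h3 hα hβ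

/-- The same with the order of `j(τ)`. -/
theorem restrict_eq_of_ord_alpha {W : Place (AlgebraicClosure ℚ) (modularFunctionFieldBar (M * ℓ))}
    (h0 : 0 < W.ord (heckeAlphaBar (AlgebraicClosure ℚ) M ℓ (jBar M)))
    (h3 : ¬ (3 : ℤ) ∣ W.ord (heckeAlphaBar (AlgebraicClosure ℚ) M ℓ (jBar M)))
    (hα : (heckeAlphaBar (AlgebraicClosure ℚ) M ℓ).toRingHom.IsIntegral)
    (hβ : (heckeBetaBar (AlgebraicClosure ℚ) M ℓ).toRingHom.IsIntegral) :
    W.restrictAlong (heckeAlphaBar (AlgebraicClosure ℚ) M ℓ) hα =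
      W.restrictAlong (heckeBetaBar (AlgebraicClosure ℚ) M ℓ) hβ := by
  letI : Algebra (AlgebraicClosure ℚ) ℂ :=
    (IsAlgClosed.lift (M := ℂ) (S := AlgebraicClosure ℚ) (R := ℚ)).toRingHom.toAlgebra
  have h : heckeAlphaBar (AlgebraicClosure ℚ) M ℓ (jBar M) =
      jd (AlgebraicClosure ℚ) 1 (one_dvd (M * ℓ)) := by
    apply Subtype.ext
    rw [coe_heckeAlphaBar, coe_jBar]
    show _ = qExpand (AlgebraicClosure ℚ) 1 (jqModC (AlgebraicClosure ℚ))
    rw [qExpand_one_apply]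
  rw [h] at h0 h3
  exact restrict_eq_of_ord (one_dvd (M * ℓ)) h0 h3 hα hβ

end Bar

end Fermat.Agent.DR.AtP.Ell
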