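import Fermat.Agent.JRED.AtkinLehnerInput
import Fermat.Agent.JRED.Interface
import Fermat.Agent.Jan.DegreeWiring
import Fermat.Agent.JAN.Degeneracy

set_option autoImplicit false

/-!
# Places above `j = 0` with a trivial ramification, modulo 3

`T_ℓ [P] ≡ (ℓ + 1) [P]  (mod 3)` for a place `P` of the function field of `X₀(M)` with
`0 < ord_P j`, `¬ 3 ∣ ord_P j`, from the corresponding statement on restrictions of places
of `X₀(Mℓ)` along the two degeneracy maps.
-/

noncomputable section

open AlgebraicCurve ModularCurve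

namespace Fermat.Agent.DR.AtP.EllC

section Abstract

variable {K F Z : Type*} [Field K] [Field F] [Field Z] [Algebra K F] [Algebra K Z]
  [HasPrincipalDivisors K Z] (φ ψ : F →ₐ[K] Z) (hφ : φ.toRingHom.IsIntegral)
  (hψ : ψ.toRingHom.IsIntegral)

omit [HasPrincipalDivisors K Z] in
theorem deg_restrictAlong_mul_inertiaDegAlong (W : Place K Z) :
    (W.restrictAlong ψ hψ).deg * W.inertiaDegAlong ψ hψ = W.deg := by
  let := algebraAlong ψ
  have := isScalarTower_along ψ
  have := isIntegral_along ψ hψ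
  exact W.deg_restrict_mul_inertiaDeg

theorem sum_ramificationIndexAlong_mul_deg (hFI : FundamentalIdentityAlong K φ hφ)
    (P : Place K F) :
    ∑ W ∈ Place.fiberAlong φ hφ P, (W.ramificationIndexAlong φ : ℤ) * (W.deg : ℤ) =
      (finrankAlong K φ : ℤ) * (P.deg : ℤ) := by
  let := algebraAlong φ
  have := isScalarTower_along φ
  have := isIntegral_along φ hφ
  exact hFI.sum_ramificationIndex_mul_deg P

theorem correspondence_single (P : Place K F) :
    Divisor.correspondence φ ψ hφ hψ (Finsupp.single P 1) =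
      ∑ W ∈ Place.fiberAlong φ hφ P, Finsupp.single (W.restrictAlong ψ hψ)
        ((W.ramificationIndexAlong φ : ℤ) * (W.inertiaDegAlong ψ hψ : ℤ)) := by
  rw [Divisor.correspondence_apply, Place.fiberAlong.eq_1, Divisor.pullbackAlong_single, map_sum]
  refine Finset.sum_congr rfl fun W _ => ?_
  rw [Divisor.pushforwardAlong_single, one_mul]

/-- If all the places `W` above `P` (along `φ`) whose ramification index is not divisible by `n`
are also above `P` along `ψ`, then the correspondence is `≡ (deg φ) [P]` modulo `n`. -/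
theorem dvd_correspondence_sub (hFI : FundamentalIdentityAlong K φ hφ)
    (hF : ∀ P : Place K F, P.deg = 1) (hZ : ∀ W : Place K Z, W.deg = 1) {n : ℤ} {P : Place K F}
    (h : ∀ W : Place K Z, W.restrictAlong φ hφ = P → ¬ n ∣ (W.ramificationIndexAlong φ : ℤ) →
      W.restrictAlong ψ hψ = P) (Q : Place K F) :
    n ∣ Divisor.correspondence φ ψ hφ hψ (Finsupp.single P 1) Q -
      (finrankAlong K φ : ℤ) * (Finsupp.single P 1 : Divisor K F) Q := by
  have h1 : (finrankAlong K φ : ℤ) =
      ∑ W ∈ Place.fiberAlong φ hφ P, (W.ramificationIndexAlong φ : ℤ) := by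
    have := sum_ramificationIndexAlong_mul_deg φ hφ hFI P
    simp only [hF, hZ, Nat.cast_one, mul_one] at this
    exact this.symm
  have hin : ∀ W : Place K Z, W.inertiaDegAlong ψ hψ = 1 := fun W => by
    have := deg_restrictAlong_mul_inertiaDegAlong ψ hψ W
    rwa [hF, hZ, one_mul] at this
  rw [correspondence_single, h1, Finset.sum_apply', Finset.sum_mul, ← Finset.sum_sub_distrib]
  refine Finset.dvd_sum fun W hW => ?_
  rw [Place.mem_fiberAlong] at hW
  rw [hin, Nat.cast_one, mul_one]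
  by_cases hd : n ∣ (W.ramificationIndexAlong φ : ℤ)
  · refine dvd_sub ?_ (hd.mul_right _)
    by_cases hQ : Q = W.restrictAlong ψ hψ
    · subst hQ
      rwa [Finsupp.single_eq_same]
    · rw [Finsupp.single_eq_of_ne hQ]
      exact dvd_zero n
  · rw [h W hW hd]
    by_cases hQ : Q = P
    · subst hQ
      rw [Finsupp.single_eq_same, Finsupp.single_eq_same, mul_one, sub_self]
      exact dvd_zero n
    · rw [Finsupp.single_eq_of_ne hQ, Finsupp.single_eq_of_ne hQ, mul_zero, sub_self]
      exact dvd_zero n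

/-- The same in terms of the order of the image of a function `x` of positive order prime to `p`
at `P`. -/
theorem dvd_correspondence_sub_of_ord (hFI : FundamentalIdentityAlong K φ hφ)
    (hF : ∀ P : Place K F, P.deg = 1) (hZ : ∀ W : Place K Z, W.deg = 1) {p : ℤ} (hp : Prime p)
    {x : F} (h : ∀ W : Place K Z, 0 < W.ord (φ x) → ¬ p ∣ W.ord (φ x) →
      W.restrictAlong ψ hψ = W.restrictAlong φ hφ) {P : Place K F} (hP : 0 < P.ord x)
    (hpP : ¬ p ∣ P.ord x) (Q : Place K F) :
    p ∣ Divisor.correspondence φ ψ hφ hψ (Finsupp.single P 1) Q -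
      (finrankAlong K φ : ℤ) * (Finsupp.single P 1 : Divisor K F) Q := by
  refine dvd_correspondence_sub φ ψ hφ hψ hFI hF hZ (fun W hW hn => ?_) Q
  have h1 : W.ord (φ x) = (W.ramificationIndexAlong φ : ℤ) * P.ord x := by
    rw [Place.ord_restrictAlong φ hφ, hW]
  have h2 : (0 : ℤ) < (W.ramificationIndexAlong φ : ℤ) := by
    rcases Nat.eq_zero_or_pos (W.ramificationIndexAlong φ) with h0 | h0
    · rw [h0] at hn
      exact absurd (dvd_zero p) hn
    · exact_mod_cast h0
  rw [h W (by rw [h1]; exact mul_pos h2 hP) (by rw [h1]; exact hp.not_dvd_mul hn hpP), hW]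

end Abstract

section Modular

variable (L : Type) [Field L] [Algebra ℚ L] [IsAlgClosed L]

/-- `T_ℓ [P] ≡ (ℓ + 1) [P]  (mod p)`, in the form `pull back along φ`, `push along ψ`, for any pair
of degeneracy maps `φ`, `ψ` (both of degree `ℓ + 1`). -/
theorem dvd_correspondence_sub_modular (M ℓ : ℕ) [NeZero M] [NeZero ℓ] {d : ℕ}
    [HasPrincipalDivisors L (laurentBaseChange L (modularFunctionFieldFull (M * ℓ)))]
    {φ ψ : laurentBaseChange L (modularFunctionFieldFull M) →ₐ[L]
      laurentBaseChange L (modularFunctionFieldFull (M * ℓ))}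
    (hφ : φ.toRingHom.IsIntegral) (hψ : ψ.toRingHom.IsIntegral)
    (hFI : FundamentalIdentityAlong L φ hφ) (hd : finrankAlong L φ = d) {p : ℤ} (hp : Prime p)
    {x : laurentBaseChange L (modularFunctionFieldFull M)}
    (h : ∀ W : Place L (laurentBaseChange L (modularFunctionFieldFull (M * ℓ))),
      0 < W.ord (φ x) → ¬ p ∣ W.ord (φ x) → W.restrictAlong ψ hψ = W.restrictAlong φ hφ)
    {P : Place L (laurentBaseChange L (modularFunctionFieldFull M))} (hP : 0 < P.ord x)
    (hpP : ¬ p ∣ P.ord x) (Q : Place L (laurentBaseChange L (modularFunctionFieldFull M))) :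
    p ∣ Divisor.correspondence φ ψ hφ hψ (Finsupp.single P 1) Q -
      (d : ℤ) * (Finsupp.single P 1 :
        Divisor L (laurentBaseChange L (modularFunctionFieldFull M))) Q := by
  rw [← hd]
  exact dvd_correspondence_sub_of_ord φ ψ hφ hψ hFI
    (fun P => Fermat.Agent.JAN.Degeneracy.deg_place P) (fun W => Fermat.Agent.JAN.Degeneracy.deg_place W) hp h hP hpP Q

end Modular

/-- **(*0c)** `T_ℓ [P] ≡ (ℓ + 1) [P]  (mod 3)` at a place with `0 < ord_P j`, `¬ 3 ∣ ord_P j`. -/
theorem three_dvd_correspondence_sub (M ℓ : ℕ) [NeZero M] [NeZero ℓ] (hℓ : ℓ.Prime)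
    (hM : ¬ ℓ ∣ M)
    [HasPrincipalDivisors (AlgebraicClosure ℚ) (modularFunctionFieldBar (M * ℓ))]
    (hβ : (heckeBetaBar (AlgebraicClosure ℚ) M ℓ).toRingHom.IsIntegral)
    (hα : (heckeAlphaBar (AlgebraicClosure ℚ) M ℓ).toRingHom.IsIntegral)
    (h : ∀ W : Place (AlgebraicClosure ℚ) (modularFunctionFieldBar (M * ℓ)),
      0 < W.ord (heckeBetaBar (AlgebraicClosure ℚ) M ℓ (JRED.jBar M)) →
      ¬ (3 : ℤ) ∣ W.ord (heckeBetaBar (AlgebraicClosure ℚ) M ℓ (JRED.jBar M)) →
      W.restrictAlong (heckeAlphaBar (AlgebraicClosure ℚ) M ℓ) hα =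
        W.restrictAlong (heckeBetaBar (AlgebraicClosure ℚ) M ℓ) hβ)
    {P : Place (AlgebraicClosure ℚ) (modularFunctionFieldBar M)} (hP : 0 < P.ord (JRED.jBar M))
    (h3 : ¬ (3 : ℤ) ∣ P.ord (JRED.jBar M))
    (Q : Place (AlgebraicClosure ℚ) (modularFunctionFieldBar M)) :
    (3 : ℤ) ∣ Divisor.correspondence (heckeBetaBar (AlgebraicClosure ℚ) M ℓ)
        (heckeAlphaBar (AlgebraicClosure ℚ) M ℓ) hβ hα (Finsupp.single P 1) Q -
      ((ℓ : ℤ) + 1) * (Finsupp.single P 1 :
        Divisor (AlgebraicClosure ℚ) (modularFunctionFieldBar M)) Q := by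
  have hFI : FundamentalIdentityAlong (AlgebraicClosure ℚ)
      (heckeBetaBar (AlgebraicClosure ℚ) M ℓ) hβ := by
    obtain ⟨_, _, _, _, hFI, _⟩ :=
      Jan.DegreeWiring.heckeInputsAlong' (N := M) (AlgebraicClosure ℚ) ℓ
    exact hFI
  have := dvd_correspondence_sub_modular (AlgebraicClosure ℚ) M ℓ hβ hα hFI
    (JRED.AL.finrankAlong_beta_of_not_dvd (AlgebraicClosure ℚ) M ℓ hℓ hM) Int.prime_three
    h hP h3 Q
  rwa [Nat.cast_add, Nat.cast_one] at this

end Fermat.Agent.DR.AtP.EllC
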