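import Fermat.Agent.DR.AtP.FinalE
import Fermat.Agent.DR.Mazur.Core
import Fermat.Agent.FlatMatch.BLR
import Fermat.Agent.S30Wiring

/-!
# Mazur's principle at `p`: the final algebra

`J` a Hecke–Galois module, `χ` a mod `p` system of eigenvalues occurring in `J[p]`, attached to an
absolutely irreducible `ρ`. By Boston–Lenstra–Ribet the maps `ρ → J[p][χ]` separate points.
-/

set_option autoImplicit false
set_option linter.style.haveILetI false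

open Polynomial IsLocalRing

namespace Fermat.Agent.DR.AtP

open Fermat.Agent.S30Assembly Fermat.Agent.CMP.Transfer Fermat.Agent.Cyclotomic
  Fermat.Agent.DR.Mazur Fermat.FlatMatch

local notation "Qbar" => AlgebraicClosure ℚ
local notation "Γℚ" => (AlgebraicClosure ℚ ≃ₐ[ℚ] AlgebraicClosure ℚ)

section Family

variable {p : ℕ} [hp : Fact p.Prime] {A J : Type*} [CommRing A] [AddCommGroup J] [Module A J]
variable [DistribMulAction Γℚ J] [SMulCommClass Γℚ A J]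
variable (S : Finset ℕ) (x : ℕ → A)
    (hlev : ∀ n : ℕ, ∃ L : IntermediateField ℚ Qbar, FiniteDimensional ℚ L ∧
      ∀ σ : Γℚ, (∀ y ∈ L, σ y = y) → ∀ m : J, p ^ n • m = 0 → σ • m = m)
    (hfrob : ∀ ℓ : ℕ, ℓ.Prime → ℓ ∉ S → ∀ B : ValuationSubring Qbar, B.LiesOverPrime ℓ →
      ∀ σ : Γℚ, B.IsFrobeniusAt σ ℓ → ∀ m : J, (∃ n : ℕ, p ^ n • m = 0) →
        σ • σ • m - x ℓ • (σ • m) + ℓ • m = 0)
    (χ : A →+* ZMod p) (ρ : ResidualGaloisRep (ZMod p))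
    (hρ : ∀ ℓ : ℕ, ℓ.Prime → ℓ ∉ S → ∀ B : ValuationSubring Qbar, B.LiesOverPrime ℓ →
      ∀ σ : Γℚ, B.IsFrobeniusAt σ ℓ →
        LinearMap.charpoly (ρ.ρ σ) = X ^ 2 - C (χ (x ℓ)) * X + C (ℓ : ZMod p))
    (habs : ρ.IsAbsolutelyIrreducible) (hp2 : p ≠ 2)

include hlev hfrob hρ habs hp2 in
omit [SMulCommClass Γℚ A J] in
theorem exists_family_aux (V : AddSubgroup J) (hVt : V ≤ tors J χ) [Module (ZMod p) V]
    (hV : ∀ (g : Γℚ), ∀ m ∈ V, g • m ∈ V) {m₀ : J} (hm₀ : m₀ ∈ V) (hm₀' : m₀ ≠ 0) :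
    ∃ e : V → ρ.V →+ J, (∀ w v, e w v ∈ V) ∧
      (∀ w g v, e w (ρ.ρ g v) = g • e w v) ∧ ∀ v, (∀ w, e w v = 0) → v = 0 := by
  have hrel : ∀ g, repOn p V hV g + LinearMap.det (ρ.ρ g) • repOn p V hV g⁻¹ =
      LinearMap.trace (ZMod p) ρ.V (ρ.ρ g) • 1 := by
    intro g
    refine LinearMap.ext fun v => ?_
    exact hθ_repOn S x hlev hfrob χ ρ hρ V hVt hV g v
  have h2 : IsUnit (2 : ZMod p) := by
    rw [isUnit_iff_ne_zero]
    intro h
    have : ((2 : ℕ) : ZMod p) = 0 := by exact_mod_cast h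
    rw [ZMod.natCast_eq_zero_iff] at this
    exact hp2 ((Nat.prime_dvd_prime_iff_eq hp.out Nat.prime_two).mp this)
  let b := Module.finBasisOfFinrankEq (ZMod p) ρ.V ρ.finrank_eq
  obtain ⟨Ψ, hΨ⟩ := exists_algHom b h2 hrel (span_eq_top ρ habs)
  refine ⟨fun w => V.subtype.comp
    (((LinearMap.proj w : (V → V) →ₗ[ZMod p] V) ∘ₗ
      embPi b Ψ).toAddMonoidHom), fun w v => (embPi b Ψ v w).2, ?_, ?_⟩
  · intro w g v
    have := embPi_equivariant b Ψ hΨ g v w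
    have h3 := congrArg (fun z : V => (z : J)) this
    exact h3
  · intro v hv
    have h4 : embPi b Ψ v = 0 := funext fun w => Subtype.ext (hv w)
    have h5 := mem_smul_top_of_embPi_eq_zero b Ψ h4
    have hann : Module.annihilator (ZMod p) V = ⊥ := by
      rw [eq_bot_iff]
      intro c hc
      rw [Module.mem_annihilator] at hc
      have h6 := hc ⟨m₀, hm₀⟩
      have h7 : (⟨m₀, hm₀⟩ : V) ≠ 0 := fun h => hm₀' (congrArg Subtype.val h)
      exact (smul_eq_zero.mp h6).resolve_right h7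
    rw [hann, Submodule.bot_smul] at h5
    exact h5

include hlev hfrob hρ habs hp2 in
/-- **Equivariant maps from `ρ` to `J[p][χ]` separate the points of `ρ`.** -/
theorem exists_family {m₀ : J} (hm₀ : m₀ ∈ tors J χ) (hm₀' : m₀ ≠ 0) :
    ∃ e : tors J χ → ρ.V →+ J, (∀ w v, e w v ∈ tors J χ) ∧
      (∀ w g v, e w (ρ.ρ g v) = g • e w v) ∧ ∀ v, (∀ w, e w v = 0) → v = 0 := by
  letI : Module (ZMod p) (tors J χ) := zmodOn (χ := χ) (tors J χ) le_rfl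
  exact exists_family_aux S x hlev hfrob χ ρ hρ habs hp2 (tors J χ) le_rfl
    (fun g m hm => smul_mem_tors g hm) hm₀ hm₀'

end Family

section Final

open WeierstrassCurve WeierstrassCurve.Affine
open scoped WeierstrassCurve.Affine

variable {p : ℕ} [hp : Fact p.Prime] {A J : Type*} [CommRing A] [AddCommGroup J] [Module A J]
variable [DistribMulAction Γℚ J] [SMulCommClass Γℚ A J]
variable (S : Finset ℕ) (x : ℕ → A)
    (hlev : ∀ n : ℕ, ∃ L : IntermediateField ℚ Qbar, FiniteDimensional ℚ L ∧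
      ∀ σ : Γℚ, (∀ y ∈ L, σ y = y) → ∀ m : J, p ^ n • m = 0 → σ • m = m)
    (hfrob : ∀ ℓ : ℕ, ℓ.Prime → ℓ ∉ S → ∀ B : ValuationSubring Qbar, B.LiesOverPrime ℓ →
      ∀ σ : Γℚ, B.IsFrobeniusAt σ ℓ → ∀ m : J, (∃ n : ℕ, p ^ n • m = 0) →
        σ • σ • m - x ℓ • (σ • m) + ℓ • m = 0)
    (χ : A →+* ZMod p)

/-- **Mazur's principle at `p`: the contradiction.** -/
theorem false_of_core (W : WeierstrassCurve ℤ) (hΔ0 : W.Δ ≠ 0) (hp2 : p ≠ 2)
    (hss : (p : ℤ) ∣ W.Δ → ¬ (p : ℤ) ∣ W.c₄) (hdvd : p ∣ padicValInt p W.Δ)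
    (P : ValuationSubring Qbar) (hP : P.LiesOverPrime p)
    (hcard : Nat.card (Submodule.torsionBy ℤ
      ((W.map (Int.castRingHom ℚ))⁄(AlgebraicClosure ℚ)).Point p) = p ^ 2)
    (hker : GaloisFactorsThroughFiniteLevel
      (Point.galoisRepModuleEnd (K := AlgebraicClosure ℚ) ℚ (W.map (Int.castRingHom ℚ)) p))
    (habs : ((W.map (Int.castRingHom ℚ)).residualGaloisRepOf p hcard hker).IsAbsolutelyIrreducible)
    (hlev : ∀ n : ℕ, ∃ L : IntermediateField ℚ Qbar, FiniteDimensional ℚ L ∧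
      ∀ σ : Γℚ, (∀ y ∈ L, σ y = y) → ∀ m : J, p ^ n • m = 0 → σ • m = m)
    (hfrob : ∀ ℓ : ℕ, ℓ.Prime → ℓ ∉ S → ∀ B : ValuationSubring Qbar, B.LiesOverPrime ℓ →
      ∀ σ : Γℚ, B.IsFrobeniusAt σ ℓ → ∀ m : J, (∃ n : ℕ, p ^ n • m = 0) →
        σ • σ • m - x ℓ • (σ • m) + ℓ • m = 0)
    (hρ : ∀ ℓ : ℕ, ℓ.Prime → ℓ ∉ S → ∀ B : ValuationSubring Qbar, B.LiesOverPrime ℓ →
      ∀ σ : Γℚ, B.IsFrobeniusAt σ ℓ →
        LinearMap.charpoly (((W.map (Int.castRingHom ℚ)).residualGaloisRepOf p hcard hker).ρ σ) =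
          X ^ 2 - C (χ (x ℓ)) * X + C (ℓ : ZMod p))
    {m₀ : J} (hm₀ : m₀ ∈ tors J χ) (hm₀' : m₀ ≠ 0)
    (hK : ∀ z ∈ tors J χ, ∀ σ ∈ P.inertiaSubgroupIn ℚ, CycAct P p (σ • z - z))
    (hcore : ∀ μ v' : Qbar, μ ^ p = 1 + p * v' → P.valuation v' = 1 →
      (∀ σ ∈ P.inertiaSubgroupIn ℚ, σ v' = v') → ∀ z ∈ tors J χ,
      (∀ σ ∈ P.inertiaSubgroupIn ℚ, σ μ = μ → σ • z = z) → CycAct P p z) : False := by
  obtain ⟨e, he, hact, hsep⟩ : ∃ e : tors J χ → Ep W p →+ J, (∀ w v, e w v ∈ tors J χ) ∧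
      (∀ w (g : Γℚ) v, e w (g • v) = g • e w v) ∧ ∀ v, (∀ w, e w v = 0) → v = 0 :=
    exists_family S x hlev hfrob χ _ hρ habs hp2 hm₀ hm₀'
  have hcyc : ∀ v : Ep W p, (∀ w, CycAct P p (e w v)) → CycAct P p v := by
    intro v hv τ hτ a ha
    have h1 : τ • v - a • v = 0 := by
      refine hsep _ fun w => ?_
      have h2 := hv w τ hτ a ha
      rw [← hact] at h2
      rw [map_sub, h2, map_nsmul, sub_self]
    exact sub_eq_zero.mp h1
  refine false_of_cyc W hΔ0 hp2 hss hdvd P hP ?_ ?_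
  · intro v σ hσ
    refine hcyc _ fun w => ?_
    rw [map_sub, hact]
    exact hK _ (he w v) σ hσ
  · intro μ v' hμ hv' hv'f v hv
    refine hcyc _ fun w => hcore μ v' hμ hv' hv'f _ (he w v) fun σ hσ hσμ => ?_
    rw [← hact, hv σ hσ hσμ]

end Final

end Fermat.Agent.DR.AtP
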