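import Fermat.Agent.LOC.PeuMain
import Fermat.Agent.RT.PStep.Tau
import Fermat.Agent.EllRed.FrobeniusMain

/-!
# Mazur's principle at `p`: the elliptic curve side

`E[p]` (`p` odd, `E` semistable at `p`, `p ∣ v_p(Δ)`) cannot satisfy: `σ x - x` lies in the
cyclotomic part for `σ` in inertia at `p`, and so do the points which are fixed by inertia after
adjoining a `p`-th root of `1 + p v'`, `v'` a unit.
-/

set_option autoImplicit false

namespace Fermat.Agent.DR.AtP

open WeierstrassCurve WeierstrassCurve.Affine Fermat.Agent.Cyclotomic Fermat.Agent.RT.PStep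
open scoped WeierstrassCurve.Affine

local notation "Qbar" => AlgebraicClosure ℚ
local notation "Γℚ" => (AlgebraicClosure ℚ ≃ₐ[ℚ] AlgebraicClosure ℚ)

/-- Inertia at `P` acts on `z` through the mod `p` cyclotomic character. -/
def CycAct (P : ValuationSubring Qbar) (p : ℕ) {M : Type*} [AddCommGroup M]
    [DistribMulAction Γℚ M] (z : M) : Prop :=
  ∀ τ ∈ P.inertiaSubgroupIn ℚ, ∀ a : ℕ, (∀ ζ : Qbar, ζ ^ p = 1 → τ ζ = ζ ^ a) → τ • z = a • z

section CycAct

variable {P : ValuationSubring Qbar} {p : ℕ} {M : Type*} [AddCommGroup M] [DistribMulAction Γℚ M]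

theorem CycAct.zero : CycAct P p (0 : M) := fun τ _ a _ => by rw [smul_zero, smul_zero]

theorem CycAct.add {x y : M} (hx : CycAct P p x) (hy : CycAct P p y) : CycAct P p (x + y) :=
  fun τ hτ a ha => by rw [smul_add, smul_add, hx τ hτ a ha, hy τ hτ a ha]

theorem CycAct.neg {x : M} (hx : CycAct P p x) : CycAct P p (-x) :=
  fun τ hτ a ha => by rw [smul_neg, smul_neg, hx τ hτ a ha]

theorem CycAct.zsmul {x : M} (hx : CycAct P p x) (k : ℤ) : CycAct P p (k • x) :=
  fun τ hτ a ha => by rw [smul_comm, hx τ hτ a ha, smul_comm]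

/-- The cyclotomic part, as a subgroup. -/
def cycSub (P : ValuationSubring Qbar) (p : ℕ) (M : Type*) [AddCommGroup M]
    [DistribMulAction Γℚ M] : AddSubgroup M where
  carrier := {x | CycAct P p x}
  zero_mem' := CycAct.zero
  add_mem' := CycAct.add
  neg_mem' := CycAct.neg

theorem mem_cycSub {x : M} : x ∈ cycSub P p M ↔ CycAct P p x := Iff.rfl

end CycAct

/-- The `p`-torsion. -/
noncomputable abbrev Ep (W : WeierstrassCurve ℤ) (p : ℕ) :=
  Submodule.torsionBy ℤ ((W.map (Int.castRingHom ℚ))⁄Qbar).Point p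

section Main

variable (W : WeierstrassCurve ℤ) (hΔ0 : W.Δ ≠ 0) {p : ℕ} [hpf : Fact p.Prime] (hp2 : p ≠ 2)
  (hss : (p : ℤ) ∣ W.Δ → ¬ (p : ℤ) ∣ W.c₄) (hdvd : p ∣ padicValInt p W.Δ)
  (P : ValuationSubring Qbar) (hP : P.LiesOverPrime p)

omit hpf in
theorem nsmul_eq_zero_of_mem (x : Ep W p) : p • (x : ((W.map (Int.castRingHom ℚ))⁄Qbar).Point) = 0 := by
  have := (Submodule.mem_torsionBy_iff (p : ℤ) x.1).1 x.2
  rwa [natCast_zsmul] at this

include hΔ0 in
theorem det_eq (σ : Γℚ) :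
    LinearMap.det (Point.galoisRepModuleEnd (K := Qbar) ℚ (W.map (Int.castRingHom ℚ)) p σ) =
      ((cyc p σ : (ZMod p)ˣ) : ZMod p) :=
  EllRed.det_galoisRepModuleEnd W hΔ0 p σ

include hΔ0 in
theorem finrank_Ep : Module.finrank (ZMod p) (Ep W p) = 2 := by
  have hell := EllTorsion.isElliptic_map_of_Δ_ne_zero hΔ0
  have hcard := EllTorsion.card_torsionBy_rat (W.map (Int.castRingHom ℚ)) hpf.out.ne_zero
  have hker := EllTorsion.galoisRepModuleEnd_factorsThroughFiniteLevel
    (W.map (Int.castRingHom ℚ)) hpf.out.ne_zero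
  exact ((W.map (Int.castRingHom ℚ)).residualGaloisRepOf p hcard hker).finrank_eq

include hΔ0 hp2 hss hdvd hP in
/-- **The elliptic curve side of Mazur's principle at `p`.** -/
theorem false_of_cyc
    (h1 : ∀ x : (Ep W p), ∀ σ ∈ P.inertiaSubgroupIn ℚ, CycAct P p (σ • x - x))
    (h2 : ∀ μ v' : Qbar, μ ^ p = 1 + p * v' → P.valuation v' = 1 →
      (∀ σ ∈ P.inertiaSubgroupIn ℚ, σ v' = v') → ∀ x : (Ep W p),
      (∀ σ ∈ P.inertiaSubgroupIn ℚ, σ μ = μ → σ • x = x) → CycAct P p x) : False := by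
  classical
  have hp := hpf.out
  obtain ⟨ζ, hζ⟩ := exists_primitiveRoot p
  obtain ⟨σ₀, hσ₀, hσ₀ζ⟩ := exists_inertia_ne hp hp2 hP hζ.pow_eq_one (hζ.ne_one hp.one_lt)
  have hcyc : ((cyc p σ₀ : (ZMod p)ˣ) : ZMod p) ≠ 1 := by
    intro h
    apply hσ₀ζ
    have := cyc_spec p σ₀ hζ.pow_eq_one
    rw [h] at this
    have h1p : (1 : ZMod p).val = 1 := by
      have : Fact (1 < p) := ⟨hp.one_lt⟩
      exact ZMod.val_one p
    rwa [h1p, pow_one] at this
  have hfin := finrank_Ep W hΔ0 (p := p)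
  have hspec : ∀ τ : Γℚ, ∀ ζ' : Qbar, ζ' ^ p = 1 → τ ζ' = ζ' ^ ((cyc p τ : ZMod p)).val :=
    fun τ ζ' h => cyc_spec p τ h
  set C := cycSub P p (Ep W p) with hC
  -- `C` is not zero
  have hne : ∃ α ∈ C, α ≠ 0 := by
    by_contra hcon
    push Not at hcon
    have h3 : Point.galoisRepModuleEnd (K := Qbar) ℚ (W.map (Int.castRingHom ℚ)) p σ₀ = 1 := by
      refine LinearMap.ext fun x => ?_
      have := hcon _ (h1 x σ₀ hσ₀)
      rw [sub_eq_zero] at this
      exact this
    have h4 := det_eq W hΔ0 (p := p) σ₀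
    rw [h3, map_one] at h4
    exact hcyc h4.symm
  -- `C` is not everything
  have hnt : ∃ x : (Ep W p), x ∉ C := by
    by_contra hcon
    push Not at hcon
    set c : ZMod p := ((cyc p σ₀ : (ZMod p)ˣ) : ZMod p) with hc
    have h3 : Point.galoisRepModuleEnd (K := Qbar) ℚ (W.map (Int.castRingHom ℚ)) p σ₀ =
        c • (1 : Module.End (ZMod p) (Ep W p)) := by
      refine LinearMap.ext fun x => ?_
      have h4 := hcon x σ₀ hσ₀ c.val (hspec σ₀)
      rw [LinearMap.smul_apply, Module.End.one_apply, Point.galoisRepModuleEnd_apply, h4,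
        ← Nat.cast_smul_eq_nsmul (ZMod p), ZMod.natCast_zmod_val]
    have h4 := det_eq W hΔ0 (p := p) σ₀
    rw [h3, LinearMap.det_smul, hfin, map_one, mul_one, ← hc] at h4
    have hc0 : c ≠ 0 := Units.ne_zero _
    apply hcyc
    rw [sq] at h4
    exact mul_left_cancel₀ hc0 (h4.trans (mul_one _).symm)
  obtain ⟨α, hαC, hα0⟩ := hne
  obtain ⟨x, hxC⟩ := hnt
  -- `C` is the line generated by `α`
  have hspan : ∀ y ∈ C, y ∈ AddSubgroup.zmultiples α := by
    intro y hy
    have hxα : x ∉ (ZMod p) ∙ α := by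
      intro h
      obtain ⟨c, hc⟩ := Submodule.mem_span_singleton.mp h
      apply hxC
      rw [← hc, ← ZMod.natCast_zmod_val c, Nat.cast_smul_eq_nsmul]
      exact C.nsmul_mem hαC _
    have hli : LinearIndependent (ZMod p) ![α, x] := by
      rw [LinearIndependent.pair_iff]
      intro s t hst
      have ht : t = 0 := by
        by_contra ht
        apply hxα
        rw [Submodule.mem_span_singleton]
        refine ⟨-(t⁻¹ * s), ?_⟩
        have h5 : t • x = -(s • α) := eq_neg_of_add_eq_zero_right hst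
        calc (-(t⁻¹ * s)) • α = t⁻¹ • (-(s • α)) := by rw [neg_smul, mul_smul, smul_neg]
          _ = t⁻¹ • (t • x) := by rw [h5]
          _ = x := by rw [smul_smul, inv_mul_cancel₀ ht, one_smul]
      refine ⟨?_, ht⟩
      rw [ht, zero_smul, add_zero] at hst
      exact (smul_eq_zero.mp hst).resolve_right hα0
    let b := basisOfLinearIndependentOfCardEqFinrank hli (by rw [hfin, Fintype.card_fin])
    have hb0 : b 0 = α := by simp [b]
    have hb1 : b 1 = x := by simp [b]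
    have hy' := b.sum_repr y
    rw [Fin.sum_univ_two, hb0, hb1] at hy'
    have hcoef : b.repr y 1 = 0 := by
      by_contra hne'
      apply hxC
      have h6 : (b.repr y 1) • x ∈ C := by
        have : (b.repr y 1) • x = y - (b.repr y 0) • α :=
          eq_sub_of_add_eq' hy'
        rw [this]
        refine C.sub_mem hy ?_
        rw [← ZMod.natCast_zmod_val (b.repr y 0), Nat.cast_smul_eq_nsmul]
        exact C.nsmul_mem hαC _
      have h7 : x = ((b.repr y 1)⁻¹ * b.repr y 1) • x := by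
        rw [inv_mul_cancel₀ hne', one_smul]
      rw [h7, mul_smul, ← ZMod.natCast_zmod_val (b.repr y 1)⁻¹, Nat.cast_smul_eq_nsmul]
      exact C.nsmul_mem h6 _
    rw [hcoef, zero_smul, add_zero] at hy'
    rw [← hy', ← ZMod.natCast_zmod_val (b.repr y 0), Nat.cast_smul_eq_nsmul]
    exact AddSubgroup.nsmul_mem_zmultiples _ _
  -- translate to points
  have hαp : p • (α : ((W.map (Int.castRingHom ℚ))⁄Qbar).Point) = 0 := nsmul_eq_zero_of_mem W α
  have hxp : p • (x : ((W.map (Int.castRingHom ℚ))⁄Qbar).Point) = 0 := nsmul_eq_zero_of_mem W x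
  have hα0' : (α : ((W.map (Int.castRingHom ℚ))⁄Qbar).Point) ≠ 0 := fun h => hα0 (Subtype.ext h)
  have hχα : ∀ σ ∈ P.inertiaSubgroupIn ℚ, ∀ n : ℕ, σ ζ = ζ ^ n →
      σ • (α : ((W.map (Int.castRingHom ℚ))⁄Qbar).Point) = n • (α : _) := by
    intro σ hσ n hn
    have h3 := hαC σ hσ n (fun ζ' hζ' => by
      have hne' : NeZero p := ⟨hp.ne_zero⟩
      obtain ⟨i, -, rfl⟩ := hζ.eq_pow_of_pow_eq_one hζ'
      rw [map_pow, hn, ← pow_mul, ← pow_mul, mul_comm])
    exact congrArg Subtype.val h3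
  have hj : ∀ σ ∈ P.inertiaSubgroupIn ℚ,
      σ • (x : ((W.map (Int.castRingHom ℚ))⁄Qbar).Point) - x ∈
        AddSubgroup.zmultiples (α : ((W.map (Int.castRingHom ℚ))⁄Qbar).Point) := by
    intro σ hσ
    obtain ⟨k, hk⟩ := AddSubgroup.mem_zmultiples_iff.mp (hspan _ (h1 x σ hσ))
    exact AddSubgroup.mem_zmultiples_iff.mpr ⟨k, congrArg Subtype.val hk⟩
  rcases LOC.PeuMain.peu_ramifiee W hΔ0 hp hp2 hss hdvd P hP hζ hα0' hαp hxp hχα hj with
    ⟨i, hi⟩ | ⟨μ, v', hμ, hv', hv'f, hfix⟩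
  · obtain ⟨μ, hμ⟩ := IsAlgClosed.exists_pow_nat_eq (1 + (p : Qbar) * 1) hp.pos
    have h3 := h2 μ 1 hμ (map_one _) (fun σ _ => map_one σ) (x + i • α) (fun σ hσ _ =>
      Subtype.ext (hi σ hσ))
    apply hxC
    have : x = (x + i • α) - i • α := by abel
    rw [this]
    exact C.sub_mem h3 (C.zsmul_mem hαC i)
  · refine hxC (h2 μ v' hμ hv' hv'f x fun σ hσ hσμ => Subtype.ext ?_)
    have h3 := hfix σ hσ 0 (by rw [pow_zero, one_mul]; exact hσμ)
    have h4 : (0 : ℕ) • (α : ((W.map (Int.castRingHom ℚ))⁄Qbar).Point) = 0 := zero_nsmul _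
    rw [h4, add_zero] at h3
    exact h3

end Main

end Fermat.Agent.DR.AtP
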