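import Fermat.Agent.DR.AtP.FinalAlg
import Fermat.Agent.DR.Mazur.Assembly

/-!
# Mazur's principle at `p` for an elliptic curve, from the geometric input `AtPInput`
-/

set_option autoImplicit false
set_option linter.style.haveILetI false

open WeierstrassCurve WeierstrassCurve.Affine WeierstrassCurve.Affine.Point Polynomial
  IsLocalRing ModularCurve
open scoped WeierstrassCurve.Affine

namespace Fermat.Agent.DR.AtP

open Fermat.Agent.S30Wiring Fermat.Agent.S30Assembly Fermat.Agent.CMP.Newness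
  Fermat.Agent.DR.ResidualCompare Fermat.Agent.CMP.S35Assembly Fermat.Agent.DR.Mazur

local notation "Qbar" => AlgebraicClosure ℚ
local notation "Γℚ" => (AlgebraicClosure ℚ ≃ₐ[ℚ] AlgebraicClosure ℚ)

/-- **Geometric input of Mazur's principle at `p`** (`p ∤ M`): for every Hecke polynomial `t` in
the `T_ℓ`, `ℓ ∉ S`, killing `S₂(Γ₀(M))` and every place `P` above `p`, with inertia group `I`:
* `I` acts on `t (σ x - x)` by the cyclotomic character (`x ∈ J₀(Mp)[p]`, `σ ∈ I`);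
* `I` acts on `t x` by the cyclotomic character if `x ∈ J₀(Mp)[p]` is an eigenvector of some
  `T_ℓ`, `ℓ ∉ S`, with eigenvalue `a ≢ ℓ + 1 mod p`, which is fixed by the stabiliser in `I` of
  some `μ` with `μ ^ p = 1 + p v'`, `v'` a unit fixed by `I`. -/
def AtPInput (M p : ℕ) [NeZero M] [NeZero (M * p)] (S : Finset ℕ) : Prop :=
  letI := heckeModuleBar (M * p)
  ∀ (hMS : ∀ r : ℕ, r.Prime → r ∣ M → r ∈ S) (t : AnemicAlg S),
    anemicEval (N := M) hMS t = 0 →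
    ∀ P : ValuationSubring Qbar, P.LiesOverPrime p →
      (∀ x : JZero (M * p), p • x = 0 → ∀ σ ∈ P.inertiaSubgroupIn ℚ,
        CycAct P p (anemicIncl S t • (σ • x - x))) ∧
      ∀ μ v' : Qbar, μ ^ p = 1 + p * v' → P.valuation v' = 1 →
        (∀ σ ∈ P.inertiaSubgroupIn ℚ, σ v' = v') →
        ∀ (ℓ : ℕ) (hℓ : ℓ.Prime) (hℓS : ℓ ∉ S) (a : ℤ), ¬ (p : ℤ) ∣ a - (ℓ + 1) →
          ∀ x : JZero (M * p), p • x = 0 →
            (∀ σ ∈ P.inertiaSubgroupIn ℚ, σ μ = μ → σ • x = x) →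
            anemicIncl S (MvPolynomial.X ⟨⟨ℓ, hℓ⟩, hℓS⟩) • x = a • x →
              CycAct P p (anemicIncl S t • x)

variable {p : ℕ} [hp : Fact p.Prime]

/-- **Mazur's principle at `p`** for an elliptic curve, semistable at `p`, with `p ∣ v_p(Δ)`. -/
theorem lower_at_p (I : GAL.Final.AllInputs) (hp2 : p ≠ 2) (W : WeierstrassCurve ℤ) (hΔ : W.Δ ≠ 0)
    (hss : (p : ℤ) ∣ W.Δ → ¬ (p : ℤ) ∣ W.c₄) (hdvd : p ∣ padicValInt p W.Δ)
    (hirr : W.ModRepIsIrreducible p) {M : ℕ} [NeZero M] [NeZero (M * p)]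
    (hMI : ∀ S : Finset ℕ, p ∈ S → (∀ r : ℕ, r.Prime → r ∣ M * p → r ∈ S) → AtPInput M p S)
    (hres : W.IsResiduallyModularOfLevel p (M * p)) :
    W.IsResiduallyModularOfLevel p M := by
  classical
  have hell := EllTorsion.isElliptic_map_of_Δ_ne_zero hΔ
  have hcard := EllTorsion.card_torsionBy_rat (W.map (Int.castRingHom ℚ)) hp.out.ne_zero
  have hker := EllTorsion.galoisRepModuleEnd_factorsThroughFiniteLevel
    (W.map (Int.castRingHom ℚ)) hp.out.ne_zero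
  have h29 : S29Prop := fun hf _ hp' k _ _ φ => GAL.Final.s29 I hf hp' φ
  have habs : ((W.map (Int.castRingHom ℚ)).residualGaloisRepOf p hcard
      hker).IsAbsolutelyIrreducible :=
    isAbsolutelyIrreducible_of_modRepIsIrreducible hp2 W hΔ hcard hker hirr
  set S : Finset ℕ := W.Δ.natAbs.primeFactors ∪ (M * p).primeFactors ∪ {p} with hS
  have hpS : p ∈ S := by simp [hS]
  have hNS : ∀ r : ℕ, r.Prime → r ∣ M * p → r ∈ S := by
    intro r hr hrN
    simp only [hS, Finset.mem_union, Nat.mem_primeFactors]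
    exact Or.inl (Or.inr ⟨hr, hrN, NeZero.ne _⟩)
  have hΔS : ∀ r : ℕ, r.Prime → (r : ℤ) ∣ W.Δ → r ∈ S := by
    intro r hr hrΔ
    simp only [hS, Finset.mem_union, Nat.mem_primeFactors]
    exact Or.inl (Or.inl ⟨hr, Int.natCast_dvd.mp hrΔ, fun h => hΔ (Int.natAbs_eq_zero.mp h)⟩)
  have hMS : ∀ r : ℕ, r.Prime → r ∣ M → r ∈ S := fun r hr h => hNS r hr (h.mul_right p)
  let χ : AnemicAlg S →+* ZMod p := ellChar W p S
  have hχ : ∀ t : AnemicAlg S, anemicEval hNS t = 0 → χ t = 0 := fun t ht =>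
    ellChar_eq_zero W hpS hNS hΔS hres t ht
  by_cases hdesc : ∀ t : AnemicAlg S, anemicEval (N := M) hMS t = 0 → χ t = 0
  · -- level lowering
    obtain ⟨f, 𝔪, hf, h𝔪, hpm, hfa⟩ := exists_eigenform_of_mod hMS χ hdesc
    refine isResiduallyModularOfLevel_of_almost h29 W hΔ hcard hker (NeZero.ne M) f hf 𝔪 h𝔪 hpm S
      fun ℓ hℓ _ _ _ hℓS => ?_
    exact hfa ℓ hℓ hℓS (W.apOfModel ℓ) (ellChar_X W S ℓ hℓ hℓS)
  exfalso
  push Not at hdesc
  obtain ⟨t, ht, hχt⟩ := hdesc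
  -- the Hecke module
  letI := heckeModuleBar (M * p)
  have G := GAL.Final.galInputs I (M * p) p hp.out
  haveI : SMulCommClass Γℚ HeckeAlg (JZero (M * p)) := G.galois_hecke
  letI : Module (AnemicAlg S) (JZero (M * p)) :=
    Module.compHom (JZero (M * p)) (anemicIncl S).toRingHom
  have hsmul : ∀ (a : AnemicAlg S) (x : JZero (M * p)), a • x = anemicIncl S a • x :=
    fun _ _ => rfl
  haveI : SMulCommClass Γℚ (AnemicAlg S) (JZero (M * p)) :=
    ⟨fun g a x => by rw [hsmul, hsmul, smul_comm]⟩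
  have hspec : SpecializationExists (K := ℚ) (L := Qbar) (M * p) p (JZero (M * p)) :=
    G.specialization G.galois_hecke
  have hfrob0 := frobeniusQuadratic_of_specialization hspec
  have hsm : ∀ x : JZero (M * p), ∃ L : IntermediateField ℚ Qbar, FiniteDimensional ℚ L ∧
      ∀ g : Γℚ, (∀ y ∈ L, g y = y) → g • x = x := G.smooth
  have hlev := fun n : ℕ => finite_level_of_smooth (J := JZero (M * p)) hsm n (G.finite n)
  have hdvd' : ∀ ℓ : ℕ, ℓ.Prime → ℓ ∉ S → ¬ ℓ ∣ M * p * p := by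
    intro ℓ hℓ hℓS h
    rcases (Nat.Prime.dvd_mul hℓ).mp h with h | h
    · exact hℓS (hNS ℓ hℓ h)
    · rw [(Nat.prime_dvd_prime_iff_eq hℓ Fact.out).mp h] at hℓS
      exact hℓS hpS
  have hfrob : ∀ ℓ : ℕ, ℓ.Prime → ℓ ∉ S → ∀ B : ValuationSubring Qbar, B.LiesOverPrime ℓ →
      ∀ σ : Γℚ, B.IsFrobeniusAt σ ℓ → ∀ m : JZero (M * p), (∃ n : ℕ, p ^ n • m = 0) →
        σ • σ • m - gens S ℓ • (σ • m) + ℓ • m = 0 := by
    intro ℓ hℓ hℓS B hB σ hσ m hm
    have h := hfrob0 ℓ hℓ (hdvd' ℓ hℓ hℓS) B hB σ hσ m hm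
    rw [gens_eq ℓ hℓ hℓS, hsmul, anemicIncl, MvPolynomial.rename_X]
    exact h
  have hρ : ∀ ℓ : ℕ, ℓ.Prime → ℓ ∉ S → ∀ B : ValuationSubring Qbar, B.LiesOverPrime ℓ →
      ∀ σ : Γℚ, B.IsFrobeniusAt σ ℓ →
        LinearMap.charpoly (((W.map (Int.castRingHom ℚ)).residualGaloisRepOf p hcard hker).ρ σ) =
          X ^ 2 - C (χ (gens S ℓ)) * X + C (ℓ : ZMod p) := by
    intro ℓ hℓ hℓS B hB σ hσ
    have hgood : W.IsGoodPrimeFor ℓ := fun h => hℓS (hΔS ℓ hℓ h)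
    have hℓp : ℓ ≠ p := by rintro rfl; exact hℓS hpS
    rw [gens_eq ℓ hℓ hℓS, ellChar_X,
      EllRed.residualGaloisRepOf_charpoly_frobenius EllRed.frobCharpolyInputAll hcard hker hℓ hℓp
        hgood B hB hσ]
  obtain ⟨x₀, hx₀, hpx₀, hx₀χ⟩ := exists_torsion_of_lattice hNS (G.lattice S) G.finite χ hχ
  obtain ⟨ℓ, hℓ, hℓS, hneis⟩ := exists_not_eisenstein _ habs S (fun ℓ => χ (gens S ℓ)) hρ
  obtain ⟨P, hP⟩ := FrobExists.exists_liesOverPrime Qbar hp.out
  obtain ⟨hK, hcore⟩ := hMI S hpS hNS hMS t ht P hP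
  -- division by `t` on `tors`
  obtain ⟨u, hu⟩ := ZMod.intCast_surjective (χ t)⁻¹
  obtain ⟨c, hc⟩ := ZMod.intCast_surjective (χ t)
  have hdiv : ∀ m ∈ tors (JZero (M * p)) χ, t • u • m = m := by
    intro m hm
    have hum : u • m ∈ tors (JZero (M * p)) χ := zsmul_mem hm u
    rw [smul_of_mem_tors hum hc.symm, smul_smul]
    have h1 : ((c * u : ℤ) : ZMod p) = ((1 : ℤ) : ZMod p) := by
      push_cast
      rw [hu, hc, mul_inv_cancel₀ hχt]
    rw [ZMod.intCast_eq_intCast_iff_dvd_sub] at h1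
    obtain ⟨d, hd⟩ := h1
    have h2 : c * u = 1 - d * p := by linarith
    rw [h2, sub_smul, one_smul, mul_smul, natCast_zsmul, hm.1, smul_zero, sub_zero]
  obtain ⟨a, ha⟩ := ZMod.intCast_surjective (χ (gens S ℓ))
  have ha' : ¬ (p : ℤ) ∣ a - (ℓ + 1) := by
    rw [← ZMod.intCast_zmod_eq_zero_iff_dvd]
    push_cast
    rw [ha, sub_eq_zero]
    exact hneis
  refine false_of_core S (gens S) χ W hΔ hp2 hss hdvd P hP hcard hker habs hlev hfrob hρ
    (m₀ := x₀) ⟨hpx₀, hx₀χ⟩ hx₀ ?_ ?_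
  · intro z hz σ hσ
    have hz' : u • z ∈ tors (JZero (M * p)) χ := zsmul_mem hz u
    have h1 := hK (u • z) hz'.1 σ hσ
    have h2 : anemicIncl S t • (σ • (u • z) - u • z) = σ • z - z := by
      rw [smul_sub, ← smul_comm σ (anemicIncl S t) (u • z), ← hsmul, hdiv z hz]
    rwa [h2] at h1
  · intro μ v' hμ hv' hv'f z hz hfix
    have hz' : u • z ∈ tors (JZero (M * p)) χ := zsmul_mem hz u
    have h1 := hcore μ v' hμ hv' hv'f ℓ hℓ hℓS a ha' (u • z) hz'.1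
      (fun σ hσ hσμ => by
        have h4 : σ • (u • z) = u • (σ • z) :=
          map_zsmul (DistribSMul.toAddMonoidHom (JZero (M * p)) σ) u z
        rw [h4, hfix σ hσ hσμ]) (by
        have h3 := smul_of_mem_tors hz' ha.symm
        rw [gens_eq ℓ hℓ hℓS] at h3
        exact h3)
    rwa [← hsmul, hdiv z hz] at h1

end Fermat.Agent.DR.AtP
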