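import Fermat.Agent.DR.AtP.Tres
import Fermat.Agent.DR.InertiaValue
import Fermat.Agent.LOC.Multiplicative

set_option autoImplicit false

/-!
# Inertia at `p` on `ℚ̄`; Kummer generators of cocycles with values in `μ_p`
-/

noncomputable section

open Finset

namespace Fermat.Agent.DR.AtP

local notation "Qb" => AlgebraicClosure ℚ

/-- The inertia group of a place of `ℚ̄` above `p` satisfies the axioms of `InertialAction`. -/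
theorem inertialAction (A : ValuationSubring Qb) {p : ℕ} (hp : p.Prime)
    (hA : A.LiesOverPrime p) : InertialAction A.valuation (A.inertiaSubgroupIn ℚ) p where
  prime := hp
  v_smul σ a := LOC.decomposition_valuation A (LOC.mem_decomposition_of_inertia A σ.2) a
  smul_sub_lt σ a ha := ECRed.inertia_sub A σ.2 ha
  v_p_lt := A.mem_nonunits_iff.mp hA
  p_ne_zero := by exact_mod_cast hp.ne_zero
  v_fixed a ha ha0 := by
    obtain ⟨k, hk⟩ := InertiaValue.exists_zpow_of_inertia_fixed A hp hA ha0 (fun σ hσ => ha ⟨σ, hσ⟩)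
    refine ⟨-k, ?_⟩
    rw [map_mul, map_zpow₀] at hk
    rw [zpow_neg]
    exact eq_inv_of_mul_eq_one_left hk

/-- **Hilbert 90** for a subgroup of `Gal(ℚ̄/ℚ)` and a cocycle which factors through the
restriction to a finite extension `L` of `ℚ`. -/
theorem exists_hilbert90 (S : Subgroup (Qb ≃ₐ[ℚ] Qb)) (c : (Qb ≃ₐ[ℚ] Qb) → Qb)
    (hc0 : ∀ σ ∈ S, c σ ≠ 0) (hcoc : ∀ σ ∈ S, ∀ τ ∈ S, c (σ * τ) = c σ * σ (c τ))
    (L : IntermediateField ℚ Qb) [FiniteDimensional ℚ L]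
    (hL : ∀ σ ∈ S, ∀ τ ∈ S, (∀ x ∈ L, σ x = τ x) → c σ = c τ) :
    ∃ μ : Qb, μ ≠ 0 ∧ ∀ σ ∈ S, σ μ = (c σ)⁻¹ * μ := by
  classical
  let r : (Qb ≃ₐ[ℚ] Qb) → (L →ₐ[ℚ] Qb) := fun σ => (σ : Qb →ₐ[ℚ] Qb).comp L.val
  have hr : ∀ σ τ, r σ = r τ → ∀ x ∈ L, σ x = τ x := by
    intro σ τ h x hx
    exact congrArg (fun f : L →ₐ[ℚ] Qb => f ⟨x, hx⟩) h
  let C : (L →ₐ[ℚ] Qb) → Qb := fun f =>
    if h : ∃ σ ∈ S, r σ = f then c h.choose else 0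
  have hC : ∀ σ ∈ S, C (r σ) = c σ := by
    intro σ hσ
    have h : ∃ τ ∈ S, r τ = r σ := ⟨σ, hσ, rfl⟩
    show (if h : ∃ τ ∈ S, r τ = r σ then c h.choose else 0) = _
    rw [dif_pos h]
    exact hL _ h.choose_spec.1 _ hσ (hr _ _ h.choose_spec.2)
  have hC0 : ∀ f, (¬ ∃ σ ∈ S, r σ = f) → C f = 0 := fun f h => dif_neg h
  have hcomp : ∀ σ τ : Qb ≃ₐ[ℚ] Qb, r (σ * τ) = (σ : Qb →ₐ[ℚ] Qb).comp (r τ) := by
    intro σ τ
    rfl
  have hCσ : ∀ σ ∈ S, ∀ f, C ((σ : Qb →ₐ[ℚ] Qb).comp f) = c σ * σ (C f) := by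
    intro σ hσ f
    by_cases h : ∃ τ ∈ S, r τ = f
    · obtain ⟨τ, hτ, rfl⟩ := h
      rw [← hcomp, hC _ (S.mul_mem hσ hτ), hC _ hτ, hcoc σ hσ τ hτ]
    · rw [hC0 f h, map_zero, mul_zero]
      refine hC0 _ fun ⟨τ, hτ, h'⟩ => h ⟨σ⁻¹ * τ, S.mul_mem (S.inv_mem hσ) hτ, ?_⟩
      rw [hcomp, h']
      ext x
      show σ⁻¹ (σ (f x)) = f x
      exact σ.symm_apply_apply _
  have hli := linearIndependent_toLinearMap ℚ L Qb
  obtain ⟨a, ha⟩ : ∃ a : L, ∑ f : L →ₐ[ℚ] Qb, C f * f a ≠ 0 := by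
    by_contra hcon
    push Not at hcon
    rw [Fintype.linearIndependent_iff] at hli
    have h1 : ∑ f : L →ₐ[ℚ] Qb, C f • (AlgHom.toLinearMap f) = 0 := by
      ext a
      rw [LinearMap.sum_apply]
      simpa [smul_eq_mul] using hcon a
    have h2 := hli C h1 (r 1)
    rw [hC 1 S.one_mem] at h2
    exact hc0 1 S.one_mem h2
  refine ⟨_, ha, fun σ hσ => ?_⟩
  rw [map_sum]
  have h1 : ∀ f : L →ₐ[ℚ] Qb, σ (C f * f a) =
      (c σ)⁻¹ * (C ((σ : Qb →ₐ[ℚ] Qb).comp f) * ((σ : Qb →ₐ[ℚ] Qb).comp f) a) := by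
    intro f
    have h0 := hc0 σ hσ
    rw [hCσ σ hσ, map_mul]
    show _ = (c σ)⁻¹ * (c σ * σ (C f) * σ (f a))
    field_simp
  rw [Finset.sum_congr rfl fun f _ => h1 f, ← Finset.mul_sum]
  congr 1
  refine Fintype.sum_bijective (fun f : L →ₐ[ℚ] Qb => (σ : Qb →ₐ[ℚ] Qb).comp f) ⟨?_, ?_⟩ _ _
    fun _ => rfl
  · intro f g hfg
    ext x
    exact σ.injective (congrArg (fun h : L →ₐ[ℚ] Qb => h x) hfg)
  · intro f
    refine ⟨(σ.symm : Qb →ₐ[ℚ] Qb).comp f, ?_⟩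
    ext x
    exact σ.apply_symm_apply _

section powVal

variable {K : Type*} [Field K] {p : ℕ} [hp : Fact p.Prime] {ζ : K}

/-- `ζ ^ x` for `x : ZMod p` -/
def zpw (ζ : K) (x : ZMod p) : K := ζ ^ x.val

lemma zpw_natCast (hζ : ζ ^ p = 1) (n : ℕ) : zpw ζ (n : ZMod p) = ζ ^ n := by
  unfold zpw
  rw [ZMod.val_natCast]
  conv_rhs => rw [← Nat.div_add_mod n p, pow_add, pow_mul, hζ, one_pow, one_mul]

lemma zpw_add (hζ : ζ ^ p = 1) (x y : ZMod p) : zpw ζ (x + y) = zpw ζ x * zpw ζ y := by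
  have h : x + y = ((x.val + y.val : ℕ) : ZMod p) := by
    push_cast
    rw [ZMod.natCast_zmod_val, ZMod.natCast_zmod_val]
  rw [h, zpw_natCast hζ, pow_add]
  rfl

lemma zpw_mul (hζ : ζ ^ p = 1) (x y : ZMod p) : zpw ζ (x * y) = zpw (zpw ζ x) y := by
  have h : x * y = ((x.val * y.val : ℕ) : ZMod p) := by
    push_cast
    rw [ZMod.natCast_zmod_val, ZMod.natCast_zmod_val]
  rw [h, zpw_natCast hζ, pow_mul]
  rfl

@[simp] lemma zpw_zero : zpw ζ (0 : ZMod p) = 1 := by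
  unfold zpw
  rw [ZMod.val_zero, pow_zero]

lemma zpw_one (hζ : ζ ^ p = 1) : zpw ζ (1 : ZMod p) = ζ := by
  have := zpw_natCast (p := p) hζ 1
  rwa [Nat.cast_one, pow_one] at this

lemma zpw_ne_zero (hζ : ζ ≠ 0) (x : ZMod p) : zpw ζ x ≠ 0 := pow_ne_zero _ hζ

lemma zpw_neg (hζ : ζ ^ p = 1) (x : ZMod p) : zpw ζ (-x) = (zpw ζ x)⁻¹ := by
  have h := zpw_add hζ (-x) x
  rw [neg_add_cancel, zpw_zero] at h
  exact eq_inv_of_mul_eq_one_left h.symm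

lemma zpw_injective (hζ : IsPrimitiveRoot ζ p) {x y : ZMod p} (h : zpw ζ x = zpw ζ y) : x = y := by
  have := hζ.pow_inj (ZMod.val_lt x) (ZMod.val_lt y) h
  exact ZMod.val_injective p this

lemma exists_zpw_eq (hζ : IsPrimitiveRoot ζ p) {ξ : K} (h : ξ ^ p = 1) :
    ∃ x : ZMod p, zpw ζ x = ξ := by
  obtain ⟨i, -, hi⟩ := hζ.eq_pow_of_pow_eq_one h
  exact ⟨i, by rw [zpw_natCast hζ.pow_eq_one, hi]⟩

lemma map_zpw {K' : Type*} [Field K'] {F : Type*} [FunLike F K K'] [RingHomClass F K K'] (f : F)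
    (x : ZMod p) : f (zpw ζ x) = zpw (f ζ) x := map_pow f _ _

end powVal

/-- Existence of a Kummer generator: `σ μ = ζ ^ (j σ) μ`. -/
theorem exists_kummer {p : ℕ} [hp : Fact p.Prime] {ζ : Qb} (hζ : IsPrimitiveRoot ζ p)
    (S : Subgroup (Qb ≃ₐ[ℚ] Qb)) (χ j : (Qb ≃ₐ[ℚ] Qb) → ZMod p)
    (hχ : ∀ σ ∈ S, σ ζ = zpw ζ (χ σ))
    (hj : ∀ σ ∈ S, ∀ τ ∈ S, j (σ * τ) = j σ + χ σ * j τ)
    (L : IntermediateField ℚ Qb) [FiniteDimensional ℚ L]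
    (hL : ∀ σ ∈ S, ∀ τ ∈ S, (∀ x ∈ L, σ x = τ x) → j σ = j τ) :
    ∃ μ : Qb, μ ≠ 0 ∧ ∀ σ ∈ S, σ μ = zpw ζ (j σ) * μ := by
  have hζ1 := hζ.pow_eq_one
  have hζ0 : ζ ≠ 0 := hζ.ne_zero hp.out.ne_zero
  obtain ⟨μ, hμ0, hμ⟩ := exists_hilbert90 S (fun σ => zpw ζ (-(j σ)))
    (fun σ _ => zpw_ne_zero hζ0 _) (fun σ hσ τ hτ => by
      show zpw ζ (-(j (σ * τ))) = zpw ζ (-(j σ)) * σ (zpw ζ (-(j τ)))
      rw [map_zpw, hχ σ hσ, ← zpw_mul hζ1, ← zpw_add hζ1, hj σ hσ τ hτ]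
      congr 1
      ring) L (fun σ hσ τ hτ h => by
      show zpw ζ (-(j σ)) = zpw ζ (-(j τ))
      rw [hL σ hσ τ hτ h])
  refine ⟨μ, hμ0, fun σ hσ => ?_⟩
  rw [hμ σ hσ]
  show (zpw ζ (-(j σ)))⁻¹ * μ = _
  rw [zpw_neg hζ1, inv_inv]

end Fermat.Agent.DR.AtP
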