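import Fermat.Agent.DR.AtP.UEst
import Fermat.Agent.DR.Ord.Contract
import Fermat.Agent.DR.Mod.SetupExists
import Fermat.Agent.DR.ModGal.Galois

set_option autoImplicit false
set_option linter.unusedSectionVars false

/-!
# The one-sided improvement property at level `M p`

* `qExpand_normAlong_gen` : `N_α(g)(q^p) = g(q^p) ∏_b (w g)(ζ^b q)`;
* `improves` : for `f ∈ F_{Mp}` with `N_α f` a `p`-th power,
  `|f u^p - 1|₁ ≤ max (|p| ε₂) (ε₂ ^ p)`, `|f u^p - 1|₂ ≤ max ε₁ ε₂`.
-/

noncomputable section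

open AlgebraicCurve ModularCurve

namespace Fermat.Agent.DR.AtP

open Fermat.Agent.S28 Fermat.Agent.JRED Fermat.Agent.JRED.ES Fermat.Agent.DR.Mod
  Fermat.Agent.DR.Ord Fermat.Agent.Jan.HeckeNorm Fermat.Agent.Jan.HeckeInputs

section Norm

variable (L : Type*) [Field L] [Algebra ℚ L]

/-- **(R)** The norm from `F_{Nℓ}` to `F_N` along `α` in terms of `q`-expansions. -/
theorem qExpand_normAlong_gen (hJ : JAlg) (N ℓ : ℕ) [NeZero N] [NeZero ℓ] (hℓ : ℓ.Prime)
    (w : laurentBaseChange L (modularFunctionFieldFull (N * ℓ)) →+*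
      laurentBaseChange L (modularFunctionFieldFull (N * ℓ)))
    (hw1 : ∀ x, w (heckeAlphaBar L N ℓ x) = heckeBetaBar L N ℓ x)
    (hw2 : ∀ x, w (heckeBetaBar L N ℓ x) = heckeAlphaBar L N ℓ x)
    (hdeg : finrankAlong L (heckeAlphaBar L N ℓ) = ℓ + 1)
    {ζ : Lˣ} (hζ : IsPrimitiveRoot ζ ℓ)
    (g : laurentBaseChange L (modularFunctionFieldFull (N * ℓ))) :
    qExpand L ℓ (inclL L N (normAlong (heckeAlphaBar L N ℓ) g)) =
      qExpand L ℓ (inclL L (N * ℓ) g) * twistProd ℓ ζ (inclL L (N * ℓ) (w g)) := by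
  have : CharZero L := charZero_of_injective_algebraMap (algebraMap ℚ L).injective
  have hfin : FiniteAlong L (heckeAlphaBar L N ℓ) := finiteAlong_heckeAlphaBar L N ℓ hJ
  let ι : Option (Fin ℓ) → (laurentBaseChange L (modularFunctionFieldFull (N * ℓ)) →+*
      LaurentSeries L) := fun o => o.elim ((qExpand L ℓ).comp (inclL L (N * ℓ)))
    (fun b => (twist (ζ ^ (b : ℕ))).comp ((inclL L (N * ℓ)).comp w))
  have hnone0 : ∀ x, ι none x = qExpand L ℓ (inclL L (N * ℓ) x) := fun _ => rfl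
  have hsome0 : ∀ b x, ι (some b) x = twist (ζ ^ (b : ℕ)) (inclL L (N * ℓ) (w x)) :=
    fun _ _ => rfl
  have hα : ∀ x, inclL L (N * ℓ) (heckeAlphaBar L N ℓ x) = inclL L N x := fun x => by
    rw [inclL_apply, inclL_apply, coe_heckeAlphaBar]
  have hβ : ∀ x, inclL L (N * ℓ) (heckeBetaBar L N ℓ x) = qExpand L ℓ (inclL L N x) := fun x => by
    rw [inclL_apply, inclL_apply, coe_heckeBetaBar]
  have hts : ∀ (b : Fin ℓ) x, twist (ζ ^ (b : ℕ)) (qExpand L ℓ x) = qExpand L ℓ x := by
    intro b x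
    apply twist_qExpand_of_pow_eq_one
    rw [← pow_mul, mul_comm, pow_mul, hζ.pow_eq_one, one_pow]
  have hj : ∀ b : Fin ℓ, (twist (ζ ^ (b : ℕ)) (inclL L N (jB L N))).coeff (-1) =
      (((ζ ^ (b : ℕ))⁻¹ : Lˣ) : L) := by
    intro b
    rw [twist_coeff, zpow_neg_one, inclL_apply, coe_jB, coeff_jL_neg_one, mul_one]
  have hj0 : (qExpand L ℓ (qExpand L ℓ (inclL L N (jB L N)))).coeff (-1) = 0 := by
    apply qExpand_coeff_of_not_dvd
    intro h
    have h1 : (ℓ : ℤ) ∣ 1 := by simpa using h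
    have h2 : ℓ ∣ 1 := by exact_mod_cast h1
    exact hℓ.one_lt.ne' (Nat.dvd_one.mp h2)
  have hnone : ι none (heckeBetaBar L N ℓ (jB L N)) =
      qExpand L ℓ (qExpand L ℓ (inclL L N (jB L N))) := by rw [hnone0, hβ]
  have hsome : ∀ b, ι (some b) (heckeBetaBar L N ℓ (jB L N)) =
      twist (ζ ^ (b : ℕ)) (inclL L N (jB L N)) := fun b => by rw [hsome0, hw2, hα]
  have hι : ∀ i x, ι i (heckeAlphaBar L N ℓ x) = ((qExpand L ℓ).comp (inclL L N)) x := by
    rintro (_ | b) x
    · rw [hnone0, hα]; rfl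
    · rw [hsome0, hw1, hβ, hts]; rfl
  have hinj : Function.Injective ι := by
    rintro (_ | b) (_ | c) h
    · rfl
    · exfalso
      have h1 := hj c
      rw [← hsome, ← h, hnone, hj0] at h1
      exact Units.ne_zero _ h1.symm
    · exfalso
      have h1 := hj b
      rw [← hsome, h, hnone, hj0] at h1
      exact Units.ne_zero _ h1.symm
    · have h1 := hj b
      rw [← hsome, h, hsome, hj c] at h1
      have h2 : ζ ^ (c : ℕ) = ζ ^ (b : ℕ) := inv_injective (Units.ext h1)
      rw [Fin.ext (hζ.pow_inj c.2 b.2 h2)]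
  have hcard : Fintype.card (Option (Fin ℓ)) = finrankAlong L (heckeAlphaBar L N ℓ) := by
    rw [hdeg, Fintype.card_option, Fintype.card_fin]
  have key := map_normAlong_eq_prod (heckeAlphaBar L N ℓ) hfin ((qExpand L ℓ).comp (inclL L N))
    ι hι hinj hcard g
  rw [Fintype.prod_option, hnone0] at key
  simp only [hsome0] at key
  exact key

end Norm

section Improve

variable {L : Type} [Field L] [Algebra ℚ L] {k : Type} [Field k] {A : ValuationSubring L}
  {π : A →+* k} {M p : ℕ} [NeZero M] [NeZero p] [ExpChar k p] [CharP k p] [hp : Fact p.Prime]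
  {w : laurentBaseChange L (modularFunctionFieldFull (M * p)) ≃ₐ[L]
      laurentBaseChange L (modularFunctionFieldFull (M * p))}

/-- the norm `|·|₁` -/
abbrev nOne (S : Setup π w) : NormRed L (laurentBaseChange L (modularFunctionFieldFull (M * p))) k
    (modularFunctionFieldFullC k M) A π := single S.surj (redOne S)

/-- the norm `|·|₂` -/
abbrev nTwo (S : Setup π w) : NormRed L (laurentBaseChange L (modularFunctionFieldFull (M * p))) k
    (modularFunctionFieldFullC k M) A π := single S.surj (redTwo S)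

theorem nOne_le_one (S : Setup π w) {f : laurentBaseChange L (modularFunctionFieldFull (M * p))} :
    (nOne S).nrm f ≤ 1 ↔ ∃ u : LaurentSeries k, GRed π (f : LaurentSeries L) u := by
  rw [single_nrm_le_one]
  constructor
  · rintro ⟨u, hu⟩
    exact ⟨_, (redOne_red S).mp hu⟩
  · rintro ⟨u, hu⟩
    exact ⟨⟨u, S.mem_full_of_red1 hu⟩, (redOne_red S).mpr hu⟩

theorem nTwo_le_one (S : Setup π w) {f : laurentBaseChange L (modularFunctionFieldFull (M * p))} :
    (nTwo S).nrm f ≤ 1 ↔ ∃ u : LaurentSeries k, GRed π (w f : LaurentSeries L) u := by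
  rw [single_nrm_le_one]
  constructor
  · rintro ⟨u, hu⟩
    exact ⟨_, (redTwo_red S).mp hu⟩
  · rintro ⟨u, hu⟩
    exact ⟨⟨u, S.mem_full_of_red2 hu⟩, (redTwo_red S).mpr hu⟩

/-- Two norms with the same unit ball are equal. -/
theorem nrm_eq_of_le_one {K F k F₁ F₂ : Type*} [Field K] [Field F] [Algebra K F] [Field k]
    [Field F₁] [Field F₂] [Algebra k F₁] [Algebra k F₂] {A : ValuationSubring K} {π : A →+* k}
    (N₁ : NormRed K F k F₁ A π) (N₂ : NormRed K F k F₂ A π) (s : F →+* F)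
    (hs : ∀ c : K, s (algebraMap K F c) = algebraMap K F c)
    (h : ∀ f, N₁.nrm f ≤ 1 ↔ N₂.nrm (s f) ≤ 1) (f : F) : N₁.nrm f = N₂.nrm (s f) := by
  rcases eq_or_ne f 0 with rfl | hf
  · simp
  have hsf : s f ≠ 0 := by rwa [Ne, map_eq_zero_iff _ s.injective]
  have key : ∀ c : K, c ≠ 0 → (N₁.nrm f ≤ A.valuation c ↔ N₂.nrm (s f) ≤ A.valuation c) := by
    intro c hc
    rw [NormRed.nrm_le_iff_mem _ hc, NormRed.nrm_le_iff_mem _ hc, ← NormRed.nrm_le_one_iff,
      ← NormRed.nrm_le_one_iff, h, map_mul, hs]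
  obtain ⟨c, hc, h1⟩ : ∃ c : K, c ≠ 0 ∧ N₁.nrm f = A.valuation c := by
    obtain ⟨c, hc, h1, h2⟩ := N₁.exists_normalizer hf
    exact ⟨c⁻¹, inv_ne_zero hc, N₁.nrm_eq hc h1 h2⟩
  obtain ⟨d, hd, h2⟩ : ∃ c : K, c ≠ 0 ∧ N₂.nrm (s f) = A.valuation c := by
    obtain ⟨c, hc, h1, h2⟩ := N₂.exists_normalizer hsf
    exact ⟨c⁻¹, inv_ne_zero hc, N₂.nrm_eq hc h1 h2⟩
  apply le_antisymm
  · rw [h2]
    exact (key d hd).mpr h2.le
  · rw [h1]
    exact (key c hc).mp h1.le

section Lemmas

variable (S : Setup π w)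

local notation "F_" => laurentBaseChange L (modularFunctionFieldFull (M * p))
local notation "α" => heckeAlphaBar L M p
local notation "β" => heckeBetaBar L M p

theorem nTwo_eq (f : F_) : (nTwo S).nrm f = (nOne S).nrm (w f) := by
  refine nrm_eq_of_le_one (nTwo S) (nOne S) (w : F_ →+* F_) (fun c => w.commutes c) (fun g => ?_) f
  rw [nTwo_le_one, nOne_le_one]
  rfl

theorem nOne_eq_one {f : F_} {u : LaurentSeries k} (h : GRed π (f : LaurentSeries L) u)
    (hu : u ≠ 0) : (nOne S).nrm f = 1 := by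
  refine le_antisymm ((nOne_le_one S).mpr ⟨u, h⟩) ?_
  by_contra hlt
  rw [not_le, single_nrm_lt_one, redOne_red] at hlt
  exact hu (h.unique hlt)

theorem nOne_alpha_eq_beta (x : laurentBaseChange L (modularFunctionFieldFull M)) :
    (nOne S).nrm (α x) = (nOne S).nrm (β x) := by
  rcases eq_or_ne x 0 with rfl | hx
  · simp
  obtain ⟨c, hc, u, hu, h⟩ := (Fermat.Agent.JRED.redL π M).normalize x hx
  have h1 : (nOne S).nrm (α (algebraMap L _ c * x)) = 1 := nOne_eq_one S (red1_alpha h) hu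
  have h2 : (nOne S).nrm (β (algebraMap L _ c * x)) = 1 := nOne_eq_one S (red1_beta h)
    ((_root_.map_ne_zero (ModularCurve.qExpand k p)).mpr hu)
  rw [map_mul, AlgHom.commutes, NormRed.nrm_const_mul] at h1 h2
  have hc0 : A.valuation c ≠ 0 := (Valuation.ne_zero_iff _).mpr hc
  exact mul_left_cancel₀ hc0 (h1.trans h2.symm)

theorem nOne_le_one_of_qExpand {z : F_} {u : LaurentSeries k}
    (h : GRed π (ModularCurve.qExpand L p (z : LaurentSeries L)) u) : (nOne S).nrm z ≤ 1 := by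
  rcases eq_or_ne z 0 with rfl | hz
  · simp
  obtain ⟨c, hc, u₀, hu₀, h₀⟩ := (R1L π M p).normalize z hz
  have h1 : (nOne S).nrm (algebraMap L F_ c * z) = 1 := nOne_eq_one S h₀ hu₀
  rw [NormRed.nrm_const_mul] at h1
  have hc0 : A.valuation c ≠ 0 := (Valuation.ne_zero_iff _).mpr hc
  rw [show (nOne S).nrm z = (A.valuation c)⁻¹ from (eq_inv_of_mul_eq_one_right h1)]
  rw [inv_le_one₀ (zero_lt_iff.mpr hc0)]
  by_contra hlt
  rw [not_le] at hlt
  have hcA : c ∈ A := A.valuation_le_one_iff c |>.mp hlt.le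
  have h2 : GRed π (ModularCurve.qExpand L p ((algebraMap L F_ c * z : F_) : LaurentSeries L))
      (ModularCurve.qExpand k p u₀) := GRed.qExpand h₀ p
  have e : ModularCurve.qExpand L p ((algebraMap L F_ c * z : F_) : LaurentSeries L) =
      algebraMap L (LaurentSeries L) c * ModularCurve.qExpand L p (z : LaurentSeries L) := by
    rw [MulMemClass.coe_mul, map_mul]
    congr 1
    change ModularCurve.qExpand L p (algebraMap L (LaurentSeries L) c) = _
    rw [algebraMap_laurentSeries_eq_single, qExpand_single, mul_zero]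
  rw [e] at h2
  have h3 := (GRed.const (π := π) ⟨c, hcA⟩).mul h
  have h4 : π ⟨c, hcA⟩ = 0 := by
    apply res_eq_zero_of_not_isUnit S.surj
    intro hu
    have := (A.valuation_lt_one_iff ⟨c, hcA⟩).mpr hlt
    exact (IsLocalRing.mem_maximalIdeal _).mp this hu
  rw [h4, map_zero, zero_mul] at h3
  have h5 := h3.unique h2
  exact (_root_.map_ne_zero (ModularCurve.qExpand k p)).mpr hu₀ h5.symm

variable (hJ : JAlg) (hdeg : finrankAlong L (heckeAlphaBar L M p) = p + 1)

include hJ hdeg in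
/-- **The contraction estimate**: `|α(N_α f) / f - 1|₁ ≤ max (|p| ε) (ε ^ p)`, `ε = |f - 1|₂`. -/
theorem nOne_quot_sub_one_le {ζ : Aˣ} (hζ : IsPrimitiveRoot ζ p) {f : F_} (hf : f ≠ 0)
    (hε : (nTwo S).nrm (f - 1) < 1) :
    (nOne S).nrm (α (normAlong (heckeAlphaBar L M p) f) / f - 1) ≤
      max (A.valuation (p : L) * (nTwo S).nrm (f - 1)) ((nTwo S).nrm (f - 1) ^ p) := by
  have hL0 : CharZero L := charZero_of_injective_algebraMap (algebraMap ℚ L).injective
  have hpL : (p : L) ≠ 0 := by exact_mod_cast hp.out.ne_zero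
  set ζ' : Lˣ := Units.map A.subtype.toMonoidHom ζ with hζ'def
  have hζ' : IsPrimitiveRoot ζ' p :=
    hζ.map_of_injective (f := Units.map A.subtype.toMonoidHom)
      (Units.map_injective Subtype.val_injective)
  set y : F_ := α (normAlong (heckeAlphaBar L M p) f) / f with hy
  have hR := qExpand_normAlong_gen L hJ M p hp.out (w : F_ →+* F_) S.al.alpha S.al.beta hdeg hζ' f
  have hyq : ModularCurve.qExpand L p (y : LaurentSeries L) =
      twistProd p ζ' ((w f : F_) : LaurentSeries L) := by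
    have hfq : ModularCurve.qExpand L p (f : LaurentSeries L) ≠ 0 :=
      (_root_.map_ne_zero (ModularCurve.qExpand L p)).mpr (by simpa using hf)
    have h1 : (y : LaurentSeries L) * (f : LaurentSeries L) =
        (normAlong (heckeAlphaBar L M p) f : LaurentSeries L) := by
      rw [← MulMemClass.coe_mul, hy, div_mul_cancel₀ _ hf, coe_heckeAlphaBar]
    have h2 := congrArg (ModularCurve.qExpand L p) h1
    rw [map_mul] at h2
    apply mul_right_cancel₀ hfq
    rw [h2]
    change ModularCurve.qExpand L p (inclL L M (normAlong (heckeAlphaBar L M p) f)) = _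
    rw [hR, mul_comm]
    rfl
  rcases eq_or_ne (w f - 1) 0 with h0 | h0
  · -- `f = 1`
    have hwf : w f = 1 := sub_eq_zero.mp h0
    rw [hwf] at hyq
    have h1 : ModularCurve.qExpand L p (y : LaurentSeries L) =
        ModularCurve.qExpand L p ((1 : F_) : LaurentSeries L) := by
      rw [hyq, twistProd]
      change ∏ b : Fin p, twist (ζ' ^ (b : ℕ)) 1 = ModularCurve.qExpand L p 1
      simp
    have h2 : y = 1 := Subtype.ext (qExpand_injective p h1)
    rw [h2, sub_self]
    simp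
  obtain ⟨c₀, hc₀, hmem, hres⟩ := (nOne S).exists_normalizer h0
  have hnrm : (nOne S).nrm (w f - 1) = A.valuation c₀⁻¹ := (nOne S).nrm_eq hc₀ hmem hres
  have hε' : (nTwo S).nrm (f - 1) = A.valuation c₀⁻¹ := by
    rw [nTwo_eq, map_sub, map_one, hnrm]
  rw [hε'] at hε ⊢
  have hcA : c₀⁻¹ ∈ A := (A.valuation_le_one_iff _).mp hε.le
  set c : A := ⟨c₀⁻¹, hcA⟩ with hc
  obtain ⟨u, hu⟩ := (nOne_le_one S).mp ((NormRed.nrm_le_one_iff _).mpr hmem)
  have hwf : ((w f : F_) : LaurentSeries L) = 1 + HahnSeries.C (c : L) *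
      ((algebraMap L F_ c₀ * (w f - 1) : F_) : LaurentSeries L) := by
    have h1 : (w f : F_) = 1 + algebraMap L F_ c₀⁻¹ * (algebraMap L F_ c₀ * (w f - 1)) := by
      rw [← mul_assoc, ← map_mul, inv_mul_cancel₀ hc₀, map_one, one_mul, add_sub_cancel]
    have h2 := congrArg (fun z : F_ => (z : LaurentSeries L)) h1
    refine Eq.trans h2 ?_
    rw [← algebraMap_eq_C]
    rfl
  obtain ⟨e, e', u₁, u₂, he, he', hprod⟩ := gred_twistProd hζ hu c
  rw [← hζ'def, ← hwf, ← hyq] at hprod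
  -- the dominant coefficient
  obtain ⟨d, hd0, hd, r, r', hrr⟩ : ∃ d : L, d ≠ 0 ∧
      A.valuation d ≤ max (A.valuation (p : L) * A.valuation c₀⁻¹) (A.valuation c₀⁻¹ ^ p) ∧
      ∃ r r' : A, (((p : A) * c : A) : L) = d * r ∧ ((c ^ p : A) : L) = d * r' := by
    have hx0 : (((p : A) * c : A) : L) ≠ 0 := by
      have : (((p : A) * c : A) : L) = (p : L) * c₀⁻¹ := by simp [hc]
      rw [this]
      exact mul_ne_zero hpL (inv_ne_zero hc₀)
    have hx'0 : ((c ^ p : A) : L) ≠ 0 := by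
      have : ((c ^ p : A) : L) = c₀⁻¹ ^ p := by simp [hc]
      rw [this]
      exact pow_ne_zero _ (inv_ne_zero hc₀)
    have hvx : A.valuation (((p : A) * c : A) : L) = A.valuation (p : L) * A.valuation c₀⁻¹ := by
      rw [← map_mul]; simp [hc]
    have hvx' : A.valuation ((c ^ p : A) : L) = A.valuation c₀⁻¹ ^ p := by
      rw [← map_pow]; simp [hc]
    rcases le_total (A.valuation (((p : A) * c : A) : L)) (A.valuation ((c ^ p : A) : L)) with h | h
    · refine ⟨((c ^ p : A) : L), hx'0, ?_, ?_⟩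
      · rw [hvx']; exact le_max_right _ _
      · have hr : (((p : A) * c : A) : L) / ((c ^ p : A) : L) ∈ A := by
          rw [← A.valuation_le_one_iff, map_div₀]
          exact div_le_one_of_le₀ h zero_le
        exact ⟨⟨_, hr⟩, 1, by rw [mul_div_cancel₀ _ hx'0], by simp⟩
    · refine ⟨(((p : A) * c : A) : L), hx0, ?_, ?_⟩
      · rw [hvx]; exact le_max_left _ _
      · have hr : ((c ^ p : A) : L) / (((p : A) * c : A) : L) ∈ A := by
          rw [← A.valuation_le_one_iff, map_div₀]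
          exact div_le_one_of_le₀ h zero_le
        exact ⟨1, ⟨_, hr⟩, by simp, by rw [mul_div_cancel₀ _ hx0]⟩
  refine le_trans ?_ hd
  rw [NormRed.nrm_le_iff_mem _ hd0, ← NormRed.nrm_le_one_iff]
  have hE := ((GRed.const (π := π) r).mul he).add ((GRed.const (π := π) r').mul he')
  suffices hq : GRed π (ModularCurve.qExpand L p
      ((algebraMap L F_ d⁻¹ * (y - 1) : F_) : LaurentSeries L))
      (algebraMap k (LaurentSeries k) (π r) * u₁ + algebraMap k (LaurentSeries k) (π r') * u₂) from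
    nOne_le_one_of_qExpand S hq
  convert hE using 1
  have hq1 : ModularCurve.qExpand L p ((algebraMap L F_ d⁻¹ * (y - 1) : F_) : LaurentSeries L) =
      HahnSeries.C d⁻¹ * (ModularCurve.qExpand L p (y : LaurentSeries L) - 1) := by
    change ModularCurve.qExpand L p (algebraMap L (LaurentSeries L) d⁻¹ *
      ((y : LaurentSeries L) - 1)) = _
    rw [map_mul, map_sub, map_one, algebraMap_eq_C, qExpand_C]
  rw [hq1, hprod, hrr.1, hrr.2, algebraMap_eq_C, algebraMap_eq_C, map_mul HahnSeries.C,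
    map_mul HahnSeries.C, map_inv₀ HahnSeries.C]
  have hCd : (HahnSeries.C d : LaurentSeries L) ≠ 0 := HahnSeries.C_ne_zero hd0
  field_simp
  ring

end Lemmas

end Improve

end Fermat.Agent.DR.AtP
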