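import Fermat.Agent.DR.AtP.Improve

set_option autoImplicit false
set_option linter.unusedSectionVars false

/-!
# The improvement property, final form

`improves_one`, `improves_two`: the hypotheses `H₁`, `H₂` of `Ord.exists_locally_trivial` for the
modular function field of level `M p`.
-/

noncomputable section

open AlgebraicCurve ModularCurve

namespace Fermat.Agent.DR.AtP

open Fermat.Agent.S28 Fermat.Agent.JRED Fermat.Agent.JRED.ES Fermat.Agent.DR.Mod
  Fermat.Agent.DR.Ord Fermat.Agent.Jan.HeckeNorm Fermat.Agent.Jan.HeckeInputs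

/-- `N_β f = N_α (w f)`. -/
theorem normAlong_beta {L : Type*} [Field L] [Algebra ℚ L] {M p : ℕ} [NeZero M] [NeZero p]
    {w : laurentBaseChange L (modularFunctionFieldFull (M * p)) ≃ₐ[L]
      laurentBaseChange L (modularFunctionFieldFull (M * p))} (hw : IsAL w)
    (f : laurentBaseChange L (modularFunctionFieldFull (M * p))) :
    normAlong (heckeBetaBar L M p) f = normAlong (heckeAlphaBar L M p) (w f) := by
  let i1 : Algebra (laurentBaseChange L (modularFunctionFieldFull M))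
    (laurentBaseChange L (modularFunctionFieldFull (M * p))) := algebraAlong (heckeBetaBar L M p)
  let i2 : Algebra (laurentBaseChange L (modularFunctionFieldFull M))
    (laurentBaseChange L (modularFunctionFieldFull (M * p))) := algebraAlong (heckeAlphaBar L M p)
  let e : @AlgEquiv (laurentBaseChange L (modularFunctionFieldFull M))
    (laurentBaseChange L (modularFunctionFieldFull (M * p)))
    (laurentBaseChange L (modularFunctionFieldFull (M * p))) _ _ _ i1 i2 :=
    @AlgEquiv.ofRingEquiv _ _ _ _ _ _ i1 i2 w.toRingEquiv (fun x => hw.beta x)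
  have h := @Algebra.norm_eq_of_algEquiv (laurentBaseChange L (modularFunctionFieldFull M))
    (laurentBaseChange L (modularFunctionFieldFull (M * p)))
    (laurentBaseChange L (modularFunctionFieldFull (M * p))) _ _ i1 _ i2 e f
  exact h.symm

section Improve

variable {L : Type} [Field L] [Algebra ℚ L] {k : Type} [Field k] {A : ValuationSubring L}
  {π : A →+* k} {M p : ℕ} [NeZero M] [NeZero p] [ExpChar k p] [CharP k p] [hp : Fact p.Prime]
  {w : laurentBaseChange L (modularFunctionFieldFull (M * p)) ≃ₐ[L]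
      laurentBaseChange L (modularFunctionFieldFull (M * p))}
  (S : Setup π w)

local notation "F_" => laurentBaseChange L (modularFunctionFieldFull (M * p))
local notation "α" => heckeAlphaBar L M p
local notation "β" => heckeBetaBar L M p

theorem normRed_inv_sub_one {K F k₀ F₁ : Type*} [Field K] [Field F] [Algebra K F] [Field k₀]
    [Field F₁] [Algebra k₀ F₁] {B : ValuationSubring K} {π₀ : B →+* k₀}
    (N : NormRed K F k₀ F₁ B π₀) {y : F} (hy : N.nrm (y - 1) < 1) :
    N.nrm (y⁻¹ - 1) = N.nrm (y - 1) := by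
  have h1 := N.nrm_eq_one_of_sub hy
  have hy0 : y ≠ 0 := by
    rintro rfl
    rw [N.nrm_zero] at h1
    exact zero_ne_one h1
  have e : y⁻¹ - 1 = y⁻¹ * (1 - y) := by
    rw [mul_sub, inv_mul_cancel₀ hy0, mul_one]
  rw [e, N.nrm_mul, N.nrm_inv, h1, inv_one, one_mul, N.nrm_sub_comm]

/-- **H₁** -/
theorem improves_one (hJ : JAlg) (hdeg : finrankAlong L (heckeAlphaBar L M p) = p + 1)
    {ζ : Aˣ} (hζ : IsPrimitiveRoot ζ p) (hvp : A.valuation (p : L) < 1) :
    Improves (nOne S) (nTwo S) p {f : F_ | f ≠ 0 ∧ ∃ v, normAlong (heckeAlphaBar L M p) f = v ^ p} := by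
  rintro f ⟨hf, v, hv⟩ h1 h2
  have hp0 := hp.out.ne_zero
  have hp1 := hp.out.one_lt
  set Nf := normAlong (heckeAlphaBar L M p) f with hNf
  set y : F_ := α Nf / f with hy
  have hest := nOne_quot_sub_one_le S hJ hdeg hζ hf h2
  rw [← hNf, ← hy] at hest
  have hmax : max (A.valuation (p : L) * (nTwo S).nrm (f - 1)) ((nTwo S).nrm (f - 1) ^ p) ≤
      (nTwo S).nrm (f - 1) := by
    refine max_le (mul_le_of_le_one_left zero_le hvp.le) ?_
    calc (nTwo S).nrm (f - 1) ^ p ≤ (nTwo S).nrm (f - 1) ^ 1 :=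
          pow_le_pow_of_le_one zero_le h2.le hp1.le
      _ = _ := pow_one _
  have hy1 : (nOne S).nrm (y - 1) < 1 := (hest.trans hmax).trans_lt h2
  have hynrm := (nOne S).nrm_eq_one_of_sub hy1
  have hy0 : y ≠ 0 := by
    intro h
    rw [h, NormRed.nrm_zero] at hynrm
    exact zero_ne_one hynrm
  have hαN0 : α Nf ≠ 0 := by
    intro h
    apply hy0
    rw [hy, h, zero_div]
  have hv0 : v ≠ 0 := by
    intro h
    apply hαN0
    rw [hv, h, zero_pow hp0, map_zero]
  have hαv0 : α v ≠ 0 := (_root_.map_ne_zero (heckeAlphaBar L M p)).mpr hv0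
  have hu : f * (α v)⁻¹ ^ p = y⁻¹ := by
    rw [inv_pow, ← map_pow, ← hv, hy, inv_div]
    rfl
  have hu' : f * (α v)⁻¹ ^ p = f * (α Nf)⁻¹ := by
    rw [inv_pow, ← map_pow, ← hv]
  refine ⟨(α v)⁻¹, inv_ne_zero hαv0, ?_, ?_⟩
  · rw [hu, normRed_inv_sub_one _ hy1]
    exact hest
  · have h3 : (nTwo S).nrm (α Nf - 1) ≤ max ((nOne S).nrm (f - 1)) ((nTwo S).nrm (f - 1)) := by
      have e1 : w (α Nf - 1) = β (Nf - 1) := by
        rw [map_sub, map_sub, map_one, map_one, S.al.alpha]
      have e2 : α (Nf - 1) = y * f - 1 := by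
        rw [map_sub, map_one, hy, div_mul_cancel₀ _ hf]
      rw [nTwo_eq, e1, ← nOne_alpha_eq_beta, e2]
      refine ((nOne S).nrm_mul_sub_one_le ((nOne S).nrm_eq_one_of_sub h1).le).trans ?_
      exact max_le ((hest.trans hmax).trans (le_max_right _ _)) (le_max_left _ _)
    have h4 : (nTwo S).nrm (α Nf - 1) < 1 := h3.trans_lt (max_lt h1 h2)
    rw [hu']
    have h5 := (nTwo S).nrm_eq_one_of_sub h4
    refine ((nTwo S).nrm_mul_sub_one_le ?_).trans (max_le (le_max_right _ _) ?_)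
    · rw [(nTwo S).nrm_inv, h5, inv_one]
    · rw [normRed_inv_sub_one _ h4]
      exact h3

/-- **H₂** -/
theorem improves_two (hJ : JAlg) (hdeg : finrankAlong L (heckeAlphaBar L M p) = p + 1)
    {ζ : Aˣ} (hζ : IsPrimitiveRoot ζ p) (hvp : A.valuation (p : L) < 1)
    (hww : ∀ x, w (w x) = x) :
    Improves (nTwo S) (nOne S) p {f : F_ | f ≠ 0 ∧ ∃ v, normAlong (heckeBetaBar L M p) f = v ^ p} := by
  rintro f ⟨hf, v, hv⟩ h1 h2
  rw [normAlong_beta S.al] at hv
  have e1 : (nTwo S).nrm (w f - 1) = (nOne S).nrm (f - 1) := by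
    rw [nTwo_eq, map_sub, map_one, hww]
  have e2 : (nTwo S).nrm (f - 1) = (nOne S).nrm (w f - 1) := by
    rw [nTwo_eq, map_sub, map_one]
  rw [e2] at h1 ⊢
  rw [← e1] at h2 ⊢
  have hwf : w f ≠ 0 := (_root_.map_ne_zero w).mpr hf
  obtain ⟨u, hu0, hu1, hu2⟩ := improves_one S hJ hdeg hζ hvp (w f) ⟨hwf, v, hv⟩ h1 h2
  refine ⟨w u, (_root_.map_ne_zero w).mpr hu0, ?_, ?_⟩
  · have e3 : (nTwo S).nrm (f * w u ^ p - 1) = (nOne S).nrm (w f * u ^ p - 1) := by
      rw [nTwo_eq, map_sub, map_one, map_mul, map_pow, hww]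
    rw [e3]
    exact hu1
  · have e3 : (nOne S).nrm (f * w u ^ p - 1) = (nTwo S).nrm (w f * u ^ p - 1) := by
      rw [nTwo_eq, map_sub, map_one, map_mul, map_pow, hww]
    rw [e3]
    exact hu2

/-- The set of functions with both norms `p`-th powers is stable under multiplication by `p`-th
powers. -/
theorem mem_newSet_mul {f : F_}
    (hf : (f ≠ 0 ∧ ∃ v, normAlong (heckeAlphaBar L M p) f = v ^ p) ∧
      (f ≠ 0 ∧ ∃ v, normAlong (heckeBetaBar L M p) f = v ^ p)) {u : F_} (hu : u ≠ 0) :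
    (f * u ^ p ≠ 0 ∧ ∃ v, normAlong (heckeAlphaBar L M p) (f * u ^ p) = v ^ p) ∧
      (f * u ^ p ≠ 0 ∧ ∃ v, normAlong (heckeBetaBar L M p) (f * u ^ p) = v ^ p) := by
  obtain ⟨⟨h0, v, hv⟩, -, v', hv'⟩ := hf
  have h1 : f * u ^ p ≠ 0 := mul_ne_zero h0 (pow_ne_zero _ hu)
  exact ⟨⟨h1, v * normAlong (heckeAlphaBar L M p) u, by rw [map_mul, map_pow, hv, mul_pow]⟩,
    ⟨h1, v' * normAlong (heckeBetaBar L M p) u, by rw [map_mul, map_pow, hv', mul_pow]⟩⟩

end Improve

end Fermat.Agent.DR.AtP
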