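import Fermat.Agent.DR.S39.Statement
import Fermat.Agent.DR.AtP.AtPCoreProof
import Fermat.Agent.DR.AtP.AnnP
import Fermat.Agent.DR.Mazur.OfGeo

/-!
# `AtPInput` from the specialisation of classes fixed by the stabiliser of `μ`
-/

set_option autoImplicit false
set_option linter.unusedSectionVars false
set_option linter.style.haveILetI false

noncomputable section

open AlgebraicCurve ModularCurve IntermediateField
open Fermat.Agent.RR Fermat.Agent.JRED Fermat.Agent.DR Fermat.Agent.DR.Mod Fermat.Agent.DR.ModGal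
open Fermat.Agent.JRED.AL Fermat.Agent.DR.S36 Fermat.Agent.CMP.S36Assembly
  Fermat.Agent.CMP.PushHecke Fermat.Agent.Jan.HeckeCommute
open Fermat.Agent.S30Wiring (AnemicAlg anemicIncl anemicEval)

namespace Fermat.Agent.DR.AtP

local notation "Qbar" => AlgebraicClosure ℚ
local notation "Γℚ" => (AlgebraicClosure ℚ ≃ₐ[ℚ] AlgebraicClosure ℚ)

/-- **The geometric input at `p`**: a `p`-torsion eigenclass of `J₀(Mp)` fixed by the elements of
inertia fixing `μ`, `μ ^ p = 1 + p v`, has, up to the factor `E (a - ℓ - 1)`, a specialisation. -/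
def SpecP (E : ℤ) (M p : ℕ) [NeZero M] [NeZero p] : Prop :=
  ∀ (_ : p.Prime) (_ : ¬ p ∣ M) (A : ValuationSubring Qbar) (_ : A.LiesOverPrime p)
    (k : Type) [Field k] [IsAlgClosed k] [CharP k p] (π : A →+* k)
    (w : laurentBaseChange Qbar (modularFunctionFieldFull (M * p)) ≃ₐ[Qbar]
      laurentBaseChange Qbar (modularFunctionFieldFull (M * p)))
    [FunctionField Qbar (modularFunctionFieldBar (M * p))]
    [FunctionField Qbar (modularFunctionFieldBar M)]
    [FunctionField k (modularFunctionFieldFullC k M)]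
    (S' : Setup π w) [Fact p.Prime]
    (X : NodalDatum Qbar (modularFunctionFieldBar (M * p)) k
      (modularFunctionFieldFullC k M) (modularFunctionFieldFullC k M) A π),
    IsModularNodal S' X → ∀ μ v : Qbar, μ ^ p = 1 + p * v → A.valuation v = 1 →
      (∀ σ ∈ A.inertiaSubgroupIn ℚ, σ v = v) →
      ∀ (x : JZero (M * p)) (ℓ : Nat.Primes) (a : ℤ), p • x = 0 →
        (∀ σ ∈ A.inertiaSubgroupIn ℚ, σ μ = μ → σ • x = x) → ¬ (ℓ : ℕ) ∣ M * p →
        heckeOperatorBar (M * p) ℓ x = a • x →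
        ∃ y₁ y₂, Spec X p ((E * (a - ℓ - 1)) • (x : Pic0 Qbar (modularFunctionFieldBar (M * p))))
          y₁ y₂

/-- If `t` kills `S₂(Γ₀(M))` then `t x` is killed by the push-forwards, for torsion `x`. -/
theorem push_smul_zero {M p e : ℕ} [NeZero M] [NeZero (M * p)] [NeZero e] (h : M * e ∣ M * p)
    {S : Finset ℕ} (hNS : ∀ r : ℕ, r.Prime → r ∣ M * p → r ∈ S)
    (hMS : ∀ r : ℕ, r.Prime → r ∣ M → r ∈ S)
    (hT : ∀ (ℓ : ℕ) [NeZero ℓ], ℓ.Prime → ¬ ℓ ∣ M * p → ∀ x, push Qbar M (M * p) e h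
      (heckeOperatorAlong Qbar (M * p) ℓ x) =
        heckeOperatorAlong Qbar M ℓ (push Qbar M (M * p) e h x))
    {t : AnemicAlg S} (ht : anemicEval (N := M) hMS t = 0) {n : ℕ} (hn : n ≠ 0)
    {x : JZero (M * p)} (hpx : n • x = 0) :
    (letI := heckeModuleBar (M * p)
     push Qbar M (M * p) e h (anemicIncl S t • x)) = 0 := by
  letI := heckeModuleBar (M * p)
  letI := heckeModuleBar M
  refine (push_anemic h hNS hT t x).trans ?_
  refine JAN.AnnFinal.smul_eq_zero_of_torsion hMS ht hn ?_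
  rw [← map_nsmul]
  exact (congrArg _ hpx).trans (map_zero _)

/-- **`AtPInput` from the geometric input.** -/
theorem atPInput_of_spec {E : ℤ} {M p : ℕ} [NeZero M] [NeZero p] [NeZero (M * p)]
    (hgeo : SpecP E M p) (hp : p.Prime) (hE : ¬ (p : ℤ) ∣ E) (hpM : ¬ p ∣ M) {S : Finset ℕ}
    (hNS : ∀ r : ℕ, r.Prime → r ∣ M * p → r ∈ S) : S39.AtPInput M p S := by
  letI := heckeModuleBar (M * p)
  have i0 : Fact p.Prime := ⟨hp⟩
  have hpS : p ∈ S := hNS p hp (dvd_mul_left p M)
  intro hMS t ht A hA μ v hμ hv hvI ℓ hℓ hℓS a ha x hpx _ _ hfix hT τ hτ n hn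
  have hπ : Function.Surjective (IsLocalRing.residue A) := IsLocalRing.residue_surjective
  have i1 : CharP (IsLocalRing.ResidueField A) p := Mod.charP_of_liesOverPrime hπ hp hA
  have i2 : IsAlgClosed (IsLocalRing.ResidueField A) := isAlgClosed_of_surjective hπ
  have i3 : ExpChar (IsLocalRing.ResidueField A) p := ExpChar.prime hp
  have hdeg : DegreeInput M (IsLocalRing.ResidueField A) :=
    degreeInput' (NeZero.ne M) hpM
  have hgood : GoodReduction M (IsLocalRing.ResidueField A) :=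
    goodReduction hπ hp (NeZero.ne M) hpM
  have i4 := hdeg.functionField
  have i5 := hdeg.functionField'
  have i6 : FunctionField Qbar (modularFunctionFieldBar (M * p)) := functionField_bar (M * p)
  obtain ⟨w, -, S'⟩ := exists_setup_bar (M := M) (q := p) hπ hpM
  obtain ⟨X, hX, -⟩ := exists_modular_nodalDatum hA hpM S' hdeg hgood
  have hℓMp : ¬ ℓ ∣ M * p := fun h => hℓS (hNS ℓ hℓ h)
  have hT' : heckeOperatorBar (M * p) ⟨ℓ, hℓ⟩ x = a • x := by
    rw [← heckeModuleBar_heckeGen_smul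
      (Fermat.Agent.JAN.PsiDegree.heckeOperatorsCommuteBar (M * p)) ⟨ℓ, hℓ⟩ x, ← hT]
    rw [anemicIncl, MvPolynomial.rename_X]
    rfl
  have hcop : IsCoprime (E * (a - ℓ - 1)) ((p : ℕ) : ℤ) := by
    rw [isCoprime_comm, Prime.coprime_iff_not_dvd (Nat.prime_iff_prime_int.mp hp)]
    intro h
    rcases (Nat.prime_iff_prime_int.mp hp).dvd_or_dvd h with h | h
    · exact hE h
    · exact ha (by rwa [sub_sub] at h)
  obtain ⟨y₁, y₂, h⟩ := Mazur.exists_spec_of_coprime hπ hp.pos hpx hcop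
    (hgeo hp hpM A hA _ _ w S' X hX μ v hμ hv hvI x ⟨ℓ, hℓ⟩ a hpx hfix hℓMp hT')
  have htor := AtP.inTorus_smul hA hpM S' hX.eq₁ hX.eq₂ hpS hMS ht hp.pos h
  have hcomm : SMulCommClass ℕ HeckeAlg (JZero (M * p)) := inferInstance
  have hptx : p • (anemicIncl S t • x) = 0 := by
    have h1 := map_nsmul (DistribSMul.toAddMonoidHom (JZero (M * p)) (anemicIncl S t)) p x
    have h2 : p • (anemicIncl S t • x) = anemicIncl S t • (p • x) := h1.symm
    rw [h2, hpx, smul_zero]
  refine DR.Ord.modular_smul_eq_nsmul hA hpM S' hX hptx htor ?_ ?_ hτ hn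
  · refine pushZero_of_push (N := M) (M := M * p) (e := 1)
      (by rw [mul_one]; exact dvd_mul_right _ _) (heckeAlphaBar_eq_degen Qbar M p) ?_
    exact push_smul_zero _ hNS hMS (fun ℓ _ hℓ hℓM x => push_alpha_hecke Qbar hℓ hℓM _ x) ht
      hp.ne_zero hpx
  · refine pushZero_of_push (N := M) (M := M * p) (e := p) dvd_rfl
      (heckeBetaBar_eq_degen Qbar M p) ?_
    exact push_smul_zero _ hNS hMS (fun ℓ _ hℓ hℓM x => push_beta_hecke Qbar hℓ hℓM _ x) ht
      hp.ne_zero hpx

/-- **The inputs of S39** from the geometric input at rigid levels with `E = 1`. -/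
theorem atPInputs_of_spec
    (h : ∀ (M p : ℕ) [NeZero M] [NeZero p], p ≠ 2 → DR.S36.Rigid M → SpecP 1 M p) :
    S39.AtPInputs := by
  intro M p i1 i2 i3 S hp hp2 hrig hpM _ hNS
  refine atPInput_of_spec (h M p hp2 hrig) hp ?_ hpM hNS
  intro h1
  exact hp.one_lt.ne' (by exact_mod_cast Int.eq_one_of_dvd_one (by positivity) h1)

end Fermat.Agent.DR.AtP
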