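import Mathlib

set_option autoImplicit false

/-!
# Wild inertia at `p`: the degree `p` extension `K₀(μ)`, `μ ^ p = 1 + p v'`

`K` is a field with a valuation `v` and a group `G` acting as inertia above a valuation with
uniformizer `p` on the fixed field `K₀ = K^G`.  For `μ ^ p = 1 + p v'` with `v'` a unit of `K₀` we
study the elements fixed by the stabilizer of `μ` (i.e. the elements of `K₀(μ)`):

* `smul_sub_le`: an integral `a ∈ K₀(μ)` satisfies `v (σ a - a) ≤ v (ζ - 1)`;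
* `smul_div_pow`: `(σ a / a) ^ p ≡ 1 - n (ζ - 1) / v'` if `v a = v (μ - 1) ^ n`.
-/

noncomputable section

open Finset Polynomial

namespace Fermat.Agent.DR.AtP

/-- `G` acts on the valued field `(K, v)` like the inertia group of a place above the prime `p`
(the fixed field has uniformizer `p`). -/
structure InertialAction {K Γ₀ : Type*} [Field K] [LinearOrderedCommGroupWithZero Γ₀]
    (v : Valuation K Γ₀) (G : Type*) [Group G] [MulSemiringAction G K] (p : ℕ) : Prop where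
  prime : p.Prime
  v_smul : ∀ (σ : G) (a : K), v (σ • a) = v a
  smul_sub_lt : ∀ (σ : G) (a : K), v a ≤ 1 → v (σ • a - a) < 1
  v_p_lt : v (p : K) < 1
  p_ne_zero : (p : K) ≠ 0
  v_fixed : ∀ a : K, (∀ σ : G, σ • a = a) → a ≠ 0 → ∃ n : ℤ, v a = v (p : K) ^ n

section General

variable {K Γ₀ : Type*} [Field K] [LinearOrderedCommGroupWithZero Γ₀] {v : Valuation K Γ₀}

lemma v_eq_one_of_pow_eq {a : K} {n : ℕ} (hn : n ≠ 0) (h : v (a ^ n) = 1) : v a = 1 := by
  rw [map_pow] at h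
  exact (pow_eq_one_iff_of_nonneg zero_le hn).mp h

lemma v_natCast_le (n : ℕ) : v (n : K) ≤ 1 := by
  induction n with
  | zero => simp
  | succ n ih =>
    rw [Nat.cast_succ]
    exact v.map_add_le ih (by simp)

lemma v_intCast_le (n : ℤ) : v (n : K) ≤ 1 := by
  cases n with
  | ofNat n => simpa using v_natCast_le (v := v) n
  | negSucc n =>
    rw [Int.cast_negSucc, Valuation.map_neg]
    exact v_natCast_le _

/-- `v (a ^ n - b ^ n) ≤ v (a - b)` for integral `a`, `b`. -/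
lemma v_pow_sub_pow_le {a b : K} (ha : v a ≤ 1) (hb : v b ≤ 1) (n : ℕ) :
    v (a ^ n - b ^ n) ≤ v (a - b) := by
  induction n with
  | zero => simp
  | succ n ih =>
    have e : a ^ (n + 1) - b ^ (n + 1) = a * (a ^ n - b ^ n) + (a - b) * b ^ n := by ring
    rw [e]
    refine v.map_add_le ?_ ?_
    · rw [map_mul]
      exact (mul_le_of_le_one_left zero_le ha).trans ih
    · rw [map_mul, map_pow]
      exact mul_le_of_le_one_right zero_le (pow_le_one₀ zero_le hb)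

/-- `v (a ^ n - b ^ n) < v (a - b)` for `a`, `b` in the maximal ideal, `n ≥ 2`. -/
lemma v_pow_sub_pow_lt {a b : K} (ha : v a < 1) (hb : v b < 1) (hab : a ≠ b) {n : ℕ} (hn : 2 ≤ n) :
    v (a ^ n - b ^ n) < v (a - b) := by
  obtain ⟨m, rfl⟩ : ∃ m, n = m + 1 := ⟨n - 1, by omega⟩
  have hpos : 0 < v (a - b) := by rw [Valuation.pos_iff]; exact sub_ne_zero.mpr hab
  have e : a ^ (m + 1) - b ^ (m + 1) = a * (a ^ m - b ^ m) + (a - b) * b ^ m := by ring
  rw [e]
  refine v.map_add_lt ?_ ?_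
  · rw [map_mul]
    calc v a * v (a ^ m - b ^ m) ≤ v a * v (a - b) :=
          mul_le_mul_right (v_pow_sub_pow_le ha.le hb.le m) _
      _ < 1 * v (a - b) := mul_lt_mul_of_pos_right ha hpos
      _ = v (a - b) := one_mul _
  · rw [map_mul, map_pow]
    calc v (a - b) * v b ^ m < v (a - b) * 1 :=
          mul_lt_mul_of_pos_left (pow_lt_one₀ zero_le hb (by omega)) hpos
      _ = v (a - b) := mul_one _

section Zeta

variable {p : ℕ} {ζ : K}

lemma v_zeta (hp : p.Prime) (hζ : IsPrimitiveRoot ζ p) : v ζ = 1 :=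
  v_eq_one_of_pow_eq hp.ne_zero (by rw [hζ.pow_eq_one, map_one])

lemma zeta_sub_one_ne_zero (hp : p.Prime) (hζ : IsPrimitiveRoot ζ p) : ζ - 1 ≠ 0 :=
  sub_ne_zero.mpr (hζ.ne_one hp.one_lt)

lemma v_pow_sub_one_le {a : K} (ha : v a ≤ 1) (i : ℕ) : v (a ^ i - 1) ≤ v (a - 1) := by
  have := v_pow_sub_pow_le (v := v) ha (b := 1) (by simp) i
  simpa using this

lemma v_zeta_pow_sub_one_le (hp : p.Prime) (hζ : IsPrimitiveRoot ζ p) (i : ℕ) :
    v (ζ ^ i - 1) ≤ v (ζ - 1) :=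
  v_pow_sub_one_le (v_zeta hp hζ).le i

lemma v_zeta_pow_sub_one (hp : p.Prime) (hζ : IsPrimitiveRoot ζ p) {i : ℕ} (hi : ¬ p ∣ i) :
    v (ζ ^ i - 1) = v (ζ - 1) := by
  refine le_antisymm (v_zeta_pow_sub_one_le hp hζ i) ?_
  have hcop : Nat.Coprime i p := (hp.coprime_iff_not_dvd.mpr hi).symm
  obtain ⟨j, -, hj⟩ := Nat.exists_mul_mod_eq_one_of_coprime hcop hp.one_lt
  have h1 : ζ = (ζ ^ i) ^ j := by
    rw [← pow_mul]
    conv_rhs => rw [← Nat.div_add_mod (i * j) p, pow_add, pow_mul, hζ.pow_eq_one, one_pow, one_mul, hj,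
      pow_one]
  have h2 : v (ζ ^ i) ≤ 1 := by rw [map_pow, v_zeta hp hζ, one_pow]
  conv_lhs => rw [h1]
  exact v_pow_sub_one_le h2 j

lemma v_zeta_sub_one_pow (hp : p.Prime) (hζ : IsPrimitiveRoot ζ p) :
    v (ζ - 1) ^ (p - 1) = v (p : K) := by
  obtain ⟨n, rfl⟩ : ∃ n, p = n + 1 := ⟨p - 1, by have := hp.pos; omega⟩
  have hprod := hζ.prod_one_sub_pow_eq_order
  have e : ((n + 1 : ℕ) : K) = (n : K) + 1 := by push_cast; ring
  rw [e, ← hprod, map_prod, Nat.add_sub_cancel]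
  conv_lhs => rw [← Finset.card_range n]
  rw [← Finset.prod_const]
  refine Finset.prod_congr rfl fun i hi => ?_
  rw [Finset.mem_range] at hi
  rw [Valuation.map_sub_swap v 1 (ζ ^ (i + 1)), v_zeta_pow_sub_one hp hζ]
  intro hdvd
  have := Nat.le_of_dvd (Nat.succ_pos i) hdvd
  omega

lemma v_zeta_sub_one_lt (hp : p.Prime) (hζ : IsPrimitiveRoot ζ p) (hvp : v (p : K) < 1) :
    v (ζ - 1) < 1 := by
  by_contra h
  push Not at h
  have := v_zeta_sub_one_pow (v := v) hp hζ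
  rw [← this] at hvp
  exact absurd (one_le_pow₀ h) (not_le.mpr hvp)

end Zeta

end General

section Smul

variable {G K : Type*} [Group G] [Field K] [MulSemiringAction G K]

lemma smul_natCast' (σ : G) (n : ℕ) : σ • (n : K) = n :=
  map_natCast (MulSemiringAction.toRingHom G K σ) n

end Smul

namespace InertialAction

variable {K Γ₀ : Type*} [Field K] [LinearOrderedCommGroupWithZero Γ₀] {v : Valuation K Γ₀}
  {G : Type*} [Group G] [MulSemiringAction G K] {p : ℕ} (I : InertialAction v G p)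

include I

lemma v_p_pos : 0 < v (p : K) := by
  rw [Valuation.pos_iff]; exact I.p_ne_zero

section Mu

variable {ζ μ v' : K} (hζ : IsPrimitiveRoot ζ p) (hμ : μ ^ p = 1 + p * v') (hv' : v v' = 1)

include hμ

/-- the fundamental identity `t ^ p = p (v' - S)` -/
lemma exists_t_pow : ∃ c : ℕ → ℕ, c 1 = 1 ∧
    (μ - 1) ^ p = p * (v' - ∑ k ∈ Ioo 0 p, (μ - 1) ^ k * (c k : K)) := by
  refine ⟨fun k => p.choose k / p, ?_, ?_⟩
  · simp [I.prime.pos]
  · have h := add_pow_prime_eq' I.prime (μ - 1) 1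
    simp only [one_pow, mul_one, sub_add_cancel] at h
    rw [hμ] at h
    linear_combination -h

include hv'

lemma v_mu : v μ = 1 := by
  refine v_eq_one_of_pow_eq I.prime.ne_zero ?_
  rw [hμ]
  have : v ((p : K) * v') < v (1 : K) := by
    rw [map_mul, hv', mul_one, map_one]; exact I.v_p_lt
  rw [Valuation.map_add_eq_of_lt_left v this, map_one]

lemma v_t_lt : v (μ - 1) < 1 := by
  obtain ⟨c, -, h⟩ := I.exists_t_pow hμ
  have h1 : v (μ - 1) ≤ 1 := v.map_sub_le (I.v_mu hμ hv').le (by simp)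
  have h2 : v (∑ k ∈ Ioo 0 p, (μ - 1) ^ k * (c k : K)) ≤ 1 := by
    refine v.map_sum_le fun k _ => ?_
    rw [map_mul, map_pow]
    exact mul_le_one' (pow_le_one₀ zero_le h1) (v_natCast_le _)
  have h3 : v ((μ - 1) ^ p) < 1 := by
    rw [h, map_mul]
    calc v (p : K) * _ ≤ v (p : K) * 1 :=
          mul_le_mul_right (v.map_sub_le hv'.le h2) _
      _ = v (p : K) := mul_one _
      _ < 1 := I.v_p_lt
  rw [map_pow] at h3
  by_contra h4
  push Not at h4
  exact absurd (one_le_pow₀ h4) (not_le.mpr h3)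

lemma v_S_lt {c : ℕ → ℕ} : v (∑ k ∈ Ioo 0 p, (μ - 1) ^ k * (c k : K)) < 1 := by
  refine v.map_sum_lt one_ne_zero fun k hk => ?_
  rw [Finset.mem_Ioo] at hk
  rw [map_mul, map_pow]
  exact mul_lt_one_of_lt_of_le (pow_lt_one₀ zero_le (I.v_t_lt hμ hv') (by omega)) (v_natCast_le _)

lemma v_sub_S {c : ℕ → ℕ} : v (v' - ∑ k ∈ Ioo 0 p, (μ - 1) ^ k * (c k : K)) = 1 := by
  rw [Valuation.map_sub_eq_of_lt_left v, hv']
  rw [hv']
  exact I.v_S_lt hμ hv'

lemma v_t_pow : v (μ - 1) ^ p = v (p : K) := by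
  obtain ⟨c, -, h⟩ := I.exists_t_pow hμ
  rw [← map_pow, h, map_mul, I.v_sub_S hμ hv', mul_one]

lemma t_ne_zero : μ - 1 ≠ 0 := by
  intro h
  have := I.v_t_pow hμ hv'
  rw [h, map_zero, zero_pow I.prime.ne_zero] at this
  exact I.v_p_pos.ne this

lemma v_t_pos : 0 < v (μ - 1) := by
  rw [Valuation.pos_iff]; exact I.t_ne_zero hμ hv'

include hζ in
lemma v_zeta_sub_one_lt_t : v (ζ - 1) < v (μ - 1) := by
  by_contra h
  push Not at h
  have h1 := v_zeta_sub_one_pow (v := v) I.prime hζ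
  have h2 := I.v_t_pow hμ hv'
  have ht1 := I.v_t_lt hμ hv'
  have ht0 := I.v_t_pos hμ hv'
  have hp := I.prime.two_le
  have h3 : v (μ - 1) ^ (p - 1) ≤ v (ζ - 1) ^ (p - 1) := pow_le_pow_left₀ zero_le h _
  rw [h1, ← h2] at h3
  have h4 : v (μ - 1) ^ p < v (μ - 1) ^ (p - 1) :=
    pow_lt_pow_right_of_lt_one₀ ht0 ht1 (by omega)
  exact absurd h3 (not_le.mpr h4)

/-! ### The orbit of `μ` -/

section Orbit

variable (hfix : ∀ σ : G, σ • v' = v')

include hfix

omit hv' in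
lemma smul_mu_pow (σ : G) : (σ • μ) ^ p = μ ^ p := by
  rw [← smul_pow', hμ, smul_add, smul_one, smul_mul', smul_natCast', hfix]

include hζ in
lemma exists_smul_mu_eq (σ : G) : ∃ i < p, σ • μ = ζ ^ i * μ := by
  have hμ0 : μ ≠ 0 := by
    intro h
    have := I.v_mu hμ hv'
    rw [h, map_zero] at this
    exact zero_ne_one this
  have : NeZero p := ⟨I.prime.ne_zero⟩
  have h1 : (σ • μ / μ) ^ p = 1 := by
    rw [div_pow, I.smul_mu_pow hμ hfix, div_self (pow_ne_zero _ hμ0)]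
  obtain ⟨i, hi, h⟩ := hζ.eq_pow_of_pow_eq_one h1
  exact ⟨i, hi, by rw [h]; field_simp⟩

include hζ in
/-- inertia acts transitively on the `p`-th roots of `1 + p v'` -/
theorem exists_smul_mu (i : ℕ) : ∃ σ : G, σ • μ = ζ ^ i * μ := by
  classical
  have hμ0 : μ ≠ 0 := by
    intro h
    have := I.v_mu hμ hv'
    rw [h, map_zero] at this
    exact zero_ne_one this
  have ht0 := I.v_t_pos hμ hv'
  have ht1 := I.v_t_lt hμ hv'
  let O₀ : Finset K := (range p).image (fun i => ζ ^ i * μ)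
  let O : Finset K := O₀.filter (fun ν => ∃ σ : G, σ • μ = ν)
  have hOσ : ∀ σ : G, ∀ ν ∈ O, σ • ν ∈ O := by
    intro σ ν hν
    obtain ⟨hν1, τ, hτ⟩ := Finset.mem_filter.mp hν
    obtain ⟨j, hj, h⟩ := I.exists_smul_mu_eq hζ hμ hv' hfix (σ * τ)
    refine Finset.mem_filter.mpr ⟨Finset.mem_image.mpr ⟨j, Finset.mem_range.mpr hj, ?_⟩, σ * τ, ?_⟩
    · rw [← h, mul_smul, hτ]
    · rw [mul_smul, hτ]
  have hinjζ : Set.InjOn (fun i => ζ ^ i * μ) (range p : Set ℕ) := by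
    intro a ha b hb hab
    have ha' := Finset.mem_range.mp (Finset.mem_coe.mp ha)
    have hb' := Finset.mem_range.mp (Finset.mem_coe.mp hb)
    exact hζ.pow_inj ha' hb' (mul_right_cancel₀ hμ0 hab)
  have hcard0 : O₀.card = p := by
    rw [Finset.card_image_of_injOn hinjζ, Finset.card_range]
  let P : K := ∏ ν ∈ O, (ν - 1)
  have hPfix : ∀ σ : G, σ • P = P := by
    intro σ
    have h1 : σ • P = ∏ ν ∈ O, (σ • ν - 1) := by
      show (MulSemiringAction.toRingHom G K σ) (∏ ν ∈ O, (ν - 1)) = _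
      rw [map_prod]
      refine Finset.prod_congr rfl fun ν _ => ?_
      rw [map_sub, map_one]
      rfl
    rw [h1]
    refine Finset.prod_nbij' (fun ν => σ • ν) (fun ν => σ⁻¹ • ν) (hOσ σ) (hOσ σ⁻¹) ?_ ?_ ?_
    · intro ν _; exact inv_smul_smul σ ν
    · intro ν _; exact smul_inv_smul σ ν
    · intro ν _; rfl
  have hvν : ∀ ν ∈ O, v (ν - 1) = v (μ - 1) := by
    intro ν hν
    obtain ⟨hν1, τ, hτ⟩ := Finset.mem_filter.mp hν
    have : ν - 1 = τ • (μ - 1) := by rw [smul_sub, smul_one, hτ]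
    rw [this, I.v_smul]
  have hvP : v P = v (μ - 1) ^ O.card := by
    rw [map_prod, Finset.prod_congr rfl hvν, Finset.prod_const]
  have hP0 : P ≠ 0 := by
    rw [← Valuation.pos_iff (v := v), hvP]
    exact pow_pos ht0 _
  obtain ⟨n, hn⟩ := I.v_fixed P hPfix hP0
  rw [hvP, ← I.v_t_pow hμ hv'] at hn
  have hn' : v (μ - 1) ^ (O.card : ℤ) = v (μ - 1) ^ ((p : ℤ) * n) := by
    rw [zpow_natCast, hn, zpow_mul, zpow_natCast]
  have hcard : (O.card : ℤ) = (p : ℤ) * n := zpow_right_injective₀ ht0 ht1.ne hn'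
  have hmem1 : μ ∈ O := by
    refine Finset.mem_filter.mpr ⟨Finset.mem_image.mpr ⟨0, Finset.mem_range.mpr I.prime.pos, ?_⟩,
      1, one_smul _ _⟩
    simp
  have hpos : 0 < O.card := Finset.card_pos.mpr ⟨μ, hmem1⟩
  have hdvd : p ∣ O.card := by
    have : (p : ℤ) ∣ (O.card : ℤ) := ⟨n, hcard⟩
    exact_mod_cast this
  have hle : p ≤ O.card := Nat.le_of_dvd hpos hdvd
  have hOeq : O = O₀ := Finset.eq_of_subset_of_card_le (Finset.filter_subset _ _)
    (by rw [hcard0]; exact hle)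
  have hmem : ζ ^ i * μ ∈ O := by
    rw [hOeq]
    refine Finset.mem_image.mpr ⟨i % p, Finset.mem_range.mpr (Nat.mod_lt _ I.prime.pos), ?_⟩
    conv_rhs => rw [← Nat.div_add_mod i p, pow_add, pow_mul, hζ.pow_eq_one, one_pow, one_mul]
  exact (Finset.mem_filter.mp hmem).2

include hζ in
/-- Decomposition of the elements of `K₀(μ)`. -/
theorem exists_decomp {a : K} (ha : ∀ σ : G, σ • μ = μ → σ • a = a) :
    ∃ b : ℕ → K, (∀ i, ∀ σ : G, σ • b i = b i) ∧ a = ∑ i ∈ range p, b i * μ ^ i := by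
  classical
  have hμ0 : μ ≠ 0 := by
    intro h
    have := I.v_mu hμ hv'
    rw [h, map_zero] at this
    exact zero_ne_one this
  choose τ hτ using I.exists_smul_mu hζ hμ hv' hfix
  refine ⟨fun i => (p : K)⁻¹ * ∑ j ∈ range p, τ j • (a * (μ ^ i)⁻¹), ?_, ?_⟩
  · intro i σ
    rw [smul_mul', smul_inv'', smul_natCast', Finset.smul_sum]
    congr 1
    have hπ : ∀ j, ∃ k, k < p ∧ (σ * τ j) • μ = ζ ^ k * μ :=
      fun j => I.exists_smul_mu_eq hζ hμ hv' hfix (σ * τ j)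
    choose π hπlt hπ using hπ
    have hinj : Set.InjOn π (range p : Set ℕ) := by
      intro j hj k hk hjk
      have h1 : (σ * τ j) • μ = (σ * τ k) • μ := by rw [hπ, hπ, hjk]
      rw [mul_smul, mul_smul, smul_left_cancel_iff, hτ, hτ] at h1
      exact hζ.pow_inj (Finset.mem_range.mp (Finset.mem_coe.mp hj))
        (Finset.mem_range.mp (Finset.mem_coe.mp hk)) (mul_right_cancel₀ hμ0 h1)
    refine Finset.sum_nbij π (fun j _ => Finset.mem_range.mpr (hπlt j)) hinj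
      (Finset.surjOn_of_injOn_of_card_le _ (fun j _ => ?_) hinj le_rfl) ?_
    · exact Finset.mem_coe.mpr (Finset.mem_range.mpr (hπlt j))
    · intro j _
      have h1 : ((τ (π j))⁻¹ * (σ * τ j)) • μ = μ := by
        rw [mul_smul, hπ, ← hτ, inv_smul_smul]
      have h2 : ((τ (π j))⁻¹ * (σ * τ j)) • (a * (μ ^ i)⁻¹) = a * (μ ^ i)⁻¹ := by
        rw [smul_mul', smul_inv'', smul_pow', h1, ha _ h1]
      rw [mul_smul, inv_smul_eq_iff, mul_smul] at h2
      exact h2
  · have hgeom : ∀ j ∈ range p, ∑ i ∈ range p, ((ζ ^ j)⁻¹) ^ i = if j = 0 then (p : K) else 0 := by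
      intro j hj
      split_ifs with h0
      · subst h0; simp
      · have hne : (ζ ^ j)⁻¹ - 1 ≠ 0 := by
          intro h
          have h1 : (ζ ^ j) = ζ ^ 0 := by
            rw [pow_zero, ← inv_inj, inv_one]
            exact sub_eq_zero.mp h
          exact h0 (hζ.pow_inj (Finset.mem_range.mp hj) I.prime.pos h1)
        have h2 := mul_geom_sum (ζ ^ j)⁻¹ p
        rw [inv_pow, ← pow_mul, mul_comm j p, pow_mul, hζ.pow_eq_one, one_pow, inv_one,
          sub_self] at h2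
        exact (mul_eq_zero.mp h2).resolve_left hne
    have hτ0 : τ 0 • a = a := ha _ (by rw [hτ]; simp)
    have hp0 := I.p_ne_zero
    have key : ∀ i ∈ range p, (p : K)⁻¹ * (∑ j ∈ range p, τ j • (a * (μ ^ i)⁻¹)) * μ ^ i =
        ∑ j ∈ range p, (p : K)⁻¹ * (τ j • a) * ((ζ ^ j)⁻¹) ^ i := by
      intro i _
      rw [mul_assoc, Finset.sum_mul, Finset.mul_sum]
      refine Finset.sum_congr rfl fun j _ => ?_
      rw [smul_mul', smul_inv'', smul_pow', hτ, mul_pow, mul_inv, inv_pow]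
      field_simp
    rw [Finset.sum_congr rfl key, Finset.sum_comm]
    have key2 : ∀ j ∈ range p, ∑ i ∈ range p, (p : K)⁻¹ * (τ j • a) * ((ζ ^ j)⁻¹) ^ i =
        if j = 0 then a else 0 := by
      intro j hj
      rw [← Finset.mul_sum, hgeom j hj]
      split_ifs with h0
      · subst h0
        rw [hτ0]
        field_simp
      · rw [mul_zero]
    rw [Finset.sum_congr rfl key2, Finset.sum_ite_eq']
    simp [I.prime.pos]

include hζ in
theorem exists_decomp_t {a : K} (ha : ∀ σ : G, σ • μ = μ → σ • a = a) :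
    ∃ b : ℕ → K, (∀ i, ∀ σ : G, σ • b i = b i) ∧ a = ∑ i ∈ range p, b i * (μ - 1) ^ i := by
  obtain ⟨b, hb, hab⟩ := I.exists_decomp hζ hμ hv' hfix ha
  refine ⟨fun l => ∑ i ∈ range p, b i * (i.choose l : K), ?_, ?_⟩
  · intro l σ
    rw [Finset.smul_sum]
    refine Finset.sum_congr rfl fun i _ => ?_
    rw [smul_mul', hb, smul_natCast']
  · conv_lhs => rw [hab]
    have key : ∀ i ∈ range p, b i * μ ^ i =
        ∑ l ∈ range p, b i * (i.choose l : K) * (μ - 1) ^ l := by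
      intro i hi
      rw [Finset.mem_range] at hi
      have h1 : μ ^ i = ∑ l ∈ range p, (i.choose l : K) * (μ - 1) ^ l := by
        conv_lhs => rw [show μ = (μ - 1) + 1 by ring, add_pow]
        rw [← Finset.sum_subset (Finset.range_subset_range.mpr (show i + 1 ≤ p by omega))]
        · refine Finset.sum_congr rfl fun l _ => ?_
          rw [one_pow, mul_one, mul_comm]
        · intro l _ hl
          rw [Finset.mem_range, not_lt] at hl
          rw [Nat.choose_eq_zero_of_lt (by omega)]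
          simp
      rw [h1, Finset.mul_sum]
      refine Finset.sum_congr rfl fun l _ => ?_
      ring
    rw [Finset.sum_congr rfl key, Finset.sum_comm]
    refine Finset.sum_congr rfl fun l _ => ?_
    rw [Finset.sum_mul]

include hζ in
/-- The expansion of a nonzero element of `K₀(μ)`: its valuation is the maximum of the valuations
of the terms. -/
theorem exists_decomp_max {a : K} (ha : ∀ σ : G, σ • μ = μ → σ • a = a) (ha0 : a ≠ 0) :
    ∃ b : ℕ → K, (∀ i, ∀ σ : G, σ • b i = b i) ∧ a = ∑ i ∈ range p, b i * (μ - 1) ^ i ∧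
      (∀ i ∈ range p, v (b i * (μ - 1) ^ i) ≤ v a) ∧
      (∀ i ∈ range p, b i ≠ 0 → ∃ n : ℤ, v (b i) = v (μ - 1) ^ ((p : ℤ) * n)) ∧
      ∃ n : ℤ, v a = v (μ - 1) ^ n := by
  classical
  obtain ⟨b, hb, hab⟩ := I.exists_decomp_t hζ hμ hv' hfix ha
  have ht0 := I.v_t_pos hμ hv'
  have ht1 := I.v_t_lt hμ hv'
  have hbv : ∀ i, b i ≠ 0 → ∃ n : ℤ, v (b i) = v (μ - 1) ^ ((p : ℤ) * n) := by
    intro i hi
    obtain ⟨n, hn⟩ := I.v_fixed (b i) (hb i) hi
    refine ⟨n, ?_⟩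
    rw [hn, ← I.v_t_pow hμ hv', zpow_mul, zpow_natCast]
  let S := (range p).filter (fun i => b i ≠ 0)
  have hsum : a = ∑ i ∈ S, b i * (μ - 1) ^ i := by
    rw [Finset.sum_filter_of_ne]
    · exact hab
    · intro i _ hne h0
      exact hne (by rw [h0, zero_mul])
  have hSne : S.Nonempty := by
    rw [Finset.nonempty_iff_ne_empty]
    intro h
    rw [h, Finset.sum_empty] at hsum
    exact ha0 hsum
  obtain ⟨i₀, hi₀, hmax⟩ := S.exists_max_image (fun i => v (b i * (μ - 1) ^ i)) hSne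
  have hvt : ∀ i ∈ S, ∃ n : ℤ, v (b i * (μ - 1) ^ i) = v (μ - 1) ^ ((p : ℤ) * n + i) := by
    intro i hi
    obtain ⟨n, hn⟩ := hbv i (Finset.mem_filter.mp hi).2
    exact ⟨n, by rw [map_mul, map_pow, hn, zpow_add₀ ht0.ne', zpow_natCast]⟩
  have hlt : ∀ i ∈ S \ {i₀}, v (b i * (μ - 1) ^ i) < v (b i₀ * (μ - 1) ^ i₀) := by
    intro i hi
    rw [Finset.mem_sdiff, Finset.mem_singleton] at hi
    refine lt_of_le_of_ne (hmax i hi.1) fun h => hi.2 ?_
    obtain ⟨n, hn⟩ := hvt i hi.1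
    obtain ⟨n₀, hn₀⟩ := hvt i₀ hi₀
    rw [hn, hn₀] at h
    have h1 := zpow_right_injective₀ ht0 ht1.ne h
    have hip := Finset.mem_range.mp (Finset.mem_filter.mp hi.1).1
    have hi₀p := Finset.mem_range.mp (Finset.mem_filter.mp hi₀).1
    have h2 : ((i : ℤ)) ≡ i₀ [ZMOD p] := by
      have h3 : (i : ℤ) = i₀ + (p : ℤ) * (n₀ - n) := by linear_combination h1
      rw [h3]
      exact (Int.modEq_iff_dvd.mpr ⟨-(n₀ - n), by ring⟩)
    have h3 := (Int.natCast_modEq_iff).mp h2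
    exact Nat.ModEq.eq_of_lt_of_lt h3 hip hi₀p
  have hva : v a = v (b i₀ * (μ - 1) ^ i₀) := by
    conv_lhs => rw [hsum]
    exact v.map_sum_eq_of_lt hi₀ hlt
  refine ⟨b, hb, hab, ?_, fun i _ hi => hbv i hi, ?_⟩
  · intro i hi
    by_cases h0 : b i = 0
    · rw [h0, zero_mul, map_zero]; exact zero_le
    · rw [hva]
      exact hmax i (Finset.mem_filter.mpr ⟨hi, h0⟩)
  · obtain ⟨n₀, hn₀⟩ := hvt i₀ hi₀
    exact ⟨_, hva.trans hn₀⟩

include hζ in
theorem exists_v_eq {a : K} (ha : ∀ σ : G, σ • μ = μ → σ • a = a) (ha0 : a ≠ 0) :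
    ∃ n : ℤ, v a = v (μ - 1) ^ n := by
  obtain ⟨-, -, -, -, -, h⟩ := I.exists_decomp_max hζ hμ hv' hfix ha ha0
  exact h

include hζ in
/-- **Lemma W**. -/
theorem smul_sub_le {a : K} (ha : ∀ σ : G, σ • μ = μ → σ • a = a) (hva : v a ≤ 1) (σ : G) :
    v (σ • a - a) ≤ v (ζ - 1) := by
  by_cases ha0 : a = 0
  · rw [ha0, smul_zero, sub_zero, map_zero]; exact zero_le
  obtain ⟨b, hb, hab, hle, hbv, -⟩ := I.exists_decomp_max hζ hμ hv' hfix ha ha0
  have ht0 := I.v_t_pos hμ hv'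
  have ht1 := I.v_t_lt hμ hv'
  have hb1 : ∀ i ∈ range p, v (b i) ≤ 1 := by
    intro i hi
    by_cases h0 : b i = 0
    · rw [h0, map_zero]; exact zero_le
    · obtain ⟨n, hn⟩ := hbv i hi h0
      have h1 := (hle i hi).trans hva
      rw [map_mul, map_pow, hn, ← zpow_natCast, ← zpow_add₀ ht0.ne',
        zpow_le_one_iff_right_of_lt_one₀ ht0 ht1] at h1
      rw [hn, zpow_le_one_iff_right_of_lt_one₀ ht0 ht1]
      have hip := Finset.mem_range.mp hi
      have hn0 : 0 ≤ n := by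
        by_contra hneg
        push Not at hneg
        have : (p : ℤ) * n ≤ (p : ℤ) * (-1) := by
          apply mul_le_mul_of_nonneg_left (by omega) (by positivity)
        omega
      positivity
  have hσt : v (σ • (μ - 1) - (μ - 1)) ≤ v (ζ - 1) := by
    obtain ⟨i, -, hi⟩ := I.exists_smul_mu_eq hζ hμ hv' hfix σ
    have e : σ • (μ - 1) - (μ - 1) = (ζ ^ i - 1) * μ := by
      rw [smul_sub, smul_one, hi]; ring
    rw [e, map_mul, I.v_mu hμ hv', mul_one]
    exact v_zeta_pow_sub_one_le I.prime hζ i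
  have e : σ • a - a = ∑ i ∈ range p, b i * ((σ • (μ - 1)) ^ i - (μ - 1) ^ i) := by
    conv_lhs => rw [hab]
    rw [Finset.smul_sum, ← Finset.sum_sub_distrib]
    refine Finset.sum_congr rfl fun i _ => ?_
    rw [smul_mul', smul_pow', hb]
    ring
  rw [e]
  refine v.map_sum_le fun i hi => ?_
  rw [map_mul]
  refine (mul_le_of_le_one_left zero_le (hb1 i hi)).trans ?_
  refine (v_pow_sub_pow_le ?_ ht1.le i).trans hσt
  rw [I.v_smul]
  exact ht1.le

end Orbit

end Mu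

/-! ### Lemma N: the formula for `(σ a / a) ^ p` -/

/-- `a ≡ 1 + ϖ e` modulo `ϖ 𝔪` -/
def Near (v : Valuation K Γ₀) (ϖ a e : K) : Prop := v (a - 1 - ϖ * e) < v ϖ

section Near

variable {ϖ : K}

omit I in
lemma Near.one (h : ϖ ≠ 0) : Near v ϖ 1 0 := by
  simp only [Near, sub_self, mul_zero, map_zero]
  rwa [Valuation.pos_iff]

omit I in
lemma Near.v_le {a e : K} (h : Near v ϖ a e) (he : v e ≤ 1) : v (a - 1) ≤ v ϖ := by
  have e1 : a - 1 = (a - 1 - ϖ * e) + ϖ * e := by ring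
  rw [e1]
  refine v.map_add_le h.le ?_
  rw [map_mul]
  exact mul_le_of_le_one_right zero_le he

omit I in
lemma Near.mul (hϖ : v ϖ < 1) {a b e f : K} (h : Near v ϖ a e) (h' : Near v ϖ b f) (he : v e ≤ 1)
    (hf : v f ≤ 1) : Near v ϖ (a * b) (e + f) := by
  have hb := h'.v_le hf
  have ha := h.v_le he
  have hpos : 0 < v ϖ := lt_of_le_of_lt zero_le h
  have e1 : a * b - 1 - ϖ * (e + f) =
      (a - 1 - ϖ * e) + (b - 1 - ϖ * f) + (a - 1) * (b - 1) := by ring
  unfold Near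
  rw [e1]
  refine v.map_add_lt (v.map_add_lt h h') ?_
  rw [map_mul]
  calc v (a - 1) * v (b - 1) ≤ v ϖ * v ϖ := mul_le_mul' ha hb
    _ < v ϖ * 1 := mul_lt_mul_of_pos_left hϖ hpos
    _ = v ϖ := mul_one _

omit I in
lemma Near.inv (hϖ : v ϖ < 1) {a e : K} (h : Near v ϖ a e) (he : v e ≤ 1) :
    Near v ϖ a⁻¹ (-e) := by
  have ha := h.v_le he
  have hpos : 0 < v ϖ := lt_of_le_of_lt zero_le h
  have hva : v a = 1 := by
    have : a = 1 + (a - 1) := by ring
    rw [this]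
    exact v.map_one_add_of_lt (lt_of_le_of_lt ha hϖ)
  have ha0 : a ≠ 0 := by
    intro h0
    rw [h0, map_zero] at hva
    exact zero_ne_one hva
  have e1 : a⁻¹ - 1 - ϖ * (-e) = a⁻¹ * ((a - 1) * (ϖ * e) - (a - 1 - ϖ * e)) := by
    field_simp
    ring
  unfold Near
  rw [e1, map_mul, map_inv₀, hva, inv_one, one_mul]
  refine v.map_sub_lt ?_ h
  rw [map_mul, map_mul]
  calc v (a - 1) * (v ϖ * v e) ≤ v ϖ * (v ϖ * 1) := by gcongr
    _ = v ϖ * v ϖ := by rw [mul_one]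
    _ < v ϖ * 1 := mul_lt_mul_of_pos_left hϖ hpos
    _ = v ϖ := mul_one _

omit I in
lemma Near.zpow (hϖ : v ϖ < 1) {a e : K} (h : Near v ϖ a e) (he : v e ≤ 1) (n : ℤ) :
    Near v ϖ (a ^ n) (n * e) := by
  have hϖ0 : ϖ ≠ 0 := by
    rw [← Valuation.pos_iff (v := v)]
    exact lt_of_le_of_lt zero_le h
  have hnat : ∀ m : ℕ, Near v ϖ (a ^ m) (m * e) := by
    intro m
    induction m with
    | zero => simpa using Near.one hϖ0
    | succ m ih =>
      rw [pow_succ, Nat.cast_succ, add_mul, one_mul]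
      refine ih.mul hϖ h ?_ he
      rw [map_mul]
      exact mul_le_one' (v_natCast_le m) he
  cases n with
  | ofNat m => simpa using hnat m
  | negSucc m =>
    rw [zpow_negSucc, Int.cast_negSucc, neg_mul]
    refine (hnat (m + 1)).inv hϖ ?_
    rw [map_mul]
    exact mul_le_one' (v_natCast_le _) he

/-- `(1 + ϖ x) ^ p ≡ 1` -/
lemma near_pow {a : K} (hϖ : v ϖ < 1) (hϖ0 : ϖ ≠ 0) (ha : v (a - 1) ≤ v ϖ) :
    Near v ϖ (a ^ p) 0 := by
  have hpos : 0 < v ϖ := by rwa [Valuation.pos_iff]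
  have h := add_pow_prime_eq' I.prime (a - 1) 1
  simp only [one_pow, mul_one, sub_add_cancel] at h
  have e1 : a ^ p - 1 - ϖ * 0 =
      (a - 1) ^ p + p * ∑ k ∈ Ioo 0 p, (a - 1) ^ k * ((p.choose k / p : ℕ) : K) := by
    rw [h]; ring
  unfold Near
  rw [e1]
  refine v.map_add_lt ?_ ?_
  · rw [map_pow]
    calc v (a - 1) ^ p ≤ v ϖ ^ p := pow_le_pow_left₀ zero_le ha _
      _ < v ϖ ^ 1 := pow_lt_pow_right_of_lt_one₀ hpos hϖ I.prime.one_lt
      _ = v ϖ := pow_one _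
  · rw [map_mul]
    have h2 : v (∑ k ∈ Ioo 0 p, (a - 1) ^ k * ((p.choose k / p : ℕ) : K)) ≤ v ϖ := by
      refine v.map_sum_le fun k hk => ?_
      rw [Finset.mem_Ioo] at hk
      rw [map_mul, map_pow]
      calc v (a - 1) ^ k * v ((p.choose k / p : ℕ) : K) ≤ v (a - 1) ^ 1 * 1 := by
            gcongr ?_ * ?_
            · exact pow_le_pow_of_le_one zero_le (ha.trans hϖ.le) (by omega)
            · exact v_natCast_le _
        _ = v (a - 1) := by rw [pow_one, mul_one]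
        _ ≤ v ϖ := ha
    calc v (p : K) * _ ≤ v (p : K) * v ϖ := mul_le_mul_right h2 _
      _ < 1 * v ϖ := mul_lt_mul_of_pos_right I.v_p_lt hpos
      _ = v ϖ := one_mul _

end Near

section Mu2

variable {ζ μ v' : K} (hζ : IsPrimitiveRoot ζ p) (hμ : μ ^ p = 1 + p * v') (hv' : v v' = 1)
  (hfix : ∀ σ : G, σ • v' = v')

include hζ hμ hv' hfix

/-- the basic computation: `(σ t / t) ^ p ≡ 1 - ϖ / v'` where `t = μ - 1`, `ϖ = ζ - 1`,
`σ μ = ζ μ`. -/
theorem near_smul_t {σ : G} (hσ : σ • μ = ζ * μ) :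
    Near v (ζ - 1) ((σ • (μ - 1) / (μ - 1)) ^ p) (-v'⁻¹) := by
  obtain ⟨c, hc1, hc⟩ := I.exists_t_pow hμ
  set t := μ - 1 with ht
  set S : K := ∑ k ∈ Ioo 0 p, t ^ k * (c k : K) with hS
  have ht0 := I.v_t_pos hμ hv'
  have ht1 := I.v_t_lt hμ hv'
  have hp := I.prime.two_le
  have hϖ0 : 0 < v (ζ - 1) := by
    rw [Valuation.pos_iff]; exact zeta_sub_one_ne_zero I.prime hζ
  have hϖ1 : v (ζ - 1) < 1 := v_zeta_sub_one_lt I.prime hζ I.v_p_lt
  have hvS : v (v' - S) = 1 := I.v_sub_S hμ hv'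
  have hS0 : v' - S ≠ 0 := by
    intro h
    rw [h, map_zero] at hvS
    exact zero_ne_one hvS
  have hv'0 : v' ≠ 0 := by
    intro h
    rw [h, map_zero] at hv'
    exact zero_ne_one hv'
  have hp0 := I.p_ne_zero
  have htne : t ≠ 0 := I.t_ne_zero hμ hv'
  have hσt : σ • t - t = (ζ - 1) * μ := by
    rw [ht, smul_sub, smul_one, hσ]; ring
  have hσt1 : v (σ • t) < 1 := by rw [I.v_smul]; exact ht1
  -- `σ S - S`
  have hσS : v (σ • S - S - (ζ - 1)) < v (ζ - 1) := by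
    have h1mem : 1 ∈ Ioo 0 p := Finset.mem_Ioo.mpr ⟨by omega, by omega⟩
    have e1 : σ • S - S = ∑ k ∈ Ioo 0 p, ((σ • t) ^ k - t ^ k) * (c k : K) := by
      rw [hS, Finset.smul_sum, ← Finset.sum_sub_distrib]
      refine Finset.sum_congr rfl fun k _ => ?_
      rw [smul_mul', smul_pow', smul_natCast']
      ring
    rw [e1, ← Finset.add_sum_erase _ _ h1mem, hc1]
    have e2 : ((σ • t) ^ 1 - t ^ 1) * ((1 : ℕ) : K) +
        ∑ k ∈ (Ioo 0 p).erase 1, ((σ • t) ^ k - t ^ k) * (c k : K) - (ζ - 1) =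
        (ζ - 1) * t + ∑ k ∈ (Ioo 0 p).erase 1, ((σ • t) ^ k - t ^ k) * (c k : K) := by
      rw [pow_one, pow_one, hσt, ht]
      push_cast
      ring
    rw [e2]
    refine v.map_add_lt ?_ (v.map_sum_lt hϖ0.ne' fun k hk => ?_)
    · rw [map_mul]
      calc v (ζ - 1) * v t < v (ζ - 1) * 1 := mul_lt_mul_of_pos_left ht1 hϖ0
        _ = _ := mul_one _
    · rw [Finset.mem_erase, Finset.mem_Ioo] at hk
      have hne : σ • t ≠ t := by
        intro h
        rw [h, sub_self] at hσt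
        have hμ0 : μ ≠ 0 := by
          intro h
          have := I.v_mu hμ hv'
          rw [h, map_zero] at this
          exact zero_ne_one this
        exact (mul_ne_zero (zeta_sub_one_ne_zero I.prime hζ) hμ0) hσt.symm
      rw [map_mul]
      calc v ((σ • t) ^ k - t ^ k) * v ((c k : ℕ) : K) ≤ v ((σ • t) ^ k - t ^ k) * 1 :=
            mul_le_mul_right (v_natCast_le _) _
        _ = v ((σ • t) ^ k - t ^ k) := mul_one _
        _ < v (σ • t - t) := v_pow_sub_pow_lt hσt1 ht1 hne (by omega)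
        _ = v (ζ - 1) := by rw [hσt, map_mul, I.v_mu hμ hv', mul_one]
  have e3 : (σ • t / t) ^ p - 1 - (ζ - 1) * (-v'⁻¹) =
      (v' - S)⁻¹ * (-(σ • S - S - (ζ - 1)) - (ζ - 1) * v'⁻¹ * S) := by
    have h1 : (σ • t) ^ p = p * (v' - σ • S) := by
      rw [← smul_pow', hc, smul_mul', smul_natCast', smul_sub, hfix]
    rw [div_pow, h1, hc]
    field_simp
    ring
  unfold Near
  rw [e3, map_mul, map_inv₀, hvS, inv_one, one_mul]
  refine v.map_sub_lt ?_ ?_
  · rw [Valuation.map_neg]; exact hσS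
  · rw [map_mul, map_mul, map_inv₀, hv', inv_one, mul_one]
    calc v (ζ - 1) * v S < v (ζ - 1) * 1 :=
          mul_lt_mul_of_pos_left (I.v_S_lt hμ hv') hϖ0
      _ = _ := mul_one _

/-- **Lemma N**. -/
theorem near_smul_div {a : K} (ha : ∀ σ : G, σ • μ = μ → σ • a = a) {n : ℤ}
    (hn : v a = v (μ - 1) ^ n) {σ : G} (hσ : σ • μ = ζ * μ) :
    Near v (ζ - 1) ((σ • a / a) ^ p) (n * -v'⁻¹) := by
  have ht0 := I.v_t_pos hμ hv'
  have htne : μ - 1 ≠ 0 := I.t_ne_zero hμ hv'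
  have hϖ1 : v (ζ - 1) < 1 := v_zeta_sub_one_lt I.prime hζ I.v_p_lt
  have hϖ0 : ζ - 1 ≠ 0 := zeta_sub_one_ne_zero I.prime hζ
  have hv'1 : v (-v'⁻¹) ≤ 1 := by rw [Valuation.map_neg, map_inv₀, hv', inv_one]
  have hσtne : σ • (μ - 1) ≠ 0 := by
    intro h
    have h2 := I.v_smul σ (μ - 1)
    rw [h, map_zero] at h2
    exact ht0.ne h2
  set w : K := a / (μ - 1) ^ n with hw
  have hwfix : ∀ σ : G, σ • μ = μ → σ • w = w := by
    intro τ hτ
    have h1 : τ • (μ - 1) = μ - 1 := by rw [smul_sub, smul_one, hτ]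
    have h2 : τ • (μ - 1) ^ n = (μ - 1) ^ n := by
      show (MulSemiringAction.toRingHom G K τ) ((μ - 1) ^ n) = _
      rw [map_zpow₀]
      show (τ • (μ - 1)) ^ n = _
      rw [h1]
    rw [hw, smul_div₀', ha τ hτ, h2]
  have hvw : v w = 1 := by
    rw [hw, map_div₀, hn, map_zpow₀, div_self]
    exact zpow_ne_zero _ ht0.ne'
  have hw0 : w ≠ 0 := by
    intro h
    rw [h, map_zero] at hvw
    exact zero_ne_one hvw
  have haw : a = (μ - 1) ^ n * w := by
    rw [hw]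
    field_simp
  have h1 : Near v (ζ - 1) ((σ • w / w) ^ p) 0 := by
    refine I.near_pow hϖ1 hϖ0 ?_
    have e1 : σ • w / w - 1 = (σ • w - w) / w := by field_simp
    rw [e1, map_div₀, hvw, div_one]
    exact I.smul_sub_le hζ hμ hv' hfix hwfix hvw.le σ
  have h2 := (I.near_smul_t hζ hμ hv' hfix hσ).zpow hϖ1 hv'1 n
  have h3 := h2.mul hϖ1 h1 ?_ (by simp)
  · rw [add_zero] at h3
    convert h3 using 1
    have h4 : σ • a = (σ • (μ - 1)) ^ n * σ • w := by
      rw [haw, smul_mul']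
      congr 1
      show (MulSemiringAction.toRingHom G K σ) ((μ - 1) ^ n) = _
      rw [map_zpow₀]
      rfl
    rw [h4, haw, mul_div_mul_comm, mul_pow, ← div_zpow, ← zpow_natCast, ← zpow_mul, mul_comm n,
      zpow_mul, zpow_natCast]
  · rw [map_mul]
    exact mul_le_one' (v_intCast_le n) hv'1

end Mu2

end InertialAction

end Fermat.Agent.DR.AtP
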