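import Fermat.Agent.DR.AtP.WildEst
import Fermat.Agent.DR.Mod.Residue

set_option autoImplicit false

/-!
# The wild estimate for the two reductions of `X₀(Mq)`

`H` a set of automorphisms of `ℚ̄`, `τ` an automorphism and `ϖ` with `(τ c - c) / ϖ` integral for every
integral `c` fixed by `H` (`wild_hW`: `H` = the stabiliser of `μ` in inertia, `ϖ = ζ - 1`).
-/

noncomputable section

open AlgebraicCurve ModularCurve IntermediateField Fermat.Agent.JRED
open Fermat.Agent.DR.Mod Fermat.Agent.JAN.AnFun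

namespace Fermat.Agent.DR.AtP

local notation "Qb" => AlgebraicClosure ℚ
local notation "Γℚ" => (AlgebraicClosure ℚ ≃ₐ[ℚ] AlgebraicClosure ℚ)

/-- the stabiliser of `μ` in inertia -/
def wildH (A : ValuationSubring Qb) (μ : Qb) : Set Γℚ := {σ | σ ∈ A.inertiaSubgroupIn ℚ ∧ σ μ = μ}

theorem wild_hW {A : ValuationSubring Qb} {p : ℕ} (hp : p.Prime) (hA : A.LiesOverPrime p)
    {ζ μ v' : Qb} (hζ : IsPrimitiveRoot ζ p) (hμ : μ ^ p = 1 + p * v')
    (hv' : A.valuation v' = 1) (hfix : ∀ σ ∈ A.inertiaSubgroupIn ℚ, σ v' = v') {τ : Γℚ}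
    (hτ : τ ∈ A.inertiaSubgroupIn ℚ) :
    ∀ c ∈ A, (∀ σ ∈ wildH A μ, σ c = c) → (ζ - 1)⁻¹ * (τ c - c) ∈ A := by
  intro c hc hH
  have hI := inertialAction A hp hA
  have h1 := hI.smul_sub_le hζ hμ hv' (fun σ => hfix σ.1 σ.2) (a := c)
    (fun σ hσ => hH σ.1 ⟨σ.2, hσ⟩) ((A.valuation_le_one_iff c).mpr hc) ⟨τ, hτ⟩
  have h2 : A.valuation (τ c - c) ≤ A.valuation (ζ - 1) := h1
  have h3 : ζ - 1 ≠ 0 := zeta_sub_one_ne_zero hp hζ
  rw [← ValuationSubring.valuation_le_one_iff, map_mul, map_inv₀]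
  have h4 : A.valuation (ζ - 1) ≠ 0 := (Valuation.ne_zero_iff _).mpr h3
  exact (inv_mul_le_one₀ (zero_lt_iff.mpr h4)).mpr h2

section Full

variable {A : ValuationSubring Qb} {k : Type*} [Field k] {π : A →+* k} {N : ℕ}

theorem coeffMap_eq_of_smul {H : Set Γℚ} {f : modularFunctionFieldBar N}
    (hH : ∀ σ ∈ H, arithmeticGalois (modularFunctionFieldFull N) σ • f = f) :
    ∀ σ ∈ H, coeffMap (σ : Qb →+* Qb) (f : LaurentSeries Qb) = f := by
  intro σ hσ
  have h1 : ((arithmeticGalois (modularFunctionFieldFull N) σ • f : modularFunctionFieldBar N) :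
      LaurentSeries Qb) = f := congrArg Subtype.val (hH σ hσ)
  rwa [coe_arithmeticGalois_smul] at h1

/-- **The wild estimate on `F_N`.** -/
theorem gred_galois_sub (hπ : Function.Surjective π) {H : Set Γℚ} {τ : Γℚ} {ϖ : Qb}
    (hW : ∀ c ∈ A, (∀ σ ∈ H, σ c = c) → ϖ⁻¹ * (τ c - c) ∈ A) {f : modularFunctionFieldBar N}
    (hH : ∀ σ ∈ H, arithmeticGalois (modularFunctionFieldFull N) σ • f = f)
    {u : LaurentSeries k} (hu : GRed π (f : LaurentSeries Qb) u) :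
    ∃ ψ, GRed π ((algebraMap Qb (modularFunctionFieldBar N) ϖ⁻¹ *
      (arithmeticGalois (modularFunctionFieldFull N) τ • f - f) :
        modularFunctionFieldBar N) : LaurentSeries Qb) ψ :=
  gred_smul_sub hπ hW (ratDen_of_mem f.2) (coeffMap_eq_of_smul hH) hu

theorem gred_fixed_normalize (π : A →+* k) {H : Set Γℚ} {f : modularFunctionFieldBar N}
    (hf : f ≠ 0) (hH : ∀ σ ∈ H, arithmeticGalois (modularFunctionFieldFull N) σ • f = f) :
    ∃ c : Qb, c ≠ 0 ∧ (∀ σ ∈ H, σ c = c) ∧ ∃ u : LaurentSeries k, u ≠ 0 ∧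
      GRed π ((algebraMap Qb (modularFunctionFieldBar N) c * f : modularFunctionFieldBar N) :
        LaurentSeries Qb) u :=
  exists_fixed_normalize (ratDen_of_mem f.2) (fun h => hf (Subtype.ext h)) (coeffMap_eq_of_smul hH)

end Full

section Pair

variable {A : ValuationSubring Qb} {k : Type*} [Field k] {π : A →+* k} {M q : ℕ} [NeZero M]
  [NeZero q] [ExpChar k q]
  {w : laurentBaseChange Qb (modularFunctionFieldFull (M * q)) ≃ₐ[Qb]
      laurentBaseChange Qb (modularFunctionFieldFull (M * q))} (S : Setup π w)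

/-- **(hW₁)** -/
theorem redOne_smul_sub {H : Set Γℚ} {τ : Γℚ} {ϖ : Qb}
    (hW : ∀ c ∈ A, (∀ σ ∈ H, σ c = c) → ϖ⁻¹ * (τ c - c) ∈ A)
    {f : modularFunctionFieldBar (M * q)}
    (hH : ∀ σ ∈ H, arithmeticGalois (modularFunctionFieldFull (M * q)) σ • f = f)
    {u : modularFunctionFieldFullC k M} (hu : (redOne S).Red f u) :
    ∃ ψ, (redOne S).Red (algebraMap Qb (modularFunctionFieldBar (M * q)) ϖ⁻¹ *
      (arithmeticGalois (modularFunctionFieldFull (M * q)) τ • f - f)) ψ := by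
  obtain ⟨ψ, hψ⟩ := gred_galois_sub S.surj hW hH (u := (u : LaurentSeries k)) hu
  exact ⟨⟨ψ, S.mem_full_of_red1 hψ⟩, hψ⟩

/-- **(V₁)** -/
theorem redOne_fixed_normalize {H : Set Γℚ} {f : modularFunctionFieldBar (M * q)} (hf : f ≠ 0)
    (hH : ∀ σ ∈ H, arithmeticGalois (modularFunctionFieldFull (M * q)) σ • f = f) :
    ∃ c : Qb, c ≠ 0 ∧ (∀ σ ∈ H, σ c = c) ∧ ∃ u : modularFunctionFieldFullC k M, u ≠ 0 ∧
      (redOne S).Red (algebraMap Qb (modularFunctionFieldBar (M * q)) c * f) u := by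
  obtain ⟨c, hc, hcH, u, hu, h⟩ := gred_fixed_normalize π hf hH
  exact ⟨c, hc, hcH, ⟨u, S.mem_full_of_red1 h⟩, fun h0 => hu (congrArg Subtype.val h0), h⟩

theorem w_fixed (hq : q.Prime) (hw : IsAL w) {H : Set Γℚ} {f : modularFunctionFieldBar (M * q)}
    (hH : ∀ σ ∈ H, arithmeticGalois (modularFunctionFieldFull (M * q)) σ • f = f) :
    ∀ σ ∈ H, arithmeticGalois (modularFunctionFieldFull (M * q)) σ • w f = w f := by
  intro σ hσ
  rw [← ModGal.galois_w hq hw, hH σ hσ]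

/-- **(hW₂)** -/
theorem redTwo_smul_sub (hq : q.Prime) {H : Set Γℚ} {τ : Γℚ} {ϖ : Qb}
    (hW : ∀ c ∈ A, (∀ σ ∈ H, σ c = c) → ϖ⁻¹ * (τ c - c) ∈ A)
    {f : modularFunctionFieldBar (M * q)}
    (hH : ∀ σ ∈ H, arithmeticGalois (modularFunctionFieldFull (M * q)) σ • f = f)
    {u : modularFunctionFieldFullC k M} (hu : (redTwo S).Red f u) :
    ∃ ψ, (redTwo S).Red (algebraMap Qb (modularFunctionFieldBar (M * q)) ϖ⁻¹ *
      (arithmeticGalois (modularFunctionFieldFull (M * q)) τ • f - f)) ψ := by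
  rw [redTwo_red] at hu
  obtain ⟨ψ, hψ⟩ := gred_galois_sub S.surj hW (w_fixed hq S.al hH) (u := (u : LaurentSeries k)) hu
  have h' : (R2L π w).Red (algebraMap Qb (modularFunctionFieldBar (M * q)) ϖ⁻¹ *
      (arithmeticGalois (modularFunctionFieldFull (M * q)) τ • f - f)) ψ := by
    rw [R2L_red, map_mul, AlgEquiv.commutes, map_sub, ModGal.galois_w hq S.al]
    exact hψ
  exact ⟨⟨ψ, S.mem_full_of_red2 h'⟩, h'⟩

/-- **(V₂)** -/
theorem redTwo_fixed_normalize (hq : q.Prime) {H : Set Γℚ} {f : modularFunctionFieldBar (M * q)}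
    (hf : f ≠ 0) (hH : ∀ σ ∈ H, arithmeticGalois (modularFunctionFieldFull (M * q)) σ • f = f) :
    ∃ c : Qb, c ≠ 0 ∧ (∀ σ ∈ H, σ c = c) ∧ ∃ u : modularFunctionFieldFullC k M, u ≠ 0 ∧
      (redTwo S).Red (algebraMap Qb (modularFunctionFieldBar (M * q)) c * f) u := by
  obtain ⟨c, hc, hcH, u, hu, h⟩ := gred_fixed_normalize π ((_root_.map_ne_zero w).mpr hf)
    (w_fixed hq S.al hH)
  have h' : (R2L π w).Red (algebraMap Qb (modularFunctionFieldBar (M * q)) c * f) u := by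
    rw [R2L_red, map_mul, AlgEquiv.commutes]
    exact h
  exact ⟨c, hc, hcH, ⟨u, S.mem_full_of_red2 h'⟩, fun h0 => hu (congrArg Subtype.val h0), h'⟩

end Pair

end Fermat.Agent.DR.AtP
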