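import Fermat.Agent.DR.Mod.SpecInertia
import Fermat.Agent.DR.Mod.NodeMod
import Fermat.Agent.DR.S36.UnitHecke
import Fermat.Agent.DR.S36.UnitCount
import Fermat.Agent.DR.OrdAll.FixedDiv
import Fermat.Agent.DR.AtP.WildMod
import Fermat.Agent.DR.AtP.Inputs

/-!
# Classes with constant weighted orders specialise, up to an Eisenstein factor

Variant of `DR/Mono/SpecInertia`, `DR/Mod/SpecInertia` for arbitrary `m` (including the residue
characteristic): the hypothesis is that one function `f₀` with `div f₀ = m D₀`, `[D₀] = x`, has the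
same weighted order modulo `m` at all supersingular points.
-/

set_option autoImplicit false
set_option linter.unusedSectionVars false

noncomputable section

open AlgebraicCurve ModularCurve IntermediateField
open Fermat.Agent.RR Fermat.Agent.JRED Fermat.Agent.DR.Mono

namespace Fermat.Agent.DR.AtP

section Abstract

variable {K F k F₁ F₂ : Type*} [Field K] [Field F] [Algebra K F] [Field k] [Field F₁] [Field F₂]
  [Algebra k F₁] [Algebra k F₂] [IsAlgClosed K] [IsAlgClosed k] [FunctionField K F]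
  [FunctionField k F₁] [FunctionField k F₂] {A : ValuationSubring K} {π : A →+* k}

/-- The orders modulo `m` of the reduction of a function representing a class only depend on the
class. -/
theorem o_congr {k₀ E : Type*} [Field k₀] [Field E] [Algebra k₀ E] {π₀ : A →+* k₀}
    {R : RedDatum K F k₀ E A π₀} (hπ : Function.Surjective π₀) {m : ℕ} (hm : 0 < m)
    {D D' : Divisor.degZero (K := K) (F := F)} {f f' : F} (hf : f ≠ 0) (hf' : f' ≠ 0)
    (hD : ∀ P, (m : ℤ) * (D : Divisor K F) P = P.ord f)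
    (hD' : ∀ P, (m : ℤ) * (D' : Divisor K F) P = P.ord f')
    (h : Pic0.mk D = Pic0.mk D') (s : Place k₀ E) : (m : ℤ) ∣ o R s f - o R s f' := by
  obtain ⟨v, hv, hdiv⟩ := pic0_mk_eq_iff.mp h
  obtain ⟨w', hw0, hw'⟩ := eq_const_mul_pow (k := K) hm (div_ne_zero hf hf') hv (fun P => by
    rw [ord_div P hf hf', ← hdiv, Finsupp.sub_apply, mul_sub, hD, hD'])
  rw [← o_div s hπ hf hf', hw', o_pow s hπ hw0]
  exact dvd_mul_right _ _

variable {X : NodalDatum K F k F₁ F₂ A π} {m : ℕ}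

/-- **Classes with constant weighted orders specialise up to an Eisenstein factor.** -/
theorem exists_spec_of_mono (hπ : Function.Surjective π) (hm : 0 < m)
    {x : Pic0 K F} {Dx : Divisor.degZero (K := K) (F := F)} {f₀ : F} (hf₀ : f₀ ≠ 0)
    (hDx₀ : ∀ P, (m : ℤ) * (Dx : Divisor K F) P = P.ord f₀) (hx₀ : Pic0.mk Dx = x)
    (C SS : Set (Place k F₁)) (hSS : ∀ P ∈ SS, P ∉ C) (hnodes : ∀ s ∈ X.nodes, s.1 ∈ SS)
    (E : ℤ) (D₀ : Divisor k F₁) (w : Place k F₁ → ℤ) (hw : ∀ P ∈ SS, D₀ P * w P = E)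
    (hmono : ∀ s ∈ SS, ∀ t ∈ SS, (m : ℤ) ∣ w s * o X.R₁ s f₀ - w t * o X.R₁ t f₀)
    (hD₀ : ∀ P, P ∉ SS → P ∉ C → D₀ P = 0)
    (T : Divisor k F₁ →+ Divisor k F₁)
    (hTC : ∀ D : Divisor k F₁, (∀ P ∉ C, D P = 0) → ∀ P ∉ C, T D P = 0)
    {a b : ℤ} (hTD₀ : ∀ P ∉ C, T D₀ P = b * D₀ P)
    (hT : ∀ (D : Divisor.degZero (K := K) (F := F)) (f : F) (u : F₁ × F₂), Pic0.mk D = x →
      IsRootDiv X m (D : Divisor K F) f u →
        ∃ (D' : Divisor.degZero (K := K) (F := F)) (f' : F) (u' : F₁ × F₂),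
          Pic0.mk D' = a • x ∧ IsRootDiv X m (D' : Divisor K F) f' u' ∧
            ∀ P, P.ord u'.1 = T (divOf u.1) P) :
    ∃ y₁ y₂, Spec X m ((E * (a - b)) • x) y₁ y₂ := by
  classical
  have : Fermat.FF.IsFF1 K F := Descent.isFF1_of_functionField (K := K) (F := F)
  have : Fermat.FF.IsFF1 k F₁ := Descent.isFF1_of_functionField (K := k) (F := F₁)
  have : Fermat.FF.IsFF1 k F₂ := Descent.isFF1_of_functionField (K := k) (F := F₂)
  have hx : m • x = 0 := by
    rw [← hx₀]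
    have h1 : m • Pic0.mk Dx = Pic0.mk (m • Dx) := rfl
    rw [h1, pic0_mk_eq_zero_iff]
    refine ⟨f₀, hf₀, fun P => ?_⟩
    rw [← hDx₀]
    show (m • (Dx : Divisor K F)) P = _
    rw [Finsupp.smul_apply, nsmul_eq_mul]
  obtain ⟨D, f, u, hDx, H⟩ := exists_rep X hm hx
  have ho : ∀ s : Place k F₁, (m : ℤ) ∣ s.ord u.1 - o X.R₁ s f₀ := by
    intro s
    have h := o_congr (R := X.R₁) hπ hm H.ne_zero hf₀ H.div_eq hDx₀ (hDx.trans hx₀.symm) s
    rwa [o_eq' _ hπ H.red.1 H.ne₁] at h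
  have h4 : ∀ s ∈ SS, ∀ t ∈ SS,
      (m : ℤ) ∣ w s * (divOf (K := k) u.1) s - w t * (divOf (K := k) u.1) t := by
    intro s hs t ht
    rw [divOf_apply, divOf_apply]
    have e : w s * s.ord u.1 - w t * t.ord u.1 = w s * (s.ord u.1 - o X.R₁ s f₀) -
        w t * (t.ord u.1 - o X.R₁ t f₀) + (w s * o X.R₁ s f₀ - w t * o X.R₁ t f₀) := by ring
    rw [e]
    exact dvd_add (dvd_sub (dvd_mul_of_dvd_right (ho s) _) (dvd_mul_of_dvd_right (ho t) _))
      (hmono s hs t ht)
  have h3 : ∀ s, s ∉ SS → (m : ℤ) ∣ (divOf (K := k) u.1) s := by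
    intro s hs
    rw [divOf_apply]
    exact (H.parity hπ).1 s fun t ht hts => hs (hts ▸ hnodes t ht)
  have h5 : ∀ s, (m : ℤ) ∣ T (divOf (K := k) u.1) s - a * (divOf (K := k) u.1) s := by
    intro s
    obtain ⟨D', f', u', hD', H', hT'⟩ := hT D f u hDx H
    have h6 := res_unique hπ H' (D' := a • D) (IsRootDiv.zsmul hπ H a) (by
      rw [hD', ← hDx]; rfl) s
    rw [hT', Place.ord_zpow] at h6
    rw [divOf_apply]
    exact h6
  have key := eisenstein' C SS hSS T hTC w hw hD₀ h3 h4 h5 hTD₀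
  have H2 := IsRootDiv.zsmul hπ H (E * (a - b))
  have H3 : IsRootDiv X m (((E * (a - b)) • D : Divisor.degZero (K := K) (F := F)) :
    Divisor K F) (f ^ (E * (a - b))) (u.1 ^ (E * (a - b)), u.2 ^ (E * (a - b))) := H2
  obtain ⟨y₁, y₂, hy⟩ := H3.exists_spec_of_nodes hπ fun s hs => by
    rw [Place.ord_zpow]
    have := key s.1
    rwa [divOf_apply] at this
  refine ⟨y₁, y₂, ?_⟩
  have e : Pic0.mk ((E * (a - b)) • D) = (E * (a - b)) • x := by rw [← hDx]; rfl
  rwa [e] at hy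

end Abstract

section Modular

open Fermat.Agent.JRED.AL Fermat.Agent.JRED.ESGalois Fermat.Agent.DR.ModGal
  Fermat.Agent.DR.Mod Fermat.Agent.DR.S36.L Fermat.Agent.DR.S36.Unit Fermat.Agent.DR.Mod2
  Fermat.Agent.Q2.Ord
open Fermat.Agent.Jan.HeckeNorm (normAlong normAlong_ne_zero nsmul_correspondence_eq_ord
  correspondence_eq_ord)

local notation "Qbar" => AlgebraicClosure ℚ

variable {A : ValuationSubring Qbar} {k : Type} [Field k] {π : A →+* k}
  {M q : ℕ} [NeZero M] [NeZero q] [hq : Fact q.Prime] [CharP k q] [ExpChar k q] [IsAlgClosed k]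
  {w : laurentBaseChange Qbar (modularFunctionFieldFull (M * q)) ≃ₐ[Qbar]
      laurentBaseChange Qbar (modularFunctionFieldFull (M * q))}

/-- The Hecke operator `T_ℓ` on root divisors. -/
theorem exists_hecke_root
    [FunctionField Qbar (laurentBaseChange Qbar (modularFunctionFieldFull (M * q)))]
    [FunctionField k (modularFunctionFieldFullC k M)]
    {X : NodalDatum Qbar (laurentBaseChange Qbar (modularFunctionFieldFull (M * q))) k
      (modularFunctionFieldFullC k M) (modularFunctionFieldFullC k M) A π}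
    (S : Setup π w) (h₁ : X.R₁ = redOne S)
    (h₂ : X.R₂ = redTwo S) {m : ℕ}
    {x : Pic0 Qbar (laurentBaseChange Qbar (modularFunctionFieldFull (M * q)))}
    {ℓ : ℕ} [NeZero ℓ] (hqM : ¬ q ∣ M * ℓ) (h : ((M * ℓ : ℕ) : k) ≠ 0) {a : ℤ}
    (hTx : heckeOperatorAlong Qbar (M * q) ℓ x = a • x)
    (D : Divisor.degZero (K := Qbar)
      (F := laurentBaseChange Qbar (modularFunctionFieldFull (M * q))))
    (f : laurentBaseChange Qbar (modularFunctionFieldFull (M * q)))
    (u : modularFunctionFieldFullC k M × modularFunctionFieldFullC k M)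
    (hDx : Pic0.mk D = x) (H : IsRootDiv X m (D : Divisor Qbar _) f u) :
    ∃ (D' : Divisor.degZero (K := Qbar)
        (F := laurentBaseChange Qbar (modularFunctionFieldFull (M * q))))
      (f' : laurentBaseChange Qbar (modularFunctionFieldFull (M * q)))
      (u' : modularFunctionFieldFullC k M × modularFunctionFieldFullC k M),
      Pic0.mk D' = a • x ∧ IsRootDiv X m (D' : Divisor Qbar _) f' u' ∧
        ∀ P, P.ord u'.1 = heckeDivC k M ℓ h (divOf u.1) P := by
  have hπ := S.surj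
  obtain ⟨w', -, S'⟩ := exists_setup (k := k) S.surj (M * ℓ) q hq.out hqM
  have i1 := hasPrincipalDivisors_fullC h
  have H₁ := corrRed_one hq.out hqM h S S'
  have H₂ := corrRed_two hq.out hqM h S S'
  rw [← h₁] at H₁
  rw [← h₂] at H₂
  obtain ⟨hα, hβ, hP, hfin, hFI, hN⟩ :=
    Fermat.Agent.Jan.DegreeWiring.heckeInputsAlong' Qbar (M * q) ℓ
  rw [heckeOperatorAlong_eq hα hβ hFI hfin hN, ← hDx] at hTx
  refine ⟨Pic0.degZeroCorrespondence _ _ hβ hα hFI D,
    normAlong (heckeAlphaBar Qbar (M * q) ℓ) (heckeBetaBar Qbar (M * q) ℓ f),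
    (normAlong (alphaC k M ℓ) (betaC k M ℓ u.1), normAlong (alphaC k M ℓ) (betaC k M ℓ u.2)),
    ?_, ⟨H.pos, ?_, ?_, ?_, ?_, ?_⟩, ?_⟩
  · rw [← hDx]
    exact hTx
  · exact normAlong_ne_zero _ hfin ((map_ne_zero _).mpr H.ne_zero)
  · exact nsmul_correspondence_eq_ord _ _ hβ hα hfin hN H.ne_zero H.div_eq
  · exact ⟨H₁.red hπ H.red.1, H₂.red hπ H.red.2⟩
  · exact normAlong_ne_zero _ H₁.fin₁ ((map_ne_zero _).mpr H.ne₁)
  · exact normAlong_ne_zero _ H₂.fin₁ ((map_ne_zero _).mpr H.ne₂)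
  · intro P
    exact (heckeDivC_eq_ord h H.ne₁ (fun P => divOf_apply _ P) P).symm

variable [FunctionField Qbar (modularFunctionFieldBar (M * q))]
  [FunctionField Qbar (modularFunctionFieldBar M)]
  [FunctionField k (modularFunctionFieldFullC k M)]
  {X : NodalDatum Qbar (modularFunctionFieldBar (M * q)) k
    (modularFunctionFieldFullC k M) (modularFunctionFieldFullC k M) A π}

/-- The supersingular divisor is an Eisenstein eigendivisor off the cusps. -/
theorem hecke_ss_divisor (S : Setup π w) {ℓ : ℕ} [NeZero ℓ] (hℓ : ℓ.Prime) (hℓM : ¬ ℓ ∣ M * q)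
    (h : ((M * ℓ : ℕ) : k) ≠ 0) {e : ℤ} (he0 : e ≠ 0)
    {D₀ : Divisor k (modularFunctionFieldFullC k M)}
    (hD₀ : ∀ P : Place k (modularFunctionFieldFullC k M), 0 ≤ P.ord (jRed k M) →
      e * D₀ P = P.ord (ssj k q M))
    (P : Place k (modularFunctionFieldFullC k M)) (hP : 0 ≤ P.ord (jRed k M)) :
    heckeDivC k M ℓ h D₀ P = (ℓ + 1) * D₀ P := by
  have hℓf : Fact ℓ.Prime := ⟨hℓ⟩
  have h1 : heckeDivC k M ℓ h (divOf (K := k) (ssj k q M)) P =
      (ℓ + 1) * P.ord (ssj k q M) :=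
    heckeDivC_ssj_of S hℓM h (fun P => divOf_apply _ P) P
  have h3 : ∀ Q : Place k (modularFunctionFieldFullC k M), 0 ≤ Q.ord (jRed k M) →
      (e • D₀ - divOf (K := k) (ssj k q M)) Q = 0 := by
    intro Q hQ
    rw [Finsupp.sub_apply, Finsupp.smul_apply, smul_eq_mul, hD₀ Q hQ, divOf_apply, sub_self]
  have h2 : heckeDivC k M ℓ h (e • D₀ - divOf (K := k) (ssj k q M)) P = 0 :=
    heckeDivC_cusp h h3 P hP
  rw [map_sub, map_zsmul, Finsupp.sub_apply, Finsupp.smul_apply, smul_eq_mul, h1,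
    sub_eq_zero, ← hD₀ P hP] at h2
  apply mul_left_cancel₀ he0
  rw [h2]
  ring

/-- **The specialisation lemma**, from the constancy of the weighted orders: `e D₀ = div ssj` off
the cusps, `w_s = E / D₀(s)`, `e E = 12`. -/
theorem exists_spec_geo_of_mono (hA : A.LiesOverPrime q) (hqM' : ¬ q ∣ M) (S : Setup π w)
    (hX : IsModularNodal S X) (hdeg : DegreeInput M k) (hgood : GoodReduction M k)
    {m : ℕ} (hm : 0 < m)
    {x : JZero (M * q)}
    {Dx : Divisor.degZero (K := Qbar) (F := modularFunctionFieldBar (M * q))}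
    {f₀ : modularFunctionFieldBar (M * q)} (hf₀ : f₀ ≠ 0)
    (hDx₀ : ∀ P, (m : ℤ) * (Dx : Divisor Qbar (modularFunctionFieldBar (M * q))) P = P.ord f₀)
    (hx₀ : Pic0.mk Dx = x)
    (hmono : ∀ P Q : Place k (modularFunctionFieldFullC k M), 0 ≤ P.ord (jRed k M) →
      0 < P.ord (ssj k q M) → 0 ≤ Q.ord (jRed k M) → 0 < Q.ord (ssj k q M) → ∀ wP wQ : ℕ,
      P.ord (ssj k q M) * wP = 12 → Q.ord (ssj k q M) * wQ = 12 →
      (m : ℤ) ∣ wP * o (redOne S) P f₀ - wQ * o (redOne S) Q f₀)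
    {ℓ : ℕ} [NeZero ℓ] (hℓ : ℓ.Prime) (hℓM : ¬ ℓ ∣ M * q) {a : ℤ}
    (hTx : heckeOperatorAlong Qbar (M * q) ℓ x = a • x)
    {e E : ℕ} (heE : e * E = 12)
    (hdvd : ∀ P : Place k (modularFunctionFieldFullC k M), 0 ≤ P.ord (jRed k M) →
      (e : ℤ) ∣ P.ord (ssj k q M)) :
    ∃ y₁ y₂, Spec X m (((E : ℤ) * (a - (ℓ + 1))) • (x : Pic0 Qbar (modularFunctionFieldBar (M * q))))
      y₁ y₂ := by
  classical
  have hE0 : e ≠ 0 := by rintro rfl; simp at heE

  have hqℓ : ¬ q ∣ ℓ := fun h => hℓM (by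
    rw [(Nat.prime_dvd_prime_iff_eq hq.out hℓ).mp h]; exact dvd_mul_left _ _)
  have hqMℓ : ¬ q ∣ M * ℓ := by
    rw [hq.out.dvd_mul]
    rintro (h | h)
    · exact hqM' h
    · exact hqℓ h
  have h := natCast_ne_zero_of_not_dvd k q (M * ℓ) hqMℓ
  obtain ⟨r, hr⟩ := exists_placeRed_modular S.surj hdeg hgood
  let SS : Set (Place k (modularFunctionFieldFullC k M)) :=
    {P | 0 ≤ P.ord (jRed k M) ∧ 0 < P.ord (ssj k q M)}
  have hj0 : jRed k M ≠ 0 := fun h0 => jRed_transcendental k M (h0 ▸ isAlgebraic_zero)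
  have hmem : ∀ P : Place k (modularFunctionFieldFullC k M), 0 ≤ P.ord (jRed k M) →
      jRed k M ∈ P.toValuationSubring := fun P hP => (Fermat.FF.mem_iff_ord P hj0).mpr hP
  let D₀ : Divisor k (modularFunctionFieldFullC k M) :=
    (divOf (K := k) (ssj k q M)).mapRange (fun z : ℤ => z / e) (Int.zero_ediv _)
  have hD₀ : ∀ P, 0 ≤ P.ord (jRed k M) → (e : ℤ) * D₀ P = P.ord (ssj k q M) := by
    intro P hP
    rw [Finsupp.mapRange_apply, divOf_apply, Int.mul_ediv_cancel' (hdvd P hP)]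
  have he0 : (e : ℤ) ≠ 0 := by exact_mod_cast hE0
  have hcoord : ∀ P ∈ SS, ∃ wP : ℕ, P.ord (ssj k q M) * wP = 12 := by
    rintro P ⟨hP, hP'⟩
    obtain ⟨C, -, hw⟩ := exists_modCoord S hqM' hdeg hgood hr hA (K0 A) (hmem P hP) hP'
    exact ⟨C.w, hw⟩
  let W : Place k (modularFunctionFieldFullC k M) → ℤ := fun P =>
    if hP : P ∈ SS then ((hcoord P hP).choose : ℤ) else 0
  have hW : ∀ P (hP : P ∈ SS), W P = ((hcoord P hP).choose : ℤ) := fun P hP => dif_pos hP
  refine exists_spec_of_mono S.surj hm hf₀ hDx₀ hx₀ {P | ¬ 0 ≤ P.ord (jRed k M)} SS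
    (fun P hP => not_not.mpr hP.1) ?_ (E : ℤ) D₀ W ?_ ?_ ?_
    (heckeDivC k M ℓ h) ?_ (a := a) (b := ℓ + 1) ?_
    (exists_hecke_root S hX.eq₁ hX.eq₂ hqMℓ h hTx)
  · intro s hs
    exact ⟨(Fermat.FF.mem_iff_ord s.1 hj0).mp (jRed_mem_of_node hX hs), ss_of_node hA hX hs⟩
  · intro P hP
    have hw := (hcoord P hP).choose_spec
    rw [hW P hP]
    generalize (hcoord P hP).choose = n at hw
    rw [← hD₀ P hP.1] at hw
    have h2 : (e : ℤ) * (D₀ P * (n : ℤ)) = e * E := by
      rw [← mul_assoc, hw]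
      exact_mod_cast heE.symm
    exact mul_left_cancel₀ he0 h2
  · intro s hs t ht
    rw [hW s hs, hW t ht, hX.eq₁]
    exact hmono s t hs.1 hs.2 ht.1 ht.2 _ _ (hcoord s hs).choose_spec (hcoord t ht).choose_spec
  · intro P hP hP'
    have hP'' : 0 ≤ P.ord (jRed k M) := not_not.mp hP'
    have h1 := hD₀ P hP''
    have h2 : P.ord (ssj k q M) = 0 := by
      have h3 := ord_ssj_nonneg P hP''
      by_contra hne
      exact hP ⟨hP'', lt_of_le_of_ne h3 (Ne.symm hne)⟩
    rw [h2] at h1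
    exact (mul_eq_zero.mp h1).resolve_left he0
  · intro D hD P hP
    exact heckeDivC_cusp h (fun P hP => hD P (not_not.mpr hP)) P (not_not.mp hP)
  · intro P hP
    exact hecke_ss_divisor S hℓ hℓM h he0 hD₀ P (not_not.mp hP)

/-- At rigid levels the supersingular unit has order `12` at the supersingular points. -/
theorem dvd_ord_ssj_of_rigid (hM : DR.S36.Rigid M) (hA : A.LiesOverPrime q) (hqM : ¬ q ∣ M)
    {S : Setup π w} (hX : IsModularNodal S X) (hdeg : DegreeInput M k)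
    (hgood : GoodReduction M k) (P : Place k (modularFunctionFieldFullC k M))
    (hP : 0 ≤ P.ord (jRed k M)) : ((12 : ℕ) : ℤ) ∣ P.ord (ssj k q M) := by
  classical
  have hj0 : jRed k M ≠ 0 := fun h0 => jRed_transcendental k M (h0 ▸ isAlgebraic_zero)
  have hmem : jRed k M ∈ P.toValuationSubring := (Fermat.FF.mem_iff_ord P hj0).mpr hP
  rcases (ord_ssj_nonneg (q := q) P hP).eq_or_lt with h0 | h0
  · rw [← h0]
    exact dvd_zero _
  obtain ⟨r, hr⟩ := exists_placeRed_modular S.surj hdeg hgood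
  have hnode := node_of_ss hqM hdeg hgood hr hA hX hmem h0
  have hcoord : ∀ s ∈ X.nodes, ∃ wP : ℕ, 0 < wP ∧ s.1.ord (ssj k q M) * wP = 12 := by
    intro s hs
    obtain ⟨C, -, hw⟩ := exists_modCoord S hqM hdeg hgood hr hA (K0 A)
      (jRed_mem_of_node hX hs) (ss_of_node hA hX hs)
    exact ⟨C.w, C.w_pos, hw⟩
  let wd : Place k (modularFunctionFieldFullC k M) × Place k (modularFunctionFieldFullC k M) → ℕ :=
    fun s => if hs : s ∈ X.nodes then (hcoord s hs).choose else 1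
  have hwd : ∀ s (hs : s ∈ X.nodes), wd s = (hcoord s hs).choose := fun s hs => dif_pos hs
  have h := (width_modular hqM hgood hM S.surj (arch_modular hA S.surj) hX wd
    (fun s hs => by rw [hwd s hs]; exact (hcoord s hs).choose_spec.1)
    (fun s hs => by rw [hwd s hs]; exact (hcoord s hs).choose_spec.2) _ hnode).2
  have h' : P.ord (ssj k q M) = 12 := h
  rw [h']
  exact dvd_rfl

end Modular

section Final

open Fermat.Agent.JRED.AL Fermat.Agent.DR.ModGal Fermat.Agent.DR.Mod Fermat.Agent.Q2.Ord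

local notation "Qbar" => AlgebraicClosure ℚ

/-- **Monodromy at `p`**: a function fixed by the stabiliser of `μ` in inertia, with divisor
divisible by `p`, has constant weighted orders modulo `p` at the supersingular points. -/
def MonoP (M p : ℕ) [NeZero M] [NeZero p] : Prop :=
  ∀ (_ : ¬ p ∣ M) (A : ValuationSubring Qbar) (_ : A.LiesOverPrime p)
    (k : Type) [Field k] [IsAlgClosed k] [CharP k p] [ExpChar k p] (π : A →+* k)
    (w : laurentBaseChange Qbar (modularFunctionFieldFull (M * p)) ≃ₐ[Qbar]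
      laurentBaseChange Qbar (modularFunctionFieldFull (M * p)))
    [FunctionField Qbar (modularFunctionFieldBar (M * p))]
    [FunctionField Qbar (modularFunctionFieldBar M)]
    [FunctionField k (modularFunctionFieldFullC k M)]
    (S : Setup π w) [Fact p.Prime] (μ v : Qbar), μ ^ p = 1 + p * v → A.valuation v = 1 →
      (∀ σ ∈ A.inertiaSubgroupIn ℚ, σ v = v) →
      ∀ f : modularFunctionFieldBar (M * p), f ≠ 0 →
        (∀ σ ∈ A.inertiaSubgroupIn ℚ, σ μ = μ →
          arithmeticGalois (modularFunctionFieldFull (M * p)) σ • f = f) →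
        (∀ P : Place Qbar (modularFunctionFieldBar (M * p)), (p : ℤ) ∣ P.ord f) →
        ∀ P Q : Place k (modularFunctionFieldFullC k M), 0 ≤ P.ord (jRed k M) →
          0 < P.ord (ssj k p M) → 0 ≤ Q.ord (jRed k M) → 0 < Q.ord (ssj k p M) →
          ∀ wP wQ : ℕ, P.ord (ssj k p M) * wP = 12 → Q.ord (ssj k p M) * wQ = 12 →
          (p : ℤ) ∣ wP * o (redOne S) P f - wQ * o (redOne S) Q f

/-- **`SpecP`** from the monodromy formula, general form. -/
theorem specP_of_monoP {M p : ℕ} [NeZero M] [NeZero p] (hmono : MonoP M p)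
    {e E : ℕ} (heE : e * E = 12)
    (hdvd : ∀ (_ : ¬ p ∣ M) (A : ValuationSubring Qbar) (_ : A.LiesOverPrime p)
      (k : Type) [Field k] [IsAlgClosed k] [CharP k p] [ExpChar k p] (π : A →+* k)
      (w : laurentBaseChange Qbar (modularFunctionFieldFull (M * p)) ≃ₐ[Qbar]
        laurentBaseChange Qbar (modularFunctionFieldFull (M * p)))
      [FunctionField Qbar (modularFunctionFieldBar (M * p))]
      [FunctionField Qbar (modularFunctionFieldBar M)]
      [FunctionField k (modularFunctionFieldFullC k M)]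
      (S' : Setup π w) [Fact p.Prime]
      (X : NodalDatum Qbar (modularFunctionFieldBar (M * p)) k
        (modularFunctionFieldFullC k M) (modularFunctionFieldFullC k M) A π)
      (_ : IsModularNodal S' X) (P : Place k (modularFunctionFieldFullC k M)),
      0 ≤ P.ord (jRed k M) → (e : ℤ) ∣ P.ord (ssj k p M)) :
    SpecP E M p := by
  intro hp hpM A hA k _ _ _ π w _ _ _ S' _ X hX μ v hμ hv hvI x ℓ a hpx hfix hℓM hT
  have i3 : ExpChar k p := ExpChar.prime hp
  have hdeg : DegreeInput M k := degreeInput' (NeZero.ne M) hpM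
  have hgood : GoodReduction M k := goodReduction S'.surj hp (NeZero.ne M) hpM
  obtain ⟨Dx, f₀, hDx, -, hf₀, -, hdiv, hf₀fix⟩ := OrdAll.exists_fixed_rep (wildH A μ)
    (fun σ hσ => hfix σ hσ.1 hσ.2) hpx
  have : NeZero (ℓ : ℕ) := ⟨ℓ.2.ne_zero⟩
  obtain ⟨y₁, y₂, h⟩ := exists_spec_geo_of_mono hA hpM S' hX hdeg hgood hp.pos hf₀ hdiv hDx
    (fun P Q h1 h2 h3 h4 wP wQ h5 h6 => hmono hpM A hA k π w S' μ v hμ hv hvI f₀ hf₀
      (fun σ hσ hσμ => hf₀fix σ ⟨hσ, hσμ⟩) (fun P => ⟨_, (hdiv P).symm⟩) P Q h1 h2 h3 h4 wP wQ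
      h5 h6) ℓ.2 hℓM (a := a) hT heE
    (hdvd hpM A hA k π w S' X hX)
  refine ⟨y₁, y₂, ?_⟩
  rwa [show (E : ℤ) * (a - ℓ - 1) = (E : ℤ) * (a - (ℓ + 1)) by ring]

/-- **`SpecP` with `E = 12`.** -/
theorem specP_twelve {M p : ℕ} [NeZero M] [NeZero p] (hmono : MonoP M p) : SpecP 12 M p :=
  specP_of_monoP hmono (e := 1) (E := 12) rfl fun _ _ _ _ _ _ _ _ _ _ _ _ _ _ _ _ _ P _ =>
    by simp

/-- **`SpecP` with `E = 1`** at rigid levels. -/
theorem specP_one {M p : ℕ} [NeZero M] [NeZero p] (hM : DR.S36.Rigid M) (hmono : MonoP M p) :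
    SpecP 1 M p := by
  refine specP_of_monoP hmono (e := 12) (E := 1) rfl ?_
  intro hpM A hA k _ _ _ _ π w _ _ _ S' _ X hX P hP
  exact dvd_ord_ssj_of_rigid hM hA hpM hX (degreeInput' (NeZero.ne M) hpM)
    (goodReduction S'.surj Fact.out (NeZero.ne M) hpM) P hP

/-- **The inputs of S39** from the monodromy formula. -/
theorem atPInputs_of_monoP
    (h : ∀ (M p : ℕ) [NeZero M] [NeZero p], p.Prime → p ≠ 2 → MonoP M p) : S39.AtPInputs :=
  atPInputs_of_spec fun M p _ _ hp2 hM => by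
    intro hp
    exact specP_one hM (h M p hp hp2) hp

end Final

end Fermat.Agent.DR.AtP
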