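import Fermat.Agent.DR.AtP.AnnP
import Fermat.Agent.DR.Ord.Final
import Fermat.Agent.JAN.DegeneracyCompare

set_option autoImplicit false
set_option linter.unusedSectionVars false
set_option linter.style.haveILetI false

/-!
# Classes of `J₀(Mp)[p]` with a specialisation: inertia acts on `t x` through `χ`

(T7) If `x ∈ J₀(Mp)[p]` has a specialisation and `t` acts as `0` on `S₂(Γ₀(M))`, then inertia at
`p` acts on `t x` through the mod `p` cyclotomic character.
-/

noncomputable section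

open AlgebraicCurve ModularCurve
open Fermat.Agent.JRED Fermat.Agent.RR Fermat.Agent.DR.Mod Fermat.Agent.DR.S36
open Fermat.Agent.S30Wiring (AnemicAlg anemicIncl anemicEval)

namespace Fermat.Agent.DR.AtP

local notation "Qbar" => AlgebraicClosure ℚ
local notation "Γℚ" => (AlgebraicClosure ℚ ≃ₐ[ℚ] AlgebraicClosure ℚ)

variable {A : ValuationSubring Qbar} {k : Type} [Field k] {π : A →+* k}
  {M p : ℕ} [NeZero M] [hpf : Fact p.Prime] [CharP k p] [ExpChar k p] [IsAlgClosed k]
  {w : laurentBaseChange Qbar (modularFunctionFieldFull (M * p)) ≃ₐ[Qbar]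
      laurentBaseChange Qbar (modularFunctionFieldFull (M * p))}
  [FunctionField Qbar (modularFunctionFieldBar (M * p))]
  [FunctionField Qbar (modularFunctionFieldBar M)]
  [FunctionField k (modularFunctionFieldFullC k M)]
  {X : NodalDatum Qbar (modularFunctionFieldBar (M * p)) k
    (modularFunctionFieldFullC k M) (modularFunctionFieldFullC k M) A π}

/-- The `PushZero` conditions for `t x`. -/
theorem pushZero_smul {S' : Finset ℕ} (hpS : p ∈ S')
    (hMS : ∀ ℓ : ℕ, ℓ.Prime → ℓ ∣ M → ℓ ∈ S') {t : AnemicAlg S'}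
    (ht : anemicEval (N := M) hMS t = 0) {n : ℕ} (hn : n ≠ 0) {x : JZero (M * p)}
    (hx : n • x = 0) :
    letI := heckeModuleBar (M * p)
    PushZero (heckeAlphaBar Qbar M p) (anemicIncl S' t • x) ∧
      PushZero (heckeBetaBar Qbar M p) (anemicIncl S' t • x) := by
  letI := heckeModuleBar (M * p)
  obtain ⟨h1, h2⟩ := push_smul_eq_zero (M := M) (q := p) hpS hMS ht hn hx
  exact ⟨(JAN.Degeneracy.pushZero_iff _ _).mpr h1, (JAN.Degeneracy.pushZero_iff _ _).mpr h2⟩

/-- **(T7)** Inertia acts through `χ` on `t x` if `x ∈ J₀(Mp)[p]` has a specialisation. -/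
theorem smul_eq_nsmul_of_spec (hA : A.LiesOverPrime p) (hpM : ¬ p ∣ M) (S : Setup π w)
    (hX : IsModularNodal S X) {S' : Finset ℕ} (hpS : p ∈ S')
    (hMS : ∀ ℓ : ℕ, ℓ.Prime → ℓ ∣ M → ℓ ∈ S') {t : AnemicAlg S'}
    (ht : anemicEval (N := M) hMS t = 0) {x : JZero (M * p)} (hpx : p • x = 0)
    {y₁ y₂ : Pic0 k (modularFunctionFieldFullC k M)} (hs : Spec X p x y₁ y₂)
    {τ : Γℚ} (hτ : τ ∈ A.inertiaSubgroupIn ℚ) {a : ℕ}
    (ha : ∀ ζ : Qbar, ζ ^ p = 1 → τ ζ = ζ ^ a) :
    letI := heckeModuleBar (M * p)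
    τ • (anemicIncl S' t • x) = a • (anemicIncl S' t • x) := by
  letI := heckeModuleBar (M * p)
  have hp := hpf.out
  obtain ⟨hα, hβ⟩ := pushZero_smul (M := M) hpS hMS ht hp.ne_zero hpx
  refine Ord.modular_smul_eq_nsmul hA hpM S hX ?_
    (inTorus_smul hA hpM S hX.eq₁ hX.eq₂ hpS hMS ht hp.pos hs) hα hβ hτ ha
  have h1 := map_nsmul (DistribSMul.toAddMonoidHom (JZero (M * p)) (anemicIncl S' t)) p x
  rw [hpx, map_zero] at h1
  exact h1.symm

end Fermat.Agent.DR.AtP
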