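import Fermat.Agent.DR.AtP.SpecMono
import Fermat.Agent.DR.CorrPlace
import Fermat.Agent.DR.Mod.HeckeRed
import Fermat.Agent.Q2.OrdPlace

/-!
# The specialisation lemma at `p = 3`

`SpecP 4 M 3` for all `M`, from the action of `T_ℓ` on the elliptic points of order `3`.
-/

set_option autoImplicit false
set_option linter.unusedSectionVars false

noncomputable section

open AlgebraicCurve ModularCurve IntermediateField
open Fermat.Agent.RR Fermat.Agent.JRED Fermat.Agent.DR.Mono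

namespace Fermat.Agent.DR.AtP

section Abstract

variable {K F k F₁ F₂ : Type*} [Field K] [Field F] [Algebra K F] [Field k] [Field F₁] [Field F₂]
  [Algebra k F₁] [Algebra k F₂] [IsAlgClosed K] [IsAlgClosed k] [FunctionField K F]
  [FunctionField k F₁] [FunctionField k F₂] {A : ValuationSubring K} {π : A →+* k}
  {X : NodalDatum K F k F₁ F₂ A π} {m : ℕ}

/-- Classes with constant weighted orders specialise up to a factor `c` annihilating the orders
modulo `m` of the root functions. -/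
theorem exists_spec_of_key (hπ : Function.Surjective π) (hm : 0 < m)
    {x : Pic0 K F} {Dx : Divisor.degZero (K := K) (F := F)} {f₀ : F} (hf₀ : f₀ ≠ 0)
    (hDx₀ : ∀ P, (m : ℤ) * (Dx : Divisor K F) P = P.ord f₀) (hx₀ : Pic0.mk Dx = x)
    (SS : Set (Place k F₁)) (hnodes : ∀ s ∈ X.nodes, s.1 ∈ SS)
    (w : Place k F₁ → ℤ)
    (hmono : ∀ s ∈ SS, ∀ t ∈ SS, (m : ℤ) ∣ w s * o X.R₁ s f₀ - w t * o X.R₁ t f₀)
    (T : Divisor k F₁ →+ Divisor k F₁) {a c : ℤ}
    (hT : ∀ (D : Divisor.degZero (K := K) (F := F)) (f : F) (u : F₁ × F₂), Pic0.mk D = x →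
      IsRootDiv X m (D : Divisor K F) f u →
        ∃ (D' : Divisor.degZero (K := K) (F := F)) (f' : F) (u' : F₁ × F₂),
          Pic0.mk D' = a • x ∧ IsRootDiv X m (D' : Divisor K F) f' u' ∧
            ∀ P, P.ord u'.1 = T (divOf u.1) P)
    (hkey : ∀ u : F₁, u ≠ 0 → (∀ s : Place k F₁, s ∉ SS → (m : ℤ) ∣ s.ord u) →
      (∀ s ∈ SS, ∀ t ∈ SS, (m : ℤ) ∣ w s * s.ord u - w t * t.ord u) →
      (∀ s : Place k F₁, (m : ℤ) ∣ T (divOf u) s - a * s.ord u) →
      ∀ s : Place k F₁, (m : ℤ) ∣ c * s.ord u) :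
    ∃ y₁ y₂, Spec X m (c • x) y₁ y₂ := by
  classical
  have : Fermat.FF.IsFF1 K F := Descent.isFF1_of_functionField (K := K) (F := F)
  have : Fermat.FF.IsFF1 k F₁ := Descent.isFF1_of_functionField (K := k) (F := F₁)
  have : Fermat.FF.IsFF1 k F₂ := Descent.isFF1_of_functionField (K := k) (F := F₂)
  have hx : m • x = 0 := by
    rw [← hx₀]
    have h1 : m • Pic0.mk Dx = Pic0.mk (m • Dx) := rfl
    rw [h1, pic0_mk_eq_zero_iff]
    refine ⟨f₀, hf₀, fun P => ?_⟩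
    rw [← hDx₀]
    show (m • (Dx : Divisor K F)) P = _
    rw [Finsupp.smul_apply, nsmul_eq_mul]
  obtain ⟨D, f, u, hDx, H⟩ := exists_rep X hm hx
  have ho : ∀ s : Place k F₁, (m : ℤ) ∣ s.ord u.1 - o X.R₁ s f₀ := by
    intro s
    have h := o_congr (R := X.R₁) hπ hm H.ne_zero hf₀ H.div_eq hDx₀ (hDx.trans hx₀.symm) s
    rwa [o_eq' _ hπ H.red.1 H.ne₁] at h
  have h4 : ∀ s ∈ SS, ∀ t ∈ SS, (m : ℤ) ∣ w s * s.ord u.1 - w t * t.ord u.1 := by
    intro s hs t ht
    have e : w s * s.ord u.1 - w t * t.ord u.1 = w s * (s.ord u.1 - o X.R₁ s f₀) -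
        w t * (t.ord u.1 - o X.R₁ t f₀) + (w s * o X.R₁ s f₀ - w t * o X.R₁ t f₀) := by ring
    rw [e]
    exact dvd_add (dvd_sub (dvd_mul_of_dvd_right (ho s) _) (dvd_mul_of_dvd_right (ho t) _))
      (hmono s hs t ht)
  have h3 : ∀ s, s ∉ SS → (m : ℤ) ∣ s.ord u.1 := by
    intro s hs
    exact (H.parity hπ).1 s fun t ht hts => hs (hts ▸ hnodes t ht)
  have h5 : ∀ s, (m : ℤ) ∣ T (divOf (K := k) u.1) s - a * s.ord u.1 := by
    intro s
    obtain ⟨D', f', u', hD', H', hT'⟩ := hT D f u hDx H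
    have h6 := res_unique hπ H' (D' := a • D) (IsRootDiv.zsmul hπ H a) (by
      rw [hD', ← hDx]; rfl) s
    rw [hT', Place.ord_zpow] at h6
    exact h6
  have key := hkey u.1 H.ne₁ h3 h4 h5
  have H2 := IsRootDiv.zsmul hπ H c
  have H3 : IsRootDiv X m ((c • D : Divisor.degZero (K := K) (F := F)) :
    Divisor K F) (f ^ c) (u.1 ^ c, u.2 ^ c) := H2
  obtain ⟨y₁, y₂, hy⟩ := H3.exists_spec_of_nodes hπ fun s hs => by
    rw [Place.ord_zpow]
    exact key s.1
  refine ⟨y₁, y₂, ?_⟩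
  have e : Pic0.mk (c • D) = c • x := by rw [← hDx]; rfl
  rwa [e] at hy

theorem dvd_mapDomain {ι κ : Type*} (r : ι → κ) {m : ℤ} {D : ι →₀ ℤ} (h : ∀ P, m ∣ D P) (Q : κ) :
    m ∣ Finsupp.mapDomain r D Q := by
  classical
  rw [Finsupp.mapDomain, Finsupp.sum, Finsupp.finsetSum_apply]
  refine Finset.dvd_sum fun P _ => ?_
  rw [Finsupp.single_apply]
  split_ifs
  · exact h P
  · exact dvd_zero _

/-- If an additive functional modulo `m` takes the same value at the points where `D` is prime to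
`m` then it vanishes on `D` of degree zero. -/
theorem dvd_of_degree_zero {ι : Type*} {m : ℤ} (d : (ι →₀ ℤ) →+ ℤ) (S₃ : Set ι)
    (hd : ∀ s ∈ S₃, ∀ t ∈ S₃, m ∣ d (Finsupp.single s 1) - d (Finsupp.single t 1))
    {D : ι →₀ ℤ} (hD : D.sum (fun _ n => n) = 0) (hS : ∀ s, ¬ m ∣ D s → s ∈ S₃) : m ∣ d D := by
  classical
  by_cases hex : ∃ s₀, s₀ ∈ S₃
  · obtain ⟨s₀, hs₀⟩ := hex
    have h1 : d D - D.sum (fun _ n => n) * d (Finsupp.single s₀ 1) =
        ∑ s ∈ D.support, D s * (d (Finsupp.single s 1) - d (Finsupp.single s₀ 1)) := by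
      have h2 : d D = ∑ s ∈ D.support, D s * d (Finsupp.single s 1) := by
        conv_lhs => rw [← Finsupp.sum_single D]
        rw [Finsupp.sum, map_sum]
        refine Finset.sum_congr rfl fun s _ => ?_
        rw [← smul_eq_mul, ← map_zsmul, Finsupp.smul_single, smul_eq_mul, mul_one]
      rw [h2, Finsupp.sum, Finset.sum_mul, ← Finset.sum_sub_distrib]
      refine Finset.sum_congr rfl fun s _ => ?_
      ring
    rw [hD, zero_mul, sub_zero] at h1
    rw [h1]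
    refine Finset.dvd_sum fun s _ => ?_
    by_cases hs : m ∣ D s
    · exact dvd_mul_of_dvd_left hs _
    · exact dvd_mul_of_dvd_right (hd s (hS s hs) s₀ hs₀) _
  · have h2 : d D = ∑ s ∈ D.support, D s * d (Finsupp.single s 1) := by
      conv_lhs => rw [← Finsupp.sum_single D]
      rw [Finsupp.sum, map_sum]
      refine Finset.sum_congr rfl fun s _ => ?_
      rw [← smul_eq_mul, ← map_zsmul, Finsupp.smul_single, smul_eq_mul, mul_one]
    rw [h2]
    refine Finset.dvd_sum fun s _ => ?_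
    by_cases hs : m ∣ D s
    · exact dvd_mul_of_dvd_left hs _
    · exact absurd ⟨s, hS s hs⟩ hex

end Abstract

section Modular

open Fermat.Agent.JRED.AL Fermat.Agent.JRED.ESGalois Fermat.Agent.DR.ModGal
  Fermat.Agent.DR.Mod Fermat.Agent.DR.S36.L Fermat.Agent.DR.S36.Unit Fermat.Agent.DR.Mod2
  Fermat.Agent.Q2.Ord
open Fermat.Agent.Jan.HeckeNorm (normAlong normAlong_ne_zero nsmul_correspondence_eq_ord
  correspondence_eq_ord)

local notation "Qbar" => AlgebraicClosure ℚ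

/-- **`T_ℓ` on the elliptic points of order `3`** of `X₀(M)` in characteristic zero: modulo `3`
it is the multiplication by `ℓ + 1`. -/
def EllThree (M ℓ : ℕ) [NeZero M] [NeZero ℓ] : Prop :=
  ∀ (hα : HeckeAlphaBarIntegral Qbar M ℓ) (hβ : HeckeBetaBarIntegral Qbar M ℓ)
    [HasPrincipalDivisors Qbar (modularFunctionFieldBar (M * ℓ))]
    (P : Place Qbar (modularFunctionFieldBar M)), 0 < P.ord (jBar M) →
      ¬ (3 : ℤ) ∣ P.ord (jBar M) → ∀ Q : Place Qbar (modularFunctionFieldBar M),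
        (3 : ℤ) ∣ Divisor.correspondence (heckeBetaBar Qbar M ℓ) (heckeAlphaBar Qbar M ℓ) hβ hα
          (Finsupp.single P 1) Q - (ℓ + 1) * (Finsupp.single P (1 : ℤ) : Divisor Qbar _) Q

variable {A : ValuationSubring Qbar} {k : Type} [Field k] {π : A →+* k}
  {M q : ℕ} [NeZero M] [NeZero q] [hq : Fact q.Prime] [CharP k q] [ExpChar k q] [IsAlgClosed k]
  {w : laurentBaseChange Qbar (modularFunctionFieldFull (M * q)) ≃ₐ[Qbar]
      laurentBaseChange Qbar (modularFunctionFieldFull (M * q))}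

omit [NeZero M] [ExpChar k q] [IsAlgClosed k] [NeZero q] in
theorem ord_ssj_three (hq3 : q = 3) (P : Place k (modularFunctionFieldFullC k M)) :
    P.ord (ssj k q M) = 2 * P.ord (jRed k M) := by
  have h0 : ssj k q M = jRed k M ^ 2 := by
    apply (algebraMap (modularFunctionFieldFullC k M) (LaurentSeries k)).injective
    rw [map_pow]
    have h1 : algebraMap (modularFunctionFieldFullC k M) (LaurentSeries k) (jRed k M) =
        jqModC k := rfl
    have h2 : algebraMap (modularFunctionFieldFullC k M) (LaurentSeries k) (ssj k q M) =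
        Fermat.Agent.S28.ModPoly.dInv k ^ (q - 1) := coe_ssj
    rw [h1, h2, jq_eq_dInv (k := k) (q := q) (Or.inr hq3), hq3]
  rw [h0, Fermat.FF.ord_pow]
  norm_num

variable [FunctionField Qbar (modularFunctionFieldBar M)]
  [FunctionField k (modularFunctionFieldFullC k M)]
  {r : Place Qbar (modularFunctionFieldBar M) → Place k (modularFunctionFieldFullC k M)}

/-- A place where the order of `j` is prime to `3` lifts to such a place. -/
theorem exists_lift_three (S : Setup π w) (hqM : ¬ q ∣ M) (hdeg : DegreeInput M k)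
    (hgood : GoodReduction M k) (hr : PlaceRed (hdeg.redDatum S.surj) r)
    {s : Place k (modularFunctionFieldFullC k M)} (h0 : 0 < s.ord (jRed k M))
    (h3 : ¬ (3 : ℤ) ∣ s.ord (jRed k M)) :
    ∃ P, r P = s ∧ 0 < P.ord (jBar M) ∧ ¬ (3 : ℤ) ∣ P.ord (jBar M) := by
  classical
  have hj0 : jRed k M ≠ 0 := fun h0 => jRed_transcendental k M (h0 ▸ isAlgebraic_zero)
  have h1 : Finsupp.mapDomain r (divOf (K := Qbar) (jBar M)) s = s.ord (jRed k M) :=
    hr (jBar M) (jRed k M) (redL_j π M) hj0 _ (fun P => divOf_apply _ P) s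
  have h2 : ∃ P, r P = s ∧ ¬ (3 : ℤ) ∣ P.ord (jBar M) := by
    by_contra hcon
    push Not at hcon
    apply h3
    rw [← h1, Finsupp.mapDomain, Finsupp.sum, Finsupp.finsetSum_apply]
    refine Finset.dvd_sum fun P _ => ?_
    rw [Finsupp.single_apply]
    split_ifs with h
    · rw [divOf_apply]
      exact hcon P h
    · exact dvd_zero _
  obtain ⟨P, hP, hP3⟩ := h2
  refine ⟨P, hP, ?_, hP3⟩
  have h4 := DFunLike.congr_fun (map_poles_modular S hqM hdeg hgood hr) s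
  rw [polesOf_apply, max_eq_right (by omega)] at h4
  have h5 : polesOf (K := Qbar) (jBar M) P ≤
      Finsupp.mapDomain r (polesOf (K := Qbar) (jBar M)) s :=
    le_mapDomain (fun P' _ => polesOf_nonneg _ P') hP
  rw [h4, polesOf_apply] at h5
  have h6 : P.ord (jBar M) ≠ 0 := fun h => hP3 (h ▸ dvd_zero _)
  have h7 := le_max_left (-P.ord (jBar M)) 0
  omega

/-- **`T_ℓ` on divisors of degree zero supported, modulo `3`, on the places where the order of `j`
is prime to `3`.** -/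
theorem hecke_three (S : Setup π w) (hqM : ¬ q ∣ M) (hdeg : DegreeInput M k)
    (hgood : GoodReduction M k) {ℓ : ℕ} [NeZero ℓ] (h : ((M * ℓ : ℕ) : k) ≠ 0)
    (hE : EllThree M ℓ) {U : Divisor k (modularFunctionFieldFullC k M)}
    (hU : Divisor.degree U = 0)
    (hU3 : ∀ s : Place k (modularFunctionFieldFullC k M), ¬ (3 : ℤ) ∣ U s →
      0 < s.ord (jRed k M) ∧ ¬ (3 : ℤ) ∣ s.ord (jRed k M))
    (Q : Place k (modularFunctionFieldFullC k M)) :
    (3 : ℤ) ∣ heckeDivC k M ℓ h U Q - (ℓ + 1) * U Q := by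
  classical
  obtain ⟨r, hr⟩ := exists_placeRed_modular S.surj hdeg hgood
  have i1 := hasPrincipalDivisors_fullC h
  have H := corrRed_level S.surj h hdeg
  obtain ⟨hα, hβ, hP, hfin, hFI, hN⟩ :=
    Fermat.Agent.Jan.DegreeWiring.heckeInputsAlong' Qbar M ℓ
  let d : Divisor k (modularFunctionFieldFullC k M) →+ ℤ :=
    (Finsupp.applyAddHom Q).comp (heckeDivC k M ℓ h) -
      (AddMonoidHom.mulLeft ((ℓ : ℤ) + 1)).comp (Finsupp.applyAddHom Q)
  have hd : ∀ D, d D = heckeDivC k M ℓ h D Q - (ℓ + 1) * D Q := fun D => rfl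
  rw [← hd]
  refine dvd_of_degree_zero d {s | 0 < s.ord (jRed k M) ∧ ¬ (3 : ℤ) ∣ s.ord (jRed k M)} ?_
    (by rw [← RR.degree_eq_sum]; exact hU) hU3
  rintro s ⟨hs, hs3⟩ t ⟨ht, ht3⟩
  obtain ⟨P, hP, hP0, hP3⟩ := exists_lift_three S hqM hdeg hgood hr hs hs3
  obtain ⟨P', hP', hP0', hP3'⟩ := exists_lift_three S hqM hdeg hgood hr ht ht3
  set D : Divisor Qbar (modularFunctionFieldBar M) := Finsupp.single P 1 - Finsupp.single P' 1
    with hDdef
  have hD0 : Divisor.degree D = 0 := by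
    rw [hDdef, map_sub, degree_single_one, degree_single_one, sub_self]
  have h1 := H.mapDomain_correspondence S.surj hr hβ hα hN (isIntegral_betaC h)
    (isIntegral_alphaC h) (fundamentalIdentity_betaC h) (normFormula_alphaC h) hD0
  have h2 : Finsupp.mapDomain r D = Finsupp.single s 1 - Finsupp.single t 1 := by
    have h3 : Finsupp.mapDomain r D = Finsupp.mapDomain r (Finsupp.single P 1) -
        Finsupp.mapDomain r (Finsupp.single P' 1) :=
      map_sub (Finsupp.mapDomain.addMonoidHom r) _ _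
    rw [h3, Finsupp.mapDomain_single, Finsupp.mapDomain_single, hP, hP']
  rw [← map_sub, ← h2, hd]
  have h4 : heckeDivC k M ℓ h (Finsupp.mapDomain r D) = Finsupp.mapDomain r
      (Divisor.correspondence (heckeBetaBar Qbar M ℓ) (heckeAlphaBar Qbar M ℓ) hβ hα D) :=
    h1.symm
  have h5 : Finsupp.mapDomain r (Divisor.correspondence (heckeBetaBar Qbar M ℓ)
      (heckeAlphaBar Qbar M ℓ) hβ hα D) Q - (ℓ + 1) * Finsupp.mapDomain r D Q =
      Finsupp.mapDomain r (Divisor.correspondence (heckeBetaBar Qbar M ℓ)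
        (heckeAlphaBar Qbar M ℓ) hβ hα D - ((ℓ : ℤ) + 1) • D) Q := by
    have h6 := map_sub (Finsupp.mapDomain.addMonoidHom (M := ℤ) r)
      (Divisor.correspondence (heckeBetaBar Qbar M ℓ) (heckeAlphaBar Qbar M ℓ) hβ hα D)
      (((ℓ : ℤ) + 1) • D)
    rw [map_zsmul] at h6
    have h7 := DFunLike.congr_fun h6 Q
    exact h7.symm
  rw [h4, h5]
  refine dvd_mapDomain r (fun P₁ => ?_) Q
  have h8 := hE hα hβ P hP0 hP3 P₁
  have h9 := hE hα hβ P' hP0' hP3' P₁
  have h10 := dvd_sub h8 h9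
  rw [hDdef, map_sub]
  have h11 : ∀ (a b : Divisor Qbar (modularFunctionFieldBar M)) (c d : Divisor Qbar
      (modularFunctionFieldBar M)), (a - b - ((ℓ : ℤ) + 1) • (c - d)) P₁ =
      (a P₁ - (ℓ + 1) * c P₁) - (b P₁ - (ℓ + 1) * d P₁) := by
    intro a b c d
    rw [Finsupp.sub_apply, Finsupp.sub_apply, Finsupp.smul_apply, Finsupp.sub_apply, smul_eq_mul]
    ring
  rw [h11]
  exact h10

variable [FunctionField Qbar (modularFunctionFieldBar (M * q))]
  {X : NodalDatum Qbar (modularFunctionFieldBar (M * q)) k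
    (modularFunctionFieldFullC k M) (modularFunctionFieldFullC k M) A π}

/-- The weight of a supersingular point. -/
theorem exists_weight (hA : A.LiesOverPrime q) (hqM' : ¬ q ∣ M)
    (S : Setup π w) (hdeg : DegreeInput M k) (hgood : GoodReduction M k)
    (P : Place k (modularFunctionFieldFullC k M)) (h1 : 0 ≤ P.ord (jRed k M))
    (h2 : 0 < P.ord (ssj k q M)) : ∃ wP : ℕ, P.ord (ssj k q M) * wP = 12 := by
  obtain ⟨r, hr⟩ := exists_placeRed_modular S.surj hdeg hgood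
  have hj0 : jRed k M ≠ 0 := fun h0 => jRed_transcendental k M (h0 ▸ isAlgebraic_zero)
  obtain ⟨C, -, hw⟩ := exists_modCoord S hqM' hdeg hgood hr hA (K0 A)
    ((Fermat.FF.mem_iff_ord P hj0).mpr h1) h2
  exact ⟨C.w, hw⟩

/-- The weights of the supersingular points, `q = 3`. -/
theorem exists_weights (hq3 : q = 3) (hA : A.LiesOverPrime q) (hqM' : ¬ q ∣ M)
    (S : Setup π w) (hdeg : DegreeInput M k) (hgood : GoodReduction M k)
    (oo : Place k (modularFunctionFieldFullC k M) → ℤ)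
    (hmono : ∀ P Q : Place k (modularFunctionFieldFullC k M), 0 ≤ P.ord (jRed k M) →
      0 < P.ord (ssj k q M) → 0 ≤ Q.ord (jRed k M) → 0 < Q.ord (ssj k q M) → ∀ wP wQ : ℕ,
      P.ord (ssj k q M) * wP = 12 → Q.ord (ssj k q M) * wQ = 12 →
      (q : ℤ) ∣ wP * oo P - wQ * oo Q) :
    ∃ W : Place k (modularFunctionFieldFullC k M) → ℤ,
      (∀ P : Place k (modularFunctionFieldFullC k M), 0 ≤ P.ord (jRed k M) →
        0 < P.ord (ssj k q M) → P.ord (jRed k M) * W P = 6) ∧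
      ∀ P Q : Place k (modularFunctionFieldFullC k M), 0 ≤ P.ord (jRed k M) →
        0 < P.ord (ssj k q M) → 0 ≤ Q.ord (jRed k M) → 0 < Q.ord (ssj k q M) →
        (q : ℤ) ∣ W P * oo P - W Q * oo Q := by
  classical
  have hcoord : ∀ P : Place k (modularFunctionFieldFullC k M), ∃ wP : ℕ,
      0 ≤ P.ord (jRed k M) ∧ 0 < P.ord (ssj k q M) → P.ord (ssj k q M) * wP = 12 := by
    intro P
    by_cases hP : 0 ≤ P.ord (jRed k M) ∧ 0 < P.ord (ssj k q M)
    · obtain ⟨wP, hw⟩ := exists_weight hA hqM' S hdeg hgood P hP.1 hP.2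
      exact ⟨wP, fun _ => hw⟩
    · exact ⟨0, fun h1 => absurd h1 hP⟩
  choose W hW using hcoord
  refine ⟨fun P => (W P : ℤ), fun P h1 h2 => ?_, fun P Q h1 h2 h3 h4 =>
    hmono P Q h1 h2 h3 h4 _ _ (hW P ⟨h1, h2⟩) (hW Q ⟨h3, h4⟩)⟩
  have h3 := hW P ⟨h1, h2⟩
  rw [ord_ssj_three hq3] at h3
  linarith

/-- The orders modulo `3` of the root functions. -/
theorem dvd_ord_three (hq3 : q = 3) (hqM' : ¬ q ∣ M)
    (S : Setup π w) (hdeg : DegreeInput M k) (hgood : GoodReduction M k)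
    {ℓ : ℕ} [NeZero ℓ] (h : ((M * ℓ : ℕ) : k) ≠ 0) (hE : EllThree M ℓ) {a : ℤ}
    {s₀ : Place k (modularFunctionFieldFullC k M)} (hs₀ : 0 ≤ s₀.ord (jRed k M))
    (hs₀3 : ¬ (3 : ℤ) ∣ s₀.ord (ssj k q M)) {W : Place k (modularFunctionFieldFullC k M) → ℤ}
    (hW : ∀ P : Place k (modularFunctionFieldFullC k M), 0 ≤ P.ord (jRed k M) →
        0 < P.ord (ssj k q M) → P.ord (jRed k M) * W P = 6)
    {u : modularFunctionFieldFullC k M}
    (h1 : ∀ s : Place k (modularFunctionFieldFullC k M),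
      ¬ (0 ≤ s.ord (jRed k M) ∧ 0 < s.ord (ssj k q M)) → (3 : ℤ) ∣ s.ord u)
    (h2 : ∀ s t : Place k (modularFunctionFieldFullC k M), 0 ≤ s.ord (jRed k M) →
      0 < s.ord (ssj k q M) → 0 ≤ t.ord (jRed k M) → 0 < t.ord (ssj k q M) →
      (3 : ℤ) ∣ W s * s.ord u - W t * t.ord u)
    (h3 : ∀ s : Place k (modularFunctionFieldFullC k M),
      (3 : ℤ) ∣ heckeDivC k M ℓ h (divOf u) s - a * s.ord u)
    (s : Place k (modularFunctionFieldFullC k M)) : (3 : ℤ) ∣ (a - (ℓ + 1)) * s.ord u := by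
  have hs₀SS : 0 < s₀.ord (ssj k q M) := by
    have h1 := ord_ssj_three hq3 s₀
    rw [h1] at hs₀3 ⊢
    have h2 : s₀.ord (jRed k M) ≠ 0 := fun h => hs₀3 (by rw [h]; norm_num)
    omega
  have hW₀ : (3 : ℤ) ∣ W s₀ := by
    have h4 := hW s₀ hs₀ hs₀SS
    have h5 : ¬ (3 : ℤ) ∣ s₀.ord (jRed k M) := fun h => hs₀3 (by
      rw [ord_ssj_three hq3]; exact dvd_mul_of_dvd_right h _)
    have h6 : (3 : ℤ) ∣ s₀.ord (jRed k M) * W s₀ := by rw [h4]; norm_num
    exact (Int.prime_three.dvd_or_dvd h6).resolve_left h5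
  have h4 : ∀ s : Place k (modularFunctionFieldFullC k M), ¬ (3 : ℤ) ∣ divOf u s →
      0 < s.ord (jRed k M) ∧ ¬ (3 : ℤ) ∣ s.ord (jRed k M) := by
    intro s hs
    rw [divOf_apply] at hs
    have hsSS : 0 ≤ s.ord (jRed k M) ∧ 0 < s.ord (ssj k q M) := by
      by_contra hcon
      exact hs (h1 s hcon)
    have h5 := h2 s₀ s hs₀ hs₀SS hsSS.1 hsSS.2
    have h6 : (3 : ℤ) ∣ W s * s.ord u := by
      have h7 : (3 : ℤ) ∣ W s₀ * s₀.ord u := dvd_mul_of_dvd_left hW₀ _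
      have h8 := dvd_sub h7 h5
      rwa [sub_sub_cancel] at h8
    have h7 : (3 : ℤ) ∣ W s := (Int.prime_three.dvd_or_dvd h6).resolve_right hs
    have h8 := hW s hsSS.1 hsSS.2
    refine ⟨?_, fun h9 => ?_⟩
    · have h10 := hsSS.2
      rw [ord_ssj_three hq3] at h10
      omega
    · have h10 : (3 : ℤ) * 3 ∣ s.ord (jRed k M) * W s := mul_dvd_mul h9 h7
      rw [h8] at h10
      norm_num at h10
  have h5 := hecke_three S hqM' hdeg hgood h hE (degree_divOf u) h4 s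
  have h6 := h3 s
  rw [divOf_apply] at h5
  have h7 := dvd_sub h5 h6
  have e : heckeDivC k M ℓ h (divOf u) s - (ℓ + 1) * s.ord u -
      (heckeDivC k M ℓ h (divOf u) s - a * s.ord u) = (a - (ℓ + 1)) * s.ord u := by ring
  rwa [e] at h7

/-- **The specialisation lemma** at `q = 3`, when there are elliptic points of order `3`. -/
theorem exists_spec_geo_three (hq3 : q = 3) (hA : A.LiesOverPrime q) (hqM' : ¬ q ∣ M)
    (S : Setup π w)
    (hX : IsModularNodal S X) (hdeg : DegreeInput M k) (hgood : GoodReduction M k)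
    {x : JZero (M * q)}
    {Dx : Divisor.degZero (K := Qbar) (F := modularFunctionFieldBar (M * q))}
    {f₀ : modularFunctionFieldBar (M * q)} (hf₀ : f₀ ≠ 0)
    (hDx₀ : ∀ P, (q : ℤ) * (Dx : Divisor Qbar (modularFunctionFieldBar (M * q))) P =
      P.ord f₀)
    (hx₀ : Pic0.mk Dx = x)
    (hmono : ∀ P Q : Place k (modularFunctionFieldFullC k M), 0 ≤ P.ord (jRed k M) →
      0 < P.ord (ssj k q M) → 0 ≤ Q.ord (jRed k M) → 0 < Q.ord (ssj k q M) → ∀ wP wQ : ℕ,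
      P.ord (ssj k q M) * wP = 12 → Q.ord (ssj k q M) * wQ = 12 →
      (q : ℤ) ∣ wP * o (redOne S) P f₀ - wQ * o (redOne S) Q f₀)
    {ℓ : ℕ} [NeZero ℓ] (hℓ : ℓ.Prime) (hℓM : ¬ ℓ ∣ M * q) {a : ℤ}
    (hTx : heckeOperatorAlong Qbar (M * q) ℓ x = a • x) (hE : EllThree M ℓ)
    {s₀ : Place k (modularFunctionFieldFullC k M)} (hs₀ : 0 ≤ s₀.ord (jRed k M))
    (hs₀3 : ¬ (3 : ℤ) ∣ s₀.ord (ssj k q M)) :
    ∃ y₁ y₂, Spec X q ((a - (ℓ + 1)) • (x : Pic0 Qbar (modularFunctionFieldBar (M * q))))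
      y₁ y₂ := by
  have hq3' : (q : ℤ) = 3 := by exact_mod_cast hq3
  have hqℓ : ¬ q ∣ ℓ := fun h => hℓM (by
    rw [(Nat.prime_dvd_prime_iff_eq hq.out hℓ).mp h]; exact dvd_mul_left _ _)
  have hqMℓ : ¬ q ∣ M * ℓ := by
    rw [hq.out.dvd_mul]
    rintro (h | h)
    · exact hqM' h
    · exact hqℓ h
  have h := natCast_ne_zero_of_not_dvd k q (M * ℓ) hqMℓ
  have hj0 : jRed k M ≠ 0 := fun h0 => jRed_transcendental k M (h0 ▸ isAlgebraic_zero)
  obtain ⟨W, hW, hWm⟩ := exists_weights hq3 hA hqM' S hdeg hgood _ hmono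
  refine exists_spec_of_key S.surj hq.out.pos hf₀ hDx₀ hx₀
    {P | 0 ≤ P.ord (jRed k M) ∧ 0 < P.ord (ssj k q M)} ?_ W ?_
    (heckeDivC k M ℓ h) (a := a) (exists_hecke_root S hX.eq₁ hX.eq₂ hqMℓ h hTx) ?_
  · intro s hs
    exact ⟨(Fermat.FF.mem_iff_ord s.1 hj0).mp (jRed_mem_of_node hX hs), ss_of_node hA hX hs⟩
  · intro s hs t ht
    rw [hX.eq₁]
    exact hWm s t hs.1 hs.2 ht.1 ht.2
  · rw [hq3']
    intro u _ h1 h2 h3
    exact dvd_ord_three hq3 hqM' S hdeg hgood h hE hs₀ hs₀3 hW h1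
      (fun s t h4 h5 h6 h7 => h2 s ⟨h4, h5⟩ t ⟨h6, h7⟩) h3

end Modular

section Final

open Fermat.Agent.JRED.AL Fermat.Agent.DR.ModGal Fermat.Agent.DR.Mod Fermat.Agent.Q2.Ord

local notation "Qbar" => AlgebraicClosure ℚ

/-- **`SpecP` at `p = 3`, all levels.** -/
theorem specP_three {M p : ℕ} [NeZero M] [NeZero p] (hp3 : p = 3) (hmono : MonoP M p)
    (hE : ∀ (ℓ : ℕ) [NeZero ℓ], ℓ.Prime → ¬ ℓ ∣ M * p → EllThree M ℓ) : SpecP 4 M p := by
  intro hp hpM A hA k _ _ _ π w _ _ _ S' _ X hX μ v hμ hv hvI x ℓ a hpx hfix hℓM hT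
  have i3 : ExpChar k p := ExpChar.prime hp
  have hdeg : DegreeInput M k := degreeInput' (NeZero.ne M) hpM
  have hgood : GoodReduction M k := goodReduction S'.surj hp (NeZero.ne M) hpM
  obtain ⟨Dx, f₀, hDx, -, hf₀, -, hdiv, hf₀fix⟩ := OrdAll.exists_fixed_rep (wildH A μ)
    (fun σ hσ => hfix σ hσ.1 hσ.2) hpx
  have : NeZero (ℓ : ℕ) := ⟨ℓ.2.ne_zero⟩
  have hmono' : ∀ P Q : Place k (modularFunctionFieldFullC k M), 0 ≤ P.ord (jRed k M) →
      0 < P.ord (ssj k p M) → 0 ≤ Q.ord (jRed k M) → 0 < Q.ord (ssj k p M) → ∀ wP wQ : ℕ,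
      P.ord (ssj k p M) * wP = 12 → Q.ord (ssj k p M) * wQ = 12 →
      (p : ℤ) ∣ wP * o (redOne S') P f₀ - wQ * o (redOne S') Q f₀ :=
    fun P Q h1 h2 h3 h4 wP wQ h5 h6 => hmono hpM A hA k π w S' μ v hμ hv hvI f₀ hf₀
      (fun σ hσ hσμ => hf₀fix σ ⟨hσ, hσμ⟩) (fun P => ⟨_, (hdiv P).symm⟩) P Q h1 h2 h3 h4 wP wQ
      h5 h6
  by_cases h3 : ∀ P : Place k (modularFunctionFieldFullC k M), 0 ≤ P.ord (jRed k M) →
      ((3 : ℕ) : ℤ) ∣ P.ord (ssj k p M)
  · obtain ⟨y₁, y₂, h⟩ := exists_spec_geo_of_mono hA hpM S' hX hdeg hgood hp.pos hf₀ hdiv hDx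
      hmono' ℓ.2 hℓM (a := a) hT (e := 3) (E := 4) rfl h3
    refine ⟨y₁, y₂, ?_⟩
    rwa [show (((4 : ℕ) : ℤ)) * (a - (ℓ + 1)) = (4 : ℤ) * (a - ℓ - 1) by push_cast; ring] at h
  · push Not at h3
    obtain ⟨s₀, hs₀, hs₀3⟩ := h3
    obtain ⟨y₁, y₂, h⟩ := exists_spec_geo_three hp3 hA hpM S' hX hdeg hgood hf₀ hdiv hDx
      hmono' ℓ.2 hℓM (a := a) hT (hE ℓ ℓ.2 hℓM) hs₀ hs₀3
    refine ⟨4 • y₁, 4 • y₂, ?_⟩
    have h4 := h.nsmul hp.pos 4
    rwa [← natCast_zsmul, smul_smul,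
      show ((4 : ℕ) : ℤ) * (a - (ℓ + 1)) = (4 : ℤ) * (a - ℓ - 1) by push_cast; ring] at h4

end Final

end Fermat.Agent.DR.AtP
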