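import Fermat.Agent.DR.AtP.Kummer

set_option autoImplicit false

/-!
# Très ramifiée extensions `K₀(μ)`, `v μ ^ p = v p`

If `μ ^ p ∈ K₀` has the valuation of a uniformizer, then a unit `w` of `K₀(μ)` satisfies
`v (σ w - w) ≤ v (ζ - 1) * v μ` for `σ` in inertia (`smul_sub_le_tres`).
-/

noncomputable section

open Finset

namespace Fermat.Agent.DR.AtP

namespace InertialAction

variable {K Γ₀ : Type*} [Field K] [LinearOrderedCommGroupWithZero Γ₀] {v : Valuation K Γ₀}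
  {G : Type*} [Group G] [MulSemiringAction G K] {p : ℕ} (I : InertialAction v G p)

include I

variable {ζ μ : K} (hζ : IsPrimitiveRoot ζ p) (hμ0 : μ ≠ 0) (hμp : ∀ σ : G, σ • (μ ^ p) = μ ^ p)

include hζ hμ0 hμp in
lemma exists_smul_mu_eq' (σ : G) : ∃ i < p, σ • μ = ζ ^ i * μ := by
  have : NeZero p := ⟨I.prime.ne_zero⟩
  have h1 : (σ • μ / μ) ^ p = 1 := by
    rw [div_pow, ← smul_pow', hμp, div_self (pow_ne_zero _ hμ0)]
  obtain ⟨i, hi, h⟩ := hζ.eq_pow_of_pow_eq_one h1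
  exact ⟨i, hi, by rw [h]; field_simp⟩

include hζ hμ0 hμp in
/-- Decomposition of the elements of `K₀(μ)` when the orbit of `μ` has `p` elements. -/
theorem exists_decomp' (horb : ∀ i : ℕ, ∃ σ : G, σ • μ = ζ ^ i * μ) {a : K}
    (ha : ∀ σ : G, σ • μ = μ → σ • a = a) :
    ∃ b : ℕ → K, (∀ i, ∀ σ : G, σ • b i = b i) ∧ a = ∑ i ∈ range p, b i * μ ^ i := by
  classical
  choose τ hτ using horb
  refine ⟨fun i => (p : K)⁻¹ * ∑ j ∈ range p, τ j • (a * (μ ^ i)⁻¹), ?_, ?_⟩
  · intro i σ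
    rw [smul_mul', smul_inv'', smul_natCast', Finset.smul_sum]
    congr 1
    have hπ : ∀ j, ∃ k, k < p ∧ (σ * τ j) • μ = ζ ^ k * μ :=
      fun j => I.exists_smul_mu_eq' hζ hμ0 hμp (σ * τ j)
    choose π hπlt hπ using hπ
    have hinj : Set.InjOn π (range p : Set ℕ) := by
      intro j hj k hk hjk
      have h1 : (σ * τ j) • μ = (σ * τ k) • μ := by rw [hπ, hπ, hjk]
      rw [mul_smul, mul_smul, smul_left_cancel_iff, hτ, hτ] at h1
      exact hζ.pow_inj (Finset.mem_range.mp (Finset.mem_coe.mp hj))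
        (Finset.mem_range.mp (Finset.mem_coe.mp hk)) (mul_right_cancel₀ hμ0 h1)
    refine Finset.sum_nbij π (fun j _ => Finset.mem_range.mpr (hπlt j)) hinj
      (Finset.surjOn_of_injOn_of_card_le _ (fun j _ => ?_) hinj le_rfl) ?_
    · exact Finset.mem_coe.mpr (Finset.mem_range.mpr (hπlt j))
    · intro j _
      have h1 : ((τ (π j))⁻¹ * (σ * τ j)) • μ = μ := by
        rw [mul_smul, hπ, ← hτ, inv_smul_smul]
      have h2 : ((τ (π j))⁻¹ * (σ * τ j)) • (a * (μ ^ i)⁻¹) = a * (μ ^ i)⁻¹ := by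
        rw [smul_mul', smul_inv'', smul_pow', h1, ha _ h1]
      rw [mul_smul, inv_smul_eq_iff, mul_smul] at h2
      exact h2
  · have hgeom : ∀ j ∈ range p, ∑ i ∈ range p, ((ζ ^ j)⁻¹) ^ i = if j = 0 then (p : K) else 0 := by
      intro j hj
      split_ifs with h0
      · subst h0; simp
      · have hne : (ζ ^ j)⁻¹ - 1 ≠ 0 := by
          intro h
          have h1 : (ζ ^ j) = ζ ^ 0 := by
            rw [pow_zero, ← inv_inj, inv_one]
            exact sub_eq_zero.mp h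
          exact h0 (hζ.pow_inj (Finset.mem_range.mp hj) I.prime.pos h1)
        have h2 := mul_geom_sum (ζ ^ j)⁻¹ p
        rw [inv_pow, ← pow_mul, mul_comm j p, pow_mul, hζ.pow_eq_one, one_pow, inv_one,
          sub_self] at h2
        exact (mul_eq_zero.mp h2).resolve_left hne
    have hτ0 : τ 0 • a = a := ha _ (by rw [hτ]; simp)
    have hp0 := I.p_ne_zero
    have key : ∀ i ∈ range p, (p : K)⁻¹ * (∑ j ∈ range p, τ j • (a * (μ ^ i)⁻¹)) * μ ^ i =
        ∑ j ∈ range p, (p : K)⁻¹ * (τ j • a) * ((ζ ^ j)⁻¹) ^ i := by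
      intro i _
      rw [mul_assoc, Finset.sum_mul, Finset.mul_sum]
      refine Finset.sum_congr rfl fun j _ => ?_
      rw [smul_mul', smul_inv'', smul_pow', hτ, mul_pow, mul_inv, inv_pow]
      field_simp
    rw [Finset.sum_congr rfl key, Finset.sum_comm]
    have key2 : ∀ j ∈ range p, ∑ i ∈ range p, (p : K)⁻¹ * (τ j • a) * ((ζ ^ j)⁻¹) ^ i =
        if j = 0 then a else 0 := by
      intro j hj
      rw [← Finset.mul_sum, hgeom j hj]
      split_ifs with h0
      · subst h0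
        rw [hτ0]
        field_simp
      · rw [mul_zero]
    rw [Finset.sum_congr rfl key2, Finset.sum_ite_eq']
    simp [I.prime.pos]

variable (hvμ : v μ ^ p = v (p : K))

include hμ0 hvμ in
lemma v_mu_lt_tres : v μ < 1 := by
  by_contra h
  push Not at h
  have := one_le_pow₀ (n := p) h
  rw [hvμ] at this
  exact absurd this (not_le.mpr I.v_p_lt)

include hζ hμ0 hμp hvμ in
theorem exists_smul_mu_tres (i : ℕ) : ∃ σ : G, σ • μ = ζ ^ i * μ := by
  classical
  have ht0 : 0 < v μ := by rwa [Valuation.pos_iff]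
  have ht1 := I.v_mu_lt_tres hμ0 hvμ
  let O₀ : Finset K := (range p).image (fun i => ζ ^ i * μ)
  let O : Finset K := O₀.filter (fun ν => ∃ σ : G, σ • μ = ν)
  have hOσ : ∀ σ : G, ∀ ν ∈ O, σ • ν ∈ O := by
    intro σ ν hν
    obtain ⟨hν1, τ, hτ⟩ := Finset.mem_filter.mp hν
    obtain ⟨j, hj, h⟩ := I.exists_smul_mu_eq' hζ hμ0 hμp (σ * τ)
    refine Finset.mem_filter.mpr ⟨Finset.mem_image.mpr ⟨j, Finset.mem_range.mpr hj, ?_⟩, σ * τ, ?_⟩
    · rw [← h, mul_smul, hτ]
    · rw [mul_smul, hτ]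
  have hinjζ : Set.InjOn (fun i => ζ ^ i * μ) (range p : Set ℕ) := by
    intro a ha b hb hab
    have ha' := Finset.mem_range.mp (Finset.mem_coe.mp ha)
    have hb' := Finset.mem_range.mp (Finset.mem_coe.mp hb)
    exact hζ.pow_inj ha' hb' (mul_right_cancel₀ hμ0 hab)
  have hcard0 : O₀.card = p := by
    rw [Finset.card_image_of_injOn hinjζ, Finset.card_range]
  let P : K := ∏ ν ∈ O, ν
  have hPfix : ∀ σ : G, σ • P = P := by
    intro σ
    have h1 : σ • P = ∏ ν ∈ O, (σ • ν) := by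
      show (MulSemiringAction.toRingHom G K σ) (∏ ν ∈ O, ν) = _
      rw [map_prod]
      refine Finset.prod_congr rfl fun ν _ => ?_
      rfl
    rw [h1]
    refine Finset.prod_nbij' (fun ν => σ • ν) (fun ν => σ⁻¹ • ν) (hOσ σ) (hOσ σ⁻¹) ?_ ?_ ?_
    · intro ν _; exact inv_smul_smul σ ν
    · intro ν _; exact smul_inv_smul σ ν
    · intro ν _; rfl
  have hvν : ∀ ν ∈ O, v ν = v μ := by
    intro ν hν
    obtain ⟨hν1, τ, hτ⟩ := Finset.mem_filter.mp hν
    rw [← hτ, I.v_smul]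
  have hvP : v P = v μ ^ O.card := by
    rw [map_prod, Finset.prod_congr rfl hvν, Finset.prod_const]
  have hP0 : P ≠ 0 := by
    rw [← Valuation.pos_iff (v := v), hvP]
    exact pow_pos ht0 _
  obtain ⟨n, hn⟩ := I.v_fixed P hPfix hP0
  rw [hvP, ← hvμ] at hn
  have hn' : v μ ^ (O.card : ℤ) = v μ ^ ((p : ℤ) * n) := by
    rw [zpow_natCast, hn, zpow_mul, zpow_natCast]
  have hcard : (O.card : ℤ) = (p : ℤ) * n := zpow_right_injective₀ ht0 ht1.ne hn'
  have hmem1 : μ ∈ O := by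
    refine Finset.mem_filter.mpr ⟨Finset.mem_image.mpr ⟨0, Finset.mem_range.mpr I.prime.pos, ?_⟩,
      1, one_smul _ _⟩
    simp
  have hpos : 0 < O.card := Finset.card_pos.mpr ⟨μ, hmem1⟩
  have hdvd : p ∣ O.card := by
    have : (p : ℤ) ∣ (O.card : ℤ) := ⟨n, hcard⟩
    exact_mod_cast this
  have hle : p ≤ O.card := Nat.le_of_dvd hpos hdvd
  have hOeq : O = O₀ := Finset.eq_of_subset_of_card_le (Finset.filter_subset _ _)
    (by rw [hcard0]; exact hle)
  have hmem : ζ ^ i * μ ∈ O := by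
    rw [hOeq]
    refine Finset.mem_image.mpr ⟨i % p, Finset.mem_range.mpr (Nat.mod_lt _ I.prime.pos), ?_⟩
    conv_rhs => rw [← Nat.div_add_mod i p, pow_add, pow_mul, hζ.pow_eq_one, one_pow, one_mul]
  exact (Finset.mem_filter.mp hmem).2

include hζ hμ0 hμp hvμ in
/-- Integral elements of a très ramifiée extension are moved by at most `v (ζ - 1) * v μ`. -/
theorem smul_sub_le_tres {a : K} (ha : ∀ σ : G, σ • μ = μ → σ • a = a) (hva : v a ≤ 1) (σ : G) :
    v (σ • a - a) ≤ v (ζ - 1) * v μ := by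
  classical
  by_cases ha0 : a = 0
  · rw [ha0, smul_zero, sub_zero, map_zero]; exact zero_le
  obtain ⟨b, hb, hab⟩ := I.exists_decomp' hζ hμ0 hμp
    (I.exists_smul_mu_tres hζ hμ0 hμp hvμ) ha
  have ht0 : 0 < v μ := by rwa [Valuation.pos_iff]
  have ht1 := I.v_mu_lt_tres hμ0 hvμ
  have hbv : ∀ i, b i ≠ 0 → ∃ n : ℤ, v (b i) = v μ ^ ((p : ℤ) * n) := by
    intro i hi
    obtain ⟨n, hn⟩ := I.v_fixed (b i) (hb i) hi
    refine ⟨n, ?_⟩
    rw [hn, ← hvμ, zpow_mul, zpow_natCast]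
  let S := (range p).filter (fun i => b i ≠ 0)
  have hsum : a = ∑ i ∈ S, b i * μ ^ i := by
    rw [Finset.sum_filter_of_ne]
    · exact hab
    · intro i _ hne h0
      exact hne (by rw [h0, zero_mul])
  have hSne : S.Nonempty := by
    rw [Finset.nonempty_iff_ne_empty]
    intro h
    rw [h, Finset.sum_empty] at hsum
    exact ha0 hsum
  obtain ⟨i₀, hi₀, hmax⟩ := S.exists_max_image (fun i => v (b i * μ ^ i)) hSne
  have hvt : ∀ i ∈ S, ∃ n : ℤ, v (b i * μ ^ i) = v μ ^ ((p : ℤ) * n + i) := by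
    intro i hi
    obtain ⟨n, hn⟩ := hbv i (Finset.mem_filter.mp hi).2
    exact ⟨n, by rw [map_mul, map_pow, hn, zpow_add₀ ht0.ne', zpow_natCast]⟩
  have hlt : ∀ i ∈ S \ {i₀}, v (b i * μ ^ i) < v (b i₀ * μ ^ i₀) := by
    intro i hi
    rw [Finset.mem_sdiff, Finset.mem_singleton] at hi
    refine lt_of_le_of_ne (hmax i hi.1) fun h => hi.2 ?_
    obtain ⟨n, hn⟩ := hvt i hi.1
    obtain ⟨n₀, hn₀⟩ := hvt i₀ hi₀
    rw [hn, hn₀] at h
    have h1 := zpow_right_injective₀ ht0 ht1.ne h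
    have hip := Finset.mem_range.mp (Finset.mem_filter.mp hi.1).1
    have hi₀p := Finset.mem_range.mp (Finset.mem_filter.mp hi₀).1
    have h2 : ((i : ℤ)) ≡ i₀ [ZMOD p] := by
      have h3 : (i : ℤ) = i₀ + (p : ℤ) * (n₀ - n) := by linear_combination h1
      rw [h3]
      exact (Int.modEq_iff_dvd.mpr ⟨-(n₀ - n), by ring⟩)
    have h3 := (Int.natCast_modEq_iff).mp h2
    exact Nat.ModEq.eq_of_lt_of_lt h3 hip hi₀p
  have hva' : v a = v (b i₀ * μ ^ i₀) := by
    conv_lhs => rw [hsum]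
    exact v.map_sum_eq_of_lt hi₀ hlt
  have hle : ∀ i ∈ range p, v (b i * μ ^ i) ≤ v a := by
    intro i hi
    by_cases h0 : b i = 0
    · rw [h0, zero_mul, map_zero]; exact zero_le
    · rw [hva']
      exact hmax i (Finset.mem_filter.mpr ⟨hi, h0⟩)
  have hb1 : ∀ i ∈ range p, v (b i) ≤ 1 := by
    intro i hi
    by_cases h0 : b i = 0
    · rw [h0, map_zero]; exact zero_le
    · obtain ⟨n, hn⟩ := hbv i h0
      have h1 := (hle i hi).trans hva
      rw [map_mul, map_pow, hn, ← zpow_natCast, ← zpow_add₀ ht0.ne',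
        zpow_le_one_iff_right_of_lt_one₀ ht0 ht1] at h1
      rw [hn, zpow_le_one_iff_right_of_lt_one₀ ht0 ht1]
      have hip := Finset.mem_range.mp hi
      have hn0 : 0 ≤ n := by
        by_contra hneg
        push Not at hneg
        have : (p : ℤ) * n ≤ (p : ℤ) * (-1) := by
          apply mul_le_mul_of_nonneg_left (by omega) (by positivity)
        omega
      positivity
  obtain ⟨j, -, hj⟩ := I.exists_smul_mu_eq' hζ hμ0 hμp σ
  have e : σ • a - a = ∑ i ∈ range p, b i * (((ζ ^ j) ^ i - 1) * μ ^ i) := by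
    conv_lhs => rw [hab]
    rw [Finset.smul_sum, ← Finset.sum_sub_distrib]
    refine Finset.sum_congr rfl fun i _ => ?_
    rw [smul_mul', smul_pow', hb, hj]
    ring
  rw [e]
  refine v.map_sum_le fun i hi => ?_
  rcases Nat.eq_zero_or_pos i with rfl | hipos
  · rw [pow_zero, sub_self, zero_mul, mul_zero, map_zero]; exact zero_le
  rw [map_mul, map_mul]
  refine (mul_le_of_le_one_left zero_le (hb1 i hi)).trans (mul_le_mul' ?_ ?_)
  · rw [← pow_mul]
    exact v_zeta_pow_sub_one_le I.prime hζ _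
  · rw [map_pow]
    calc v μ ^ i ≤ v μ ^ 1 := pow_le_pow_of_le_one zero_le ht1.le hipos
      _ = v μ := pow_one _

end InertialAction

end Fermat.Agent.DR.AtP
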