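import Fermat.Agent.JRED.ESNorm
import Fermat.Agent.JRED.GaussRing

set_option autoImplicit false

/-!
# The estimate for `𝒰 (1 + c)`, `𝒰 f = ∏_{b mod p} f(ζ ^ b q)`

`twistProd_one_add`: `∏_b (β + c α)(ζ^b q) = ∏_b β(ζ^b q) + p c e + c ^ p ∏_b α(ζ^b q)`.
-/

noncomputable section

open ModularCurve Polynomial

namespace Fermat.Agent.DR.AtP

open Fermat.Agent.S28 Fermat.Agent.JRED.ES

section Integral

variable {R : Type*} [CommRing R] [IsDomain R] {p : ℕ} [hp : Fact p.Prime]

/-- the projection to the exponents divisible by `p` -/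
def projP (p : ℕ) (h : LaurentSeries R) : LaurentSeries R :=
  ⟨fun n => if (p : ℤ) ∣ n then h.coeff n else 0, h.isPWO_support.mono fun n hn => by
    rw [Function.mem_support] at hn
    rw [HahnSeries.mem_support]
    intro h0
    apply hn
    rw [h0, ite_self]⟩

omit [IsDomain R] in
theorem projP_coeff (h : LaurentSeries R) (n : ℤ) :
    (projP p h).coeff n = if (p : ℤ) ∣ n then h.coeff n else 0 := rfl

theorem units_sum_zpow {ζ : Rˣ} (hζ : IsPrimitiveRoot ζ p) {n : ℤ} (hn : ¬ (p : ℤ) ∣ n) :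
    ∑ i : ZMod p, ((((ζ ^ i.val) ^ n : Rˣ) : R)) = 0 := by
  have h1 : ζ ^ n ≠ 1 := fun h => hn ((hζ.zpow_eq_one_iff_dvd n).mp h)
  have h2 : ∑ i : ZMod p, ((((ζ ^ i.val) ^ n : Rˣ) : R)) =
      ∑ i ∈ Finset.range p, ((ζ ^ n : Rˣ) : R) ^ i := by
    refine Finset.sum_bij (fun i _ => i.val) (fun i _ => Finset.mem_range.mpr (ZMod.val_lt i))
      (fun i _ j _ h => ZMod.val_injective p h) (fun b hb => ?_) (fun i _ => ?_)
    · exact ⟨(b : ZMod p), Finset.mem_univ _, ZMod.val_cast_of_lt (Finset.mem_range.mp hb)⟩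
    · rw [← Units.val_pow_eq_pow_val]
      congr 1
      rw [← zpow_natCast, ← zpow_mul, ← zpow_natCast, ← zpow_mul, mul_comm]
  rw [h2]
  have h3 := mul_geom_sum ((ζ ^ n : Rˣ) : R) p
  have h4 : ((ζ ^ n : Rˣ) : R) ^ p = 1 := by
    rw [← Units.val_pow_eq_pow_val, ← zpow_natCast, ← zpow_mul, mul_comm, zpow_mul, zpow_natCast,
      hζ.pow_eq_one, one_zpow, Units.val_one]
  rw [h4, sub_self] at h3
  refine (mul_eq_zero.mp h3).resolve_left ?_
  intro h5
  exact h1 (Units.ext (by rw [Units.val_one]; exact sub_eq_zero.mp h5))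

theorem sum_twist {ζ : Rˣ} (hζ : IsPrimitiveRoot ζ p) (h : LaurentSeries R) :
    ∑ i : ZMod p, twist (ζ ^ i.val) h = HahnSeries.C (p : R) * projP p h := by
  ext n
  rw [HahnSeries.coeff_sum, HahnSeries.C_apply, HahnSeries.coeff_single_zero_mul, projP_coeff]
  simp only [twist_coeff]
  rw [← Finset.sum_mul]
  split_ifs with hn
  · have h1 : ∀ i : ZMod p, (((ζ ^ i.val) ^ n : Rˣ) : R) = 1 := by
      intro i
      obtain ⟨m, rfl⟩ := hn
      rw [zpow_mul, zpow_natCast, ← pow_mul, mul_comm i.val p, pow_mul, hζ.pow_eq_one, one_pow,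
        one_zpow, Units.val_one]
    rw [Finset.sum_congr rfl fun i _ => h1 i, Finset.sum_const, Finset.card_univ, ZMod.card,
      nsmul_eq_mul, mul_one]
  · rw [units_sum_zpow hζ hn, zero_mul, mul_zero]

theorem twistProd_eq {ζ : Rˣ} (a : LaurentSeries R) :
    haveI : NeZero p := ⟨hp.out.ne_zero⟩
    twistProd p ζ a = ∏ i : ZMod p, twist (ζ ^ i.val) a := by
  have : NeZero p := ⟨hp.out.ne_zero⟩
  rw [twistProd, Fin.prod_univ_eq_prod_range (fun b => twist (ζ ^ b) a) p]
  symm
  refine Finset.prod_bij (fun i _ => i.val) (fun i _ => Finset.mem_range.mpr (ZMod.val_lt i))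
    (fun i _ j _ h => ZMod.val_injective p h) (fun b hb => ?_) (fun i _ => rfl)
  exact ⟨(b : ZMod p), Finset.mem_univ _, ZMod.val_cast_of_lt (Finset.mem_range.mp hb)⟩

omit [IsDomain R] in
theorem twist_val_add {ζ : Rˣ} (hζ : ζ ^ p = 1) (i l : ZMod p) (a : LaurentSeries R) :
    twist (ζ ^ i.val) (twist (ζ ^ l.val) a) = twist (ζ ^ (l + i).val) a := by
  rw [twist_twist, ← pow_add]
  congr 1
  rw [ZMod.val_add, add_comm]
  conv_lhs => rw [← Nat.div_add_mod (l.val + i.val) p, pow_add, pow_mul, hζ, one_pow, one_mul]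

/-- the polynomial `∏_b (β_b + T α_b)` -/
def gPoly (ζ : Rˣ) (α β : LaurentSeries R) : (LaurentSeries R)[X] :=
  ∏ i : ZMod p, (C (twist (ζ ^ i.val) β) + C (twist (ζ ^ i.val) α) * X)

theorem derivative_gPoly {ζ : Rˣ} (hζ : IsPrimitiveRoot ζ p) (α β : LaurentSeries R) :
    ∃ H : (LaurentSeries R)[X], derivative (gPoly (p := p) ζ α β) =
      ∑ i : ZMod p, H.map (twist (ζ ^ i.val)) := by
  classical
  refine ⟨(∏ l ∈ (Finset.univ : Finset (ZMod p)).erase 0,
    (C (twist (ζ ^ l.val) β) + C (twist (ζ ^ l.val) α) * X)) * C α, ?_⟩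
  rw [gPoly, derivative_prod_finset]
  refine Finset.sum_congr rfl fun i _ => ?_
  rw [Polynomial.map_mul, Polynomial.map_prod, Polynomial.map_C]
  congr 1
  · refine (Finset.prod_bij (fun l _ => l + i) ?_ ?_ ?_ ?_).symm
    · intro l hl
      rw [Finset.mem_erase] at hl ⊢
      refine ⟨fun h => hl.1 ?_, Finset.mem_univ _⟩
      simpa using h
    · intro l _ l' _ h
      exact add_right_cancel h
    · intro b hb
      rw [Finset.mem_erase] at hb
      refine ⟨b - i, ?_, by simp⟩
      rw [Finset.mem_erase]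
      exact ⟨fun h => hb.1 (sub_eq_zero.mp h), Finset.mem_univ _⟩
    · intro l _
      rw [Polynomial.map_add, Polynomial.map_mul, Polynomial.map_C, Polynomial.map_C,
        Polynomial.map_X, twist_val_add hζ.pow_eq_one, twist_val_add hζ.pow_eq_one]
  · simp

theorem coeff_gPoly {ζ : Rˣ} (hζ : IsPrimitiveRoot ζ p) (α β : LaurentSeries R) {j : ℕ}
    (hj0 : 0 < j) (hjp : j < p) :
    ∃ e : LaurentSeries R, (gPoly (p := p) ζ α β).coeff j = HahnSeries.C (p : R) * e := by
  obtain ⟨H, hH⟩ := derivative_gPoly hζ α β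
  obtain ⟨m, rfl⟩ : ∃ m, j = m + 1 := ⟨j - 1, by omega⟩
  have h1 := congrArg (fun P => P.coeff m) hH
  simp only [coeff_derivative, Polynomial.finsetSum_coeff, Polynomial.coeff_map] at h1
  rw [sum_twist hζ] at h1
  have hcop : IsCoprime ((m + 1 : ℕ) : ℤ) (p : ℤ) := by
    rw [Nat.isCoprime_iff_coprime]
    exact (hp.out.coprime_iff_not_dvd.mpr fun h => by
      have := Nat.le_of_dvd (Nat.succ_pos m) h
      omega).symm
  obtain ⟨u, w, huw⟩ := hcop
  have h2 : ((u : LaurentSeries R)) * ((m : LaurentSeries R) + 1) +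
      (w : LaurentSeries R) * (p : LaurentSeries R) = 1 := by
    have := congrArg (Int.cast (R := LaurentSeries R)) huw
    push_cast at this
    exact this
  have hC : HahnSeries.C (p : R) = (p : LaurentSeries R) := map_natCast _ p
  rw [hC] at h1 ⊢
  refine ⟨(u : LaurentSeries R) * projP p (H.coeff m) +
    (w : LaurentSeries R) * (gPoly (p := p) ζ α β).coeff (m + 1), ?_⟩
  calc (gPoly (p := p) ζ α β).coeff (m + 1)
      = ((u : LaurentSeries R) * ((m : LaurentSeries R) + 1) +
      (w : LaurentSeries R) * (p : LaurentSeries R)) * (gPoly (p := p) ζ α β).coeff (m + 1) := by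
        rw [h2, one_mul]
    _ = (u : LaurentSeries R) * ((gPoly (p := p) ζ α β).coeff (m + 1) *
        ((m : LaurentSeries R) + 1)) + (w : LaurentSeries R) * (p : LaurentSeries R) *
        (gPoly (p := p) ζ α β).coeff (m + 1) := by ring
    _ = _ := by rw [h1]; ring

/-- **The key expansion.** -/
theorem twistProd_add {ζ : Rˣ} (hζ : IsPrimitiveRoot ζ p) (α β : LaurentSeries R) (c : R) :
    haveI : NeZero p := ⟨hp.out.ne_zero⟩
    ∃ e e' : LaurentSeries R, twistProd p ζ (β + HahnSeries.C c * α) =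
      twistProd p ζ β + HahnSeries.C ((p : R) * c) * e + HahnSeries.C (c ^ p) * e' := by
  have hne : NeZero p := ⟨hp.out.ne_zero⟩
  show ∃ e e' : LaurentSeries R, twistProd p ζ (β + HahnSeries.C c * α) =
      twistProd p ζ β + HahnSeries.C ((p : R) * c) * e + HahnSeries.C (c ^ p) * e'
  set G := gPoly (p := p) ζ α β with hG
  have hdeg : G.natDegree < p + 1 := by
    have h1 : G.natDegree ≤ ∑ i : ZMod p,
        (C (twist (ζ ^ i.val) β) + C (twist (ζ ^ i.val) α) * X).natDegree :=
      natDegree_prod_le _ _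
    have h2 : ∀ i : ZMod p,
        (C (twist (ζ ^ i.val) β) + C (twist (ζ ^ i.val) α) * X).natDegree ≤ 1 := by
      intro i
      refine (natDegree_add_le _ _).trans ?_
      rw [natDegree_C]
      refine max_le (by omega) ((natDegree_C_mul_le _ _).trans natDegree_X_le)
    have h3 : ∑ i : ZMod p,
        (C (twist (ζ ^ i.val) β) + C (twist (ζ ^ i.val) α) * X).natDegree ≤ p := by
      refine (Finset.sum_le_sum fun i _ => h2 i).trans ?_
      rw [Finset.sum_const, Finset.card_univ, ZMod.card, smul_eq_mul, mul_one]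
    omega
  have hev : twistProd p ζ (β + HahnSeries.C c * α) = G.eval (HahnSeries.C c) := by
    rw [twistProd_eq, hG, gPoly, eval_prod]
    refine Finset.prod_congr rfl fun i _ => ?_
    rw [map_add, map_mul, twist_C]
    simp only [eval_add, eval_C, eval_mul, eval_X]
    ring
  have h0 : G.coeff 0 = twistProd p ζ β := by
    rw [coeff_zero_eq_eval_zero, hG, gPoly, eval_prod, twistProd_eq]
    refine Finset.prod_congr rfl fun i _ => ?_
    simp
  have hmid : ∀ j : ℕ, ∃ e : LaurentSeries R, 0 < j → j < p →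
      G.coeff j = HahnSeries.C (p : R) * e := by
    intro j
    by_cases h : 0 < j ∧ j < p
    · obtain ⟨e, he⟩ := coeff_gPoly hζ α β h.1 h.2
      exact ⟨e, fun _ _ => he⟩
    · exact ⟨0, fun h1 h2 => absurd ⟨h1, h2⟩ h⟩
  choose e he using hmid
  refine ⟨∑ j ∈ Finset.range (p - 1), e (j + 1) * HahnSeries.C (c ^ j), G.coeff p, ?_⟩
  rw [hev, eval_eq_sum_range' hdeg, Finset.sum_range_succ]
  obtain ⟨m, hm⟩ : ∃ m, p = m + 1 := ⟨p - 1, by have := hp.out.pos; omega⟩
  have hsum : ∑ i ∈ Finset.range p, G.coeff i * (HahnSeries.C c : LaurentSeries R) ^ i =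
      twistProd p ζ β + HahnSeries.C ((p : R) * c) *
        ∑ j ∈ Finset.range (p - 1), e (j + 1) * HahnSeries.C (c ^ j) := by
    have hr : Finset.range p = Finset.range (p - 1 + 1) := by
      congr 1; omega
    rw [hr, Finset.sum_range_succ', pow_zero, mul_one, h0, add_comm, Finset.mul_sum]
    congr 1
    refine Finset.sum_congr rfl fun j hj => ?_
    rw [Finset.mem_range] at hj
    rw [he (j + 1) (Nat.succ_pos j) (by omega), map_mul, map_pow, pow_succ]
    ring
  rw [hsum, map_pow]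
  ring

end Integral

section Gauss

variable {K k : Type*} [Field K] [Field k] {A : ValuationSubring K} {π : A →+* k} {p : ℕ}
  [hp : Fact p.Prime]

open Fermat.Agent.JRED

theorem twistProd_C_mul {R : Type*} [CommRing R] [IsDomain R] [NeZero p] (ζ : Rˣ)
    (a b : LaurentSeries R) : twistProd p ζ (a * b) = twistProd p ζ a * twistProd p ζ b :=
  twistProd_mul p ζ a b

/-- `∏_b (1 + c h)(ζ^b q) = 1 + p c e + c^p e'` with `e`, `e'` in the Gauss ring. -/
theorem gred_twistProd [CharP k p] [NeZero p] {ζ : Aˣ} (hζ : IsPrimitiveRoot ζ p)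
    {h : LaurentSeries K} {u : LaurentSeries k} (hh : GRed π h u) (c : A) :
    ∃ (e e' : LaurentSeries K) (u₁ u₂ : LaurentSeries k), GRed π e u₁ ∧ GRed π e' u₂ ∧
      twistProd p (Units.map A.subtype.toMonoidHom ζ) (1 + HahnSeries.C (c : K) * h) =
        1 + HahnSeries.C (((p : A) * c : A) : K) * e + HahnSeries.C ((c ^ p : A) : K) * e' := by
  obtain ⟨a, b, hb, hab, -⟩ := hh
  obtain ⟨e₀, e₀', he⟩ := twistProd_add hζ a b c
  set ζ' := Units.map A.subtype.toMonoidHom ζ with hζ'
  set B : LaurentSeries A := twistProd p ζ b with hB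
  have hBπ : coeffMap π B ≠ 0 := by
    rw [hB, coeffMap_twistProd p hp.out π hζ.pow_eq_one]
    exact pow_ne_zero _ hb
  have hB0 : coeffMap A.subtype B ≠ 0 := by
    intro h0
    apply hBπ
    have : B = 0 := coeffMap_injective Subtype.val_injective (by rw [h0, map_zero])
    rw [this, map_zero]
  have hC : ∀ x : A, coeffMap A.subtype (HahnSeries.C x) = HahnSeries.C (x : K) := fun x => by
    rw [HahnSeries.C_apply, coeffMap_single]; rfl
  have h1 : (1 + HahnSeries.C (c : K) * h) * coeffMap A.subtype b =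
      coeffMap A.subtype (b + HahnSeries.C c * a) := by
    rw [map_add, map_mul, hC, ← hab]
    ring
  have h2 : twistProd p ζ' (1 + HahnSeries.C (c : K) * h) * coeffMap A.subtype B =
      coeffMap A.subtype B + HahnSeries.C (((p : A) * c : A) : K) * coeffMap A.subtype e₀ +
        HahnSeries.C ((c ^ p : A) : K) * coeffMap A.subtype e₀' := by
    have h3 : coeffMap A.subtype B = twistProd p ζ' (coeffMap A.subtype b) := by
      rw [hB, coeffMap_twistProd']
    have he' : coeffMap A.subtype (twistProd p ζ (b + HahnSeries.C c * a)) =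
        coeffMap A.subtype (twistProd p ζ b) +
          HahnSeries.C (((p : A) * c : A) : K) * coeffMap A.subtype e₀ +
          HahnSeries.C ((c ^ p : A) : K) * coeffMap A.subtype e₀' := by
      rw [he, map_add (coeffMap A.subtype), map_add (coeffMap A.subtype),
        map_mul (coeffMap A.subtype) (HahnSeries.C ((p : A) * c)) e₀,
        map_mul (coeffMap A.subtype) (HahnSeries.C (c ^ p)) e₀', hC, hC]
    rw [h3, ← twistProd_mul, h1, hζ', ← coeffMap_twistProd', he', ← coeffMap_twistProd']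
  have hGB : GRed π (coeffMap A.subtype B) (coeffMap π B) := GRed.of_integral B
  have hinv := hGB.inv hBπ
  refine ⟨coeffMap A.subtype e₀ * (coeffMap A.subtype B)⁻¹,
    coeffMap A.subtype e₀' * (coeffMap A.subtype B)⁻¹, _, _,
    (GRed.of_integral e₀).mul hinv, (GRed.of_integral e₀').mul hinv, ?_⟩
  apply mul_right_cancel₀ hB0
  rw [h2]
  field_simp

end Gauss

end Fermat.Agent.DR.AtP
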