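import Fermat.Agent.DR.AtP.WildDL

set_option autoImplicit false
set_option linter.unusedSectionVars false

/-!
# DR / AtP: monodromy at `p` for peu ramifiee classes

`f` invariant under `H` (the stabiliser of `μ`, `μ ^ p = 1 + p v'`) with divisor divisible by `p`.
The wild logarithmic derivatives of `f` on the two components have no poles, and at a node their
difference is the exponent of the product of the values of the coordinate.
-/

noncomputable section

open AlgebraicCurve Fermat.Agent.JRED Fermat.Agent.RR Fermat.Agent.DR.Mono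

namespace Fermat.Agent.DR.AtP

variable {K F k F₁ F₂ : Type*} [Field K] [Field F] [Algebra K F] [Field k] [Field F₁] [Field F₂]
  [Algebra k F₁] [Algebra k F₂] {A : ValuationSubring K} {π : A →+* k}

/-- The data of the wild monodromy argument: `H` the stabiliser of `μ` in inertia, `τ μ = ζ μ`,
`ϖ = ζ - 1`. -/
structure Wild (R₁ : RedDatum K F k F₁ A π) (R₂ : RedDatum K F k F₂ A π) (p : ℕ) where
  H : Subgroup (SemilinearAut K F)
  τ : SemilinearAut K F
  ϖ : K
  ε : k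
  ϖ_ne : ϖ ≠ 0
  ϖ_mem : ϖ ∈ A
  ϖ_res : π ⟨ϖ, ϖ_mem⟩ = 0
  p_ne : (p : K) ≠ 0
  ε_ne : ε ≠ 0
  inertia_τ : InertiaAut R₁ R₂ τ
  inertia_H : ∀ h ∈ H, InertiaAut R₁ R₂ h
  hW₁ : ∀ a : F, (∀ h ∈ H, h • a = a) → ∀ u, R₁.Red a u →
    ∃ x, R₁.Red (algebraMap K F ϖ⁻¹ * (τ • a - a)) x
  hW₂ : ∀ a : F, (∀ h ∈ H, h • a = a) → ∀ u, R₂.Red a u →
    ∃ x, R₂.Red (algebraMap K F ϖ⁻¹ * (τ • a - a)) x
  hN : ∀ b : K, b ≠ 0 → (∀ h ∈ H, SemilinearAut.baseAut h b = b) → ∃ n : ℤ,
    (∃ h : b ^ p * (p : K) ^ (-n) ∈ A, π ⟨_, h⟩ ≠ 0) ∧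
    ∃ h : ϖ⁻¹ * (SemilinearAut.baseAut τ (b ^ p) / (b ^ p) - 1) ∈ A, π ⟨_, h⟩ = n * ε

variable {R₁ : RedDatum K F k F₁ A π} {R₂ : RedDatum K F k F₂ A π}

namespace Wild

/-- exchange of the two components -/
def swap {p : ℕ} (W : Wild R₁ R₂ p) : Wild R₂ R₁ p where
  H := W.H
  τ := W.τ
  ϖ := W.ϖ
  ε := W.ε
  ϖ_ne := W.ϖ_ne
  ϖ_mem := W.ϖ_mem
  ϖ_res := W.ϖ_res
  p_ne := W.p_ne
  ε_ne := W.ε_ne
  inertia_τ := ⟨W.inertia_τ.unit, W.inertia_τ.red₂, W.inertia_τ.red₁⟩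
  inertia_H h hh := ⟨(W.inertia_H h hh).unit, (W.inertia_H h hh).red₂, (W.inertia_H h hh).red₁⟩
  hW₁ := W.hW₂
  hW₂ := W.hW₁
  hN := W.hN

variable {p : ℕ} (W : Wild R₁ R₂ p)

/-- invariance under `H` -/
def Fix (a : F) : Prop := ∀ h ∈ W.H, h • a = a

variable {W}

theorem Fix.mul {a b : F} (ha : W.Fix a) (hb : W.Fix b) : W.Fix (a * b) := fun h hh => by
  rw [smul_mul', ha h hh, hb h hh]

theorem Fix.inv {a : F} (ha : W.Fix a) : W.Fix a⁻¹ := fun h hh => by
  rw [smul_inv'', ha h hh]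

theorem Fix.div {a b : F} (ha : W.Fix a) (hb : W.Fix b) : W.Fix (a / b) := by
  rw [div_eq_mul_inv]
  exact ha.mul hb.inv

theorem Fix.pow {a : F} (ha : W.Fix a) (n : ℕ) : W.Fix (a ^ n) := fun h hh => by
  rw [smul_pow', ha h hh]

theorem Fix.zpow {a : F} (ha : W.Fix a) (n : ℤ) : W.Fix (a ^ n) := by
  obtain ⟨m, rfl | rfl⟩ := n.eq_nat_or_neg
  · rw [zpow_natCast]
    exact ha.pow m
  · rw [zpow_neg, zpow_natCast]
    exact (ha.pow m).inv

theorem Fix.const {c : K} (hc : ∀ h ∈ W.H, SemilinearAut.baseAut h c = c) :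
    W.Fix (algebraMap K F c) := fun h hh => by
  rw [SemilinearAut.smul_algebraMap, hc h hh]

theorem Fix.add {a b : F} (ha : W.Fix a) (hb : W.Fix b) : W.Fix (a + b) := fun h hh => by
  rw [smul_add, ha h hh, hb h hh]

theorem Fix.natZPow (n : ℤ) : W.Fix (algebraMap K F ((p : K) ^ n)) :=
  Fix.const fun h _ => by rw [map_zpow₀, map_natCast]

variable (W)

theorem exists_DL₁ (hπ : Function.Surjective π) {a : F} (ha : W.Fix a) {u : F₁}
    (h : R₁.Red a u) (hu : u ≠ 0) : ∃ x, DL R₁ W.τ W.ϖ a x := by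
  obtain ⟨x, hx⟩ := W.hW₁ a ha u h
  exact ⟨_, DL.of_red hπ h hu hx⟩

theorem exists_DL₂ (hπ : Function.Surjective π) {a : F} (ha : W.Fix a) {u : F₂}
    (h : R₂.Red a u) (hu : u ≠ 0) : ∃ x, DL R₂ W.τ W.ϖ a x := W.swap.exists_DL₁ hπ ha h hu

theorem DL_natZPow (n : ℤ) {Fk : Type*} [Field Fk] [Algebra k Fk]
    {R : RedDatum K F k Fk A π} : DL R W.τ W.ϖ (algebraMap K F ((p : K) ^ n)) 0 := by
  refine DL.fixed ((_root_.map_ne_zero _).mpr (zpow_ne_zero n W.p_ne)) ?_
  rw [SemilinearAut.smul_algebraMap, map_zpow₀, map_natCast]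

/-- Regularity on a stable set of places. -/
theorem pf_DL {S : Set (Place K F)} (hS : ∀ P ∈ S, W.τ⁻¹ • P ∈ S) {U : F} (hU : Inv S U) :
    PF S (algebraMap K F W.ϖ⁻¹ * (W.τ • U / U - 1)) := by
  refine (PF.const _).mul (PF.sub ?_ PF.one)
  have h1 : Inv S (W.τ • U) := by
    refine ⟨smul_ne_zero' W.τ hU.1, fun P hP => ?_⟩
    have h2 := SemilinearAut.ord_smul W.τ (W.τ⁻¹ • P) U
    rw [smul_inv_smul] at h2
    rw [h2]
    exact hU.2 _ (hS P hP)
  exact (h1.div hU).pf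

end Wild

/-- Products over a stable finite set of places. -/
theorem smul_prod_eq {h : SemilinearAut K F} {T : Finset (Place K F)} (hT : ∀ P ∈ T, h • P ∈ T)
    {w : Place K F → F} (hw : ∀ P ∈ T, h • w P = w (h • P)) :
    h • ∏ P ∈ T, w P = ∏ P ∈ T, w P := by
  classical
  rw [Finset.smul_prod']
  have hinj : Set.InjOn (fun P : Place K F => h • P) T := fun P _ Q _ hPQ =>
    smul_left_cancel h hPQ
  have himg : T.image (fun P => h • P) = T := by
    apply Finset.eq_of_subset_of_card_le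
    · intro Q hQ
      obtain ⟨P, hP, rfl⟩ := Finset.mem_image.mp hQ
      exact hT P hP
    · rw [Finset.card_image_of_injOn hinj]
  conv_rhs => rw [← himg, Finset.prod_image hinj]
  exact Finset.prod_congr rfl hw

theorem baseAut_prod_eq {h : SemilinearAut K F} {T : Finset (Place K F)}
    (hT : ∀ P ∈ T, h • P ∈ T) {w : Place K F → K}
    (hw : ∀ P ∈ T, SemilinearAut.baseAut h (w P) = w (h • P)) :
    SemilinearAut.baseAut h (∏ P ∈ T, w P) = ∏ P ∈ T, w P := by
  classical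
  rw [map_prod]
  have hinj : Set.InjOn (fun P : Place K F => h • P) T := fun P _ Q _ hPQ =>
    smul_left_cancel h hPQ
  have himg : T.image (fun P => h • P) = T := by
    apply Finset.eq_of_subset_of_card_le
    · intro Q hQ
      obtain ⟨P, hP, rfl⟩ := Finset.mem_image.mp hQ
      exact hT P hP
    · rw [Finset.card_image_of_injOn hinj]
  conv_rhs => rw [← himg, Finset.prod_image hinj]
  exact Finset.prod_congr rfl hw

section Orders

variable [HasPrincipalDivisors K F]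

open Classical in
/-- the support of `f` on `S` -/
def supp (S : Set (Place K F)) (f : F) : Finset (Place K F) :=
  (divOf (K := K) f).support.filter (· ∈ S)

theorem mem_supp {S : Set (Place K F)} {f : F} {P : Place K F} :
    P ∈ supp S f ↔ P.ord f ≠ 0 ∧ P ∈ S := by
  classical
  rw [supp, Finset.mem_filter, mem_supp_iff]

theorem smul_mem_supp {h : SemilinearAut K F} {S : Set (Place K F)} (hS : ∀ P ∈ S, h • P ∈ S)
    {f : F} (hf : h • f = f) {P : Place K F} (hP : P ∈ supp S f) : h • P ∈ supp S f := by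
  rw [mem_supp] at *
  refine ⟨?_, hS P hP.2⟩
  have := SemilinearAut.ord_smul h P f
  rw [hf] at this
  rw [this]
  exact hP.1

/-- the `p`-th part of the divisor -/
def dv (p : ℕ) (f : F) (P : Place K F) : ℤ := P.ord f / p

theorem dv_smul {p : ℕ} {h : SemilinearAut K F} {f : F} (hf : h • f = f) (P : Place K F) :
    dv p f (h • P) = dv p f P := by
  have := SemilinearAut.ord_smul h P f
  rw [hf] at this
  rw [dv, dv, this]

theorem dv_spec {p : ℕ} {f : F} {P : Place K F} (h : (p : ℤ) ∣ P.ord f) :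
    P.ord f = p * dv p f P := (Int.mul_ediv_cancel' h).symm

theorem dv_eq_zero {p : ℕ} {S : Set (Place K F)} {f : F} {P : Place K F} (hP : P ∈ S)
    (h : P ∉ supp S f) : dv p f P = 0 := by
  rw [mem_supp, not_and_or, not_not] at h
  rcases h with h | h
  · rw [dv, h, Int.zero_ediv]
  · exact absurd hP h

/-- Product of local parameters. -/
theorem ord_prod_local {S : Set (Place K F)} {T : Finset (Place K F)} (hT : ∀ P ∈ T, P ∈ S)
    {w : Place K F → F} (h1 : ∀ P ∈ T, P.ord (w P) = 1)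
    (h2 : ∀ P ∈ T, ∀ Q ∈ S, Q ≠ P → Q.ord (w P) = 0) {D : Place K F → ℤ}
    (hD : ∀ P ∈ S, P ∉ T → D P = 0) {Q : Place K F} (hQ : Q ∈ S) :
    Q.ord (∏ P ∈ T, w P ^ D P) = D Q := by
  classical
  have hw : ∀ P ∈ T, w P ≠ 0 := fun P hP =>
    Fermat.FF.ne_zero_of_ord_ne_zero P (by rw [h1 P hP]; exact one_ne_zero)
  rw [ord_prod_zpow Q T _ hw]
  by_cases hQT : Q ∈ T
  · rw [Finset.sum_eq_single Q]
    · rw [h1 Q hQT, mul_one]
    · intro P hP hPQ
      rw [h2 P hP Q hQ (Ne.symm hPQ), mul_zero]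
    · exact fun h => absurd hQT h
  · rw [hD Q hQ hQT]
    apply Finset.sum_eq_zero
    intro P hP
    rw [h2 P hP Q hQ (fun h => hQT (h ▸ hP)), mul_zero]

end Orders

end Fermat.Agent.DR.AtP
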