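import Fermat.Agent.DR.AtP.WildSep
import Fermat.Agent.DR.AtP.Hilbert
import Fermat.Agent.DR.Mono.Inert

set_option autoImplicit false
set_option linter.unusedSectionVars false

/-!
# DR / AtP: Lemma N for residues
-/

noncomputable section

open AlgebraicCurve Fermat.Agent.JRED Fermat.Agent.RR Fermat.Agent.DR.Mono

namespace Fermat.Agent.DR.AtP

local notation "Qb" => AlgebraicClosure ℚ

/-- A peu ramifiee Kummer generator at the place `A` above `p`. -/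
structure Peu (A : ValuationSubring Qb) (p : ℕ) (ζ μ v' : Qb) : Prop where
  zeta : IsPrimitiveRoot ζ p
  mu : μ ^ p = 1 + p * v'
  val : A.valuation v' = 1
  fix : ∀ σ ∈ A.inertiaSubgroupIn ℚ, σ v' = v'

variable {A : ValuationSubring Qb} {p : ℕ} {k : Type*} [Field k] {π : A →+* k}
  {ζ μ v' : Qb}

theorem Peu.mem (h : Peu A p ζ μ v') : v' ∈ A := (A.valuation_le_one_iff v').mp h.val.le

theorem Peu.zeta_mem (hp : p.Prime) (h : Peu A p ζ μ v') : ζ ∈ A := by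
  rw [← A.valuation_le_one_iff]
  have h1 : A.valuation ζ ^ p = 1 := by rw [← map_pow, h.zeta.pow_eq_one, map_one]
  exact ((pow_eq_one_iff_of_nonneg zero_le hp.ne_zero).mp h1).le

theorem Peu.varpi_mem (hp : p.Prime) (h : Peu A p ζ μ v') : ζ - 1 ∈ A :=
  sub_mem (h.zeta_mem hp) A.one_mem

theorem Peu.varpi_ne (hp : p.Prime) (h : Peu A p ζ μ v') : ζ - 1 ≠ 0 :=
  zeta_sub_one_ne_zero hp h.zeta

theorem Peu.varpi_res (hp : p.Prime) (hA : A.LiesOverPrime p) (hπ : Function.Surjective π)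
    (h : Peu A p ζ μ v') : π ⟨ζ - 1, h.varpi_mem hp⟩ = 0 := by
  rw [res_eq_zero_iff hπ]
  exact v_zeta_sub_one_lt hp h.zeta (inertialAction A hp hA).v_p_lt

/-- The constant `ε₀`. -/
def Peu.eps (π : A →+* k) (h : Peu A p ζ μ v') : k := -(π ⟨v', h.mem⟩)⁻¹

theorem Peu.eps_ne (hπ : Function.Surjective π) (h : Peu A p ζ μ v') : h.eps π ≠ 0 := by
  rw [Peu.eps, neg_ne_zero]
  exact inv_ne_zero ((res_ne_zero_iff hπ h.mem).mpr h.val)

/-- **Lemma N for residues.** -/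
theorem Peu.constN (hp : p.Prime) (hA : A.LiesOverPrime p) (hπ : Function.Surjective π)
    (h : Peu A p ζ μ v') {τ : Qb ≃ₐ[ℚ] Qb} (hτ : τ ∈ A.inertiaSubgroupIn ℚ)
    (hτμ : τ μ = ζ * μ) {b : Qb} (hb : b ≠ 0)
    (hbH : ∀ σ ∈ A.inertiaSubgroupIn ℚ, σ μ = μ → σ b = b) : ∃ n : ℤ,
    (∃ h : b ^ p * (p : Qb) ^ (-n) ∈ A, π ⟨_, h⟩ ≠ 0) ∧
    ∃ h' : (ζ - 1)⁻¹ * (τ (b ^ p) / (b ^ p) - 1) ∈ A, π ⟨_, h'⟩ = n * h.eps π := by
  have I := inertialAction A hp hA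
  have hfix : ∀ σ : A.inertiaSubgroupIn ℚ, σ • v' = v' := fun σ => h.fix σ.1 σ.2
  have hbH' : ∀ σ : A.inertiaSubgroupIn ℚ, σ • μ = μ → σ • b = b := fun σ => hbH σ.1 σ.2
  obtain ⟨n, hn⟩ := I.exists_v_eq h.zeta h.mu h.val hfix hbH' hb
  have hnear := I.near_smul_div h.zeta h.mu h.val hfix hbH' hn (σ := ⟨τ, hτ⟩) hτμ
  have hpK : (p : Qb) ≠ 0 := I.p_ne_zero
  have hvp : A.valuation (p : Qb) ≠ 0 := (Valuation.ne_zero_iff _).mpr hpK
  refine ⟨n, ?_, ?_⟩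
  · have h1 : A.valuation (b ^ p * (p : Qb) ^ (-n)) = 1 := by
      rw [map_mul, map_pow, hn, map_zpow₀, ← I.v_t_pow h.mu h.val, ← zpow_natCast,
        ← zpow_natCast, ← zpow_mul, ← zpow_mul, ← zpow_add₀]
      · rw [show n * (p : ℤ) + (p : ℤ) * -n = 0 by ring, zpow_zero]
      · exact (Valuation.ne_zero_iff _).mpr (I.t_ne_zero h.mu h.val)
    have h2 : b ^ p * (p : Qb) ^ (-n) ∈ A := (A.valuation_le_one_iff _).mp h1.le
    exact ⟨h2, (res_ne_zero_iff hπ h2).mpr h1⟩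
  · have hϖ0 := h.varpi_ne hp
    have hvϖ : A.valuation (ζ - 1) ≠ 0 := (Valuation.ne_zero_iff _).mpr hϖ0
    have hv'A : -v'⁻¹ ∈ A := by
      rw [← A.valuation_le_one_iff, Valuation.map_neg, map_inv₀, h.val, inv_one]
    have hmem : (n : Qb) * -v'⁻¹ ∈ A := mul_mem (intCast_mem A n) hv'A
    have e1 : τ (b ^ p) / b ^ p = (τ b / b) ^ p := by rw [map_pow, div_pow]
    have hnear' : A.valuation ((τ b / b) ^ p - 1 - (ζ - 1) * ((n : Qb) * -v'⁻¹)) <
      A.valuation (ζ - 1) := hnear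
    set X : Qb := (ζ - 1)⁻¹ * (τ (b ^ p) / (b ^ p) - 1) with hX
    have h3 : A.valuation (X - (n : Qb) * -v'⁻¹) < 1 := by
      have e2 : X - (n : Qb) * -v'⁻¹ =
          (ζ - 1)⁻¹ * ((τ b / b) ^ p - 1 - (ζ - 1) * ((n : Qb) * -v'⁻¹)) := by
        rw [hX, e1]
        field_simp
      rw [e2, map_mul, map_inv₀, inv_mul_lt_iff₀ (zero_lt_iff.mpr hvϖ), mul_one]
      exact hnear'
    have h4 : X - (n : Qb) * -v'⁻¹ ∈ A := (A.valuation_le_one_iff _).mp h3.le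
    have h5 : X ∈ A := by
      have := add_mem h4 hmem
      rwa [sub_add_cancel] at this
    refine ⟨h5, ?_⟩
    have h6 := (res_eq_zero_iff hπ h4).mpr h3
    have e3 : (⟨X - (n : Qb) * -v'⁻¹, h4⟩ : A) = ⟨X, h5⟩ - ⟨(n : Qb) * -v'⁻¹, hmem⟩ := rfl
    rw [e3, map_sub, sub_eq_zero] at h6
    rw [h6]
    have hiA : v'⁻¹ ∈ A := by
      rw [← A.valuation_le_one_iff, map_inv₀, h.val, inv_one]
    have e4 : (⟨(n : Qb) * -v'⁻¹, hmem⟩ : A) = (n : A) * -⟨v'⁻¹, hiA⟩ := by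
      apply Subtype.ext
      push_cast
      rfl
    rw [e4, map_mul, map_intCast, map_neg, Peu.eps]
    congr 2
    have e5 : (⟨v'⁻¹, hiA⟩ : A) * ⟨v', h.mem⟩ = 1 := by
      apply Subtype.ext
      have hv0 : v' ≠ 0 := by
        intro h0
        have := h.val
        rw [h0, map_zero] at this
        exact zero_ne_one this
      exact inv_mul_cancel₀ hv0
    have e6 := congrArg π e5
    rw [map_mul, map_one] at e6
    exact eq_inv_of_mul_eq_one_left e6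

end Fermat.Agent.DR.AtP
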