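import Fermat.Agent.DR.Mono.Sep
import Fermat.Agent.DR.Mono.Formula

set_option autoImplicit false

/-!
# DR / AtP: the wild logarithmic derivative

`DL R τ ϖ a x`: the function `ϖ⁻¹ (τ a / a - 1)` reduces to `x`.
-/

noncomputable section

open AlgebraicCurve Fermat.Agent.JRED Fermat.Agent.RR Fermat.Agent.DR.Mono

namespace Fermat.Agent.DR.AtP

section DL

variable {K F k Fk : Type*} [Field K] [Field F] [Algebra K F] [Field k] [Field Fk] [Algebra k Fk]
variable {A : ValuationSubring K} {π : A →+* k}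

/-- The wild logarithmic derivative. -/
def DL (R : RedDatum K F k Fk A π) (τ : SemilinearAut K F) (ϖ : K) (a : F) (x : Fk) : Prop :=
  R.Red (algebraMap K F ϖ⁻¹ * (τ • a / a - 1)) x

variable {R : RedDatum K F k Fk A π} {τ : SemilinearAut K F} {ϖ : K}

theorem smul_ne_zero' {K F : Type*} [Field K] [Field F] [Algebra K F] (g : SemilinearAut K F)
    {a : F} (ha : a ≠ 0) : g • a ≠ 0 := (smul_ne_zero_iff_ne g).mpr ha

theorem DL.unique {a : F} {x x' : Fk} (h : DL R τ ϖ a x) (h' : DL R τ ϖ a x') : x = x' :=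
  R.unique h h'

theorem DL.fixed {a : F} (ha : a ≠ 0) (h : τ • a = a) : DL R τ ϖ a 0 := by
  unfold DL
  rw [h, div_self ha, sub_self, mul_zero]
  exact R.zero

variable (hϖ0 : ϖ ≠ 0) (hϖ : ϖ ∈ A) (hπϖ : π ⟨ϖ, hϖ⟩ = 0)

include hϖ0 in
theorem DL.eq_one_add {a : F} :
    τ • a / a = 1 + algebraMap K F ϖ * (algebraMap K F ϖ⁻¹ * (τ • a / a - 1)) := by
  have : algebraMap K F ϖ ≠ 0 := by simpa using hϖ0
  rw [map_inv₀, mul_inv_cancel_left₀ this]
  ring

include hϖ0 hϖ hπϖ in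
theorem DL.mul {a b : F} {x y : Fk} (h : DL R τ ϖ a x)
    (h' : DL R τ ϖ b y) : DL R τ ϖ (a * b) (x + y) := by
  unfold DL at *
  have hw : algebraMap K F ϖ ≠ 0 := by simpa using hϖ0
  set X := algebraMap K F ϖ⁻¹ * (τ • a / a - 1) with hX
  set Y := algebraMap K F ϖ⁻¹ * (τ • b / b - 1) with hY
  have e : algebraMap K F ϖ⁻¹ * (τ • (a * b) / (a * b) - 1) =
      X + Y + algebraMap K F ϖ * (X * Y) := by
    rw [smul_mul', mul_div_mul_comm, DL.eq_one_add (τ := τ) (a := a) hϖ0,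
      DL.eq_one_add (τ := τ) (a := b) hϖ0, ← hX, ← hY, map_inv₀]
    field_simp
    ring
  rw [e]
  have h2 := red_zero_of_mem hϖ hπϖ (R.mul h h')
  have h3 := R.add (R.add h h') h2
  rwa [add_zero] at h3

include hϖ0 hϖ hπϖ in
theorem DL.inv (hπ : Function.Surjective π) {a : F} (ha : a ≠ 0) {x : Fk} (h : DL R τ ϖ a x) :
    DL R τ ϖ a⁻¹ (-x) := by
  unfold DL at *
  have hw : algebraMap K F ϖ ≠ 0 := by simpa using hϖ0
  have hta := smul_ne_zero' τ ha
  set X := algebraMap K F ϖ⁻¹ * (τ • a / a - 1) with hX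
  have e1 := DL.eq_one_add (τ := τ) (a := a) hϖ0
  rw [← hX] at e1
  have hne : (1 + algebraMap K F ϖ * X) ≠ 0 := by rw [← e1]; exact div_ne_zero hta ha
  have e : algebraMap K F ϖ⁻¹ * (τ • a⁻¹ / a⁻¹ - 1) = -X / (1 + algebraMap K F ϖ * X) := by
    rw [smul_inv'', show (τ • a)⁻¹ / a⁻¹ = (τ • a / a)⁻¹ by rw [inv_div, inv_div_inv], e1, map_inv₀]
    field_simp
    ring
  rw [e]
  have h1 : R.Red (1 + algebraMap K F ϖ * X) (1 + 0) :=
    R.add R.one (red_zero_of_mem hϖ hπϖ h)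
  rw [add_zero] at h1
  have h2 := RedDatum.div hπ (RedDatum.neg h) h1 one_ne_zero
  rwa [div_one] at h2

include hϖ0 hϖ hπϖ in
theorem DL.div (hπ : Function.Surjective π) {a b : F} (hb : b ≠ 0) {x y : Fk}
    (h : DL R τ ϖ a x) (h' : DL R τ ϖ b y) : DL R τ ϖ (a / b) (x - y) := by
  rw [div_eq_mul_inv, sub_eq_add_neg]
  exact DL.mul hϖ0 hϖ hπϖ h (DL.inv hϖ0 hϖ hπϖ hπ hb h')

theorem DL.one : DL R τ ϖ 1 0 := DL.fixed one_ne_zero (smul_one τ)

include hϖ0 hϖ hπϖ in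
theorem DL.pow {a : F} {x : Fk} (h : DL R τ ϖ a x) (n : ℕ) :
    DL R τ ϖ (a ^ n) (n * x) := by
  induction n with
  | zero => simpa using DL.one
  | succ n ih =>
    rw [pow_succ]
    have := DL.mul hϖ0 hϖ hπϖ ih h
    convert this using 1
    push_cast
    ring

include hϖ0 hϖ hπϖ in
/-- `p`-th powers have zero logarithmic derivative. -/
theorem DL.pow_char {p : ℕ} [CharP k p] {a : F} {x : Fk} (h : DL R τ ϖ a x) :
    DL R τ ϖ (a ^ p) 0 := by
  have h1 := DL.pow hϖ0 hϖ hπϖ h p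
  have h2 : ((p : ℕ) : Fk) = 0 := by
    rw [← map_natCast (algebraMap k Fk) p, CharP.cast_eq_zero, map_zero]
  rwa [h2, zero_mul] at h1

theorem DL.const {c : K} {e : K} {he : e ∈ A}
    (h : e = ϖ⁻¹ * (SemilinearAut.baseAut τ c / c - 1)) :
    DL R τ ϖ (algebraMap K F c) (algebraMap k Fk (π ⟨e, he⟩)) := by
  unfold DL
  have e1 : algebraMap K F ϖ⁻¹ * (τ • algebraMap K F c / algebraMap K F c - 1) =
      algebraMap K F e := by
    rw [SemilinearAut.smul_algebraMap, h, map_mul, map_sub, map_div₀, map_one]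
  rw [e1]
  exact R.const ⟨e, he⟩

/-- From the additive to the multiplicative form. -/
theorem DL.of_red (hπ : Function.Surjective π) {a : F} {u x : Fk} (h : R.Red a u) (hu : u ≠ 0)
    (h' : R.Red (algebraMap K F ϖ⁻¹ * (τ • a - a)) x) : DL R τ ϖ a (x / u) := by
  unfold DL
  have ha := RedDatum.ne_zero_of_red h hu
  have e : algebraMap K F ϖ⁻¹ * (τ • a / a - 1) = algebraMap K F ϖ⁻¹ * (τ • a - a) / a := by
    field_simp
  rw [e]
  exact RedDatum.div hπ h' h hu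

end DL

end Fermat.Agent.DR.AtP
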