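import Fermat.Agent.DR.AtP.Hilbert
import Fermat.Agent.JRED.ModularRedExists
import Fermat.Agent.DR.ModGal.Galois
import Fermat.Agent.DR.Mono.Coord

set_option autoImplicit false

/-!
# The wild estimate for the Gauss reductions

Every `f ∈ F_N(K)`, `K / ℚ` algebraic, has a denominator with rational coefficients
(`ratDen_of_mem`).  Hence for a set `H` of automorphisms of `K` and `τ`, `ϖ` such that
`(τ c - c) / ϖ` is integral for every integral `c ∈ K^H`:

* `gred_smul_sub`: if `f` is `H`-fixed and reduces to `u`, then `ϖ⁻¹ (τ f - f)` has a reduction;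
* `exists_fixed_normalize`: `f` can be normalised by an `H`-fixed constant.
-/

noncomputable section

open AlgebraicCurve ModularCurve IntermediateField Fermat.Agent.JRED

namespace Fermat.Agent.DR.AtP

section Clear

variable {K : Type*} [Field K] [Algebra ℚ K]

theorem fgCoeff_coeffEmb {h : LaurentSeries ℚ} (hh : FGCoeff h) : FGCoeff (coeffEmb K h) := by
  obtain ⟨M, hM, hh⟩ := hh
  refine ⟨M.map ((algebraMap ℚ K).toIntAlgHom.toLinearMap), hM.map _, fun n => ?_⟩
  exact ⟨h.coeff n, hh n, rfl⟩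

/-- `f` has a denominator with rational coefficients. -/
def RatDen (f : LaurentSeries K) : Prop :=
  ∃ h : LaurentSeries ℚ, h ≠ 0 ∧ FGCoeff h ∧ FGCoeff (f * coeffEmb K h)

theorem RatDen.of_fg {f : LaurentSeries K} (hf : FGCoeff f) : RatDen f :=
  ⟨1, one_ne_zero, by simpa using FGCoeff.const (1 : ℚ), by rwa [map_one, mul_one]⟩

theorem RatDen.add {f g : LaurentSeries K} (hf : RatDen f) (hg : RatDen g) : RatDen (f + g) := by
  obtain ⟨h, h0, hfg, h1⟩ := hf
  obtain ⟨h', h0', hfg', h1'⟩ := hg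
  refine ⟨h * h', mul_ne_zero h0 h0', hfg.mul hfg', ?_⟩
  have e : (f + g) * coeffEmb K (h * h') =
      f * coeffEmb K h * coeffEmb K h' + g * coeffEmb K h' * coeffEmb K h := by
    rw [map_mul]; ring
  rw [e]
  exact (h1.mul (fgCoeff_coeffEmb hfg')).add (h1'.mul (fgCoeff_coeffEmb hfg))

theorem RatDen.mul {f g : LaurentSeries K} (hf : RatDen f) (hg : RatDen g) : RatDen (f * g) := by
  obtain ⟨h, h0, hfg, h1⟩ := hf
  obtain ⟨h', h0', hfg', h1'⟩ := hg
  refine ⟨h * h', mul_ne_zero h0 h0', hfg.mul hfg', ?_⟩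
  have e : f * g * coeffEmb K (h * h') = f * coeffEmb K h * (g * coeffEmb K h') := by
    rw [map_mul]; ring
  rw [e]
  exact h1.mul h1'

theorem RatDen.neg {f : LaurentSeries K} (hf : RatDen f) : RatDen (-f) := by
  obtain ⟨h, h0, hfg, h1⟩ := hf
  exact ⟨h, h0, hfg, by rw [neg_mul]; exact h1.neg⟩

/-- Rational series which are fractions of series with finitely generated coefficient group. -/
theorem RatDen.of_rat {z : LaurentSeries ℚ} (hz : z ∈ fgField ℚ) : RatDen (coeffEmb K z) := by
  obtain ⟨a, b, ha, hb, hb0, h⟩ := mem_fgField_iff.mp hz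
  exact ⟨b, hb0, hb, by rw [← map_mul, h]; exact fgCoeff_coeffEmb ha⟩

variable (K) in
/-- the field of rational series -/
def ratField : Subfield (LaurentSeries K) := (fgField ℚ).map (coeffEmb K)

theorem ratDen_of_mem_ratField {x : LaurentSeries K} (hx : x ∈ ratField K) : RatDen x := by
  obtain ⟨z, hz, rfl⟩ := hx
  exact RatDen.of_rat hz

variable (K) in
/-- series with rational denominators, as an algebra over `ratField` -/
def ratDenAlg : Subalgebra (ratField K) (LaurentSeries K) where
  carrier := {f | RatDen f}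
  add_mem' := RatDen.add
  mul_mem' := RatDen.mul
  algebraMap_mem' x := ratDen_of_mem_ratField x.2

theorem RatDen.inv {f : LaurentSeries K} (hf : RatDen f) (halg : IsAlgebraic (ratField K) f) :
    RatDen f⁻¹ :=
  (ratDenAlg K).inv_mem_of_algebraic (x := ⟨f, hf⟩) halg

theorem mem_fgField_of_full {N : ℕ} {z : LaurentSeries ℚ} (hz : z ∈ modularFunctionFieldFull N) :
    z ∈ fgField ℚ := by
  have h1 := mem_fgField_of_mem (L := ℚ) N (coeffEmb_mem_laurentBaseChange ℚ hz)
  have h2 : coeffEmb ℚ z = z := by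
    ext n
    rfl
  rwa [h2] at h1

/-- **Rational denominators.** -/
theorem ratDen_of_mem [Algebra.IsAlgebraic ℚ K] {N : ℕ} {x : LaurentSeries K}
    (hx : x ∈ laurentBaseChange K (modularFunctionFieldFull N)) : RatDen x := by
  rw [mem_laurentBaseChange_iff] at hx
  suffices h : RatDen x ∧ IsAlgebraic (ratField K) x from h.1
  induction hx using Subfield.closure_induction with
  | mem y hy =>
    rcases hy with ⟨a, rfl⟩ | ⟨z, hz, rfl⟩
    · refine ⟨RatDen.of_fg (FGCoeff.const a), ?_⟩
      obtain ⟨P, hP0, hP⟩ := Algebra.IsAlgebraic.isAlgebraic (R := ℚ) a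
      let ι : ℚ →+* ratField K :=
        ((algebraMap K (LaurentSeries K)).comp (algebraMap ℚ K)).codRestrict (ratField K)
          (fun c => ⟨algebraMap ℚ (LaurentSeries ℚ) c, (FGCoeff.const c).mem_fgField,
            coeffEmb_algebraMap c⟩)
      refine ⟨P.map ι, ?_, ?_⟩
      · exact (Polynomial.map_ne_zero_iff ι.injective).mpr hP0
      · rw [Polynomial.aeval_def, Polynomial.eval₂_map]
        have h1 : ((algebraMap (ratField K) (LaurentSeries K)).comp ι) =
            (algebraMap K (LaurentSeries K)).comp (algebraMap ℚ K) := rfl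
        rw [h1, ← Polynomial.hom_eval₂, ← Polynomial.aeval_def, hP, map_zero]
    · have h1 := mem_fgField_of_full hz
      exact ⟨RatDen.of_rat h1, isAlgebraic_algebraMap (⟨coeffEmb K z, z, h1, rfl⟩ : ratField K)⟩
  | one => exact ⟨(ratDenAlg K).one_mem, isAlgebraic_one⟩
  | add x y _ _ hx hy => exact ⟨hx.1.add hy.1, hx.2.add hy.2⟩
  | neg x _ hx => exact ⟨hx.1.neg, hx.2.neg⟩
  | inv x _ hx => exact ⟨hx.1.inv hx.2, hx.2.inv⟩
  | mul x y _ _ hx hy => exact ⟨hx.1.mul hy.1, hx.2.mul hy.2⟩

end Clear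

section Gauss

variable {K k : Type*} [Field K] [Field k] {A : ValuationSubring K} {π : A →+* k}

/-- Gauss lemma: a series with finitely generated coefficient group which has a Gauss reduction
is integral. -/
theorem coeff_mem_of_gred (hπ : Function.Surjective π) {g : LaurentSeries K} (hg : FGCoeff g)
    {v : LaurentSeries k} (h : GRed π g v) (n : ℤ) : g.coeff n ∈ A := by
  rcases eq_or_ne g 0 with rfl | hg0
  · simp
  obtain ⟨c, a, hc, ha, hca⟩ := hg.exists_integral π hg0
  have hr : GRed π (algebraMap K (LaurentSeries K) c * g) (coeffMap π a) := by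
    rw [hca]; exact GRed.of_integral a
  have hcA : c⁻¹ ∈ A := by
    by_contra hcon
    obtain ⟨hi, h0⟩ := res_inv_eq_zero hπ hcon
    have hcA : c ∈ A := by rwa [inv_inv] at hi
    have h1 : GRed π (algebraMap K (LaurentSeries K) c) (algebraMap k (LaurentSeries k) 0) := by
      have h2 := GRed.const (π := π) ⟨c, hcA⟩
      have h3 : π ⟨c, hcA⟩ = 0 := by
        rw [← h0]
        congr 1
        exact Subtype.ext (inv_inv c).symm
      rwa [h3] at h2
    have h2 := h1.mul h
    rw [map_zero, zero_mul] at h2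
    exact ha (hr.unique h2)
  have e : g.coeff n = c⁻¹ * (algebraMap K (LaurentSeries K) c * g).coeff n := by
    rw [algebraMap_laurentSeries_eq_single, HahnSeries.coeff_single_zero_mul,
      inv_mul_cancel_left₀ hc]
  rw [e, hca, coeffMap_coeff]
  exact mul_mem hcA (a.coeff n).2

end Gauss

section Main

variable {K k : Type*} [Field K] [Algebra ℚ K] [Field k] {A : ValuationSubring K} {π : A →+* k}

/-- `f = g / h` with `h` integral, rational, of nonzero reduction, and `g` with finitely generated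
coefficient group. -/
theorem RatDen.exists_integral (π : A →+* k) {f : LaurentSeries K} (hf : RatDen f) :
    ∃ b : LaurentSeries A, coeffMap π b ≠ 0 ∧ FGCoeff (f * coeffMap A.subtype b) ∧
      ∀ σ : K ≃ₐ[ℚ] K, coeffMap (σ : K →+* K) (coeffMap A.subtype b) = coeffMap A.subtype b := by
  obtain ⟨h, h0, hfg, h1⟩ := hf
  -- normalise `h` by a rational constant
  have hinj : Function.Injective (coeffEmb K) := (coeffEmb K).injective
  obtain ⟨n₀, hn₀, hn⟩ := hfg.exists_scale (A.comap (algebraMap ℚ K)) h0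
  have hA : ∀ n, (coeffEmb K (algebraMap ℚ (LaurentSeries ℚ) (h.coeff n₀)⁻¹ * h)).coeff n ∈ A := by
    intro n
    have e : (algebraMap ℚ (LaurentSeries ℚ) (h.coeff n₀)⁻¹ * h).coeff n =
        h.coeff n / h.coeff n₀ := by
      rw [algebraMap_laurentSeries_eq_single, HahnSeries.coeff_single_zero_mul]
      field_simp
    rw [coeffEmb_coeff, e]
    exact hn n
  refine ⟨liftA A _ hA, ?_, ?_, ?_⟩
  · intro hb
    have h2 := congrArg (fun x => HahnSeries.coeff x n₀) hb
    simp only [coeffMap_coeff, HahnSeries.coeff_zero] at h2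
    have h3 : (liftA A _ hA).coeff n₀ = 1 := by
      apply Subtype.ext
      show (coeffEmb K (algebraMap ℚ (LaurentSeries ℚ) (h.coeff n₀)⁻¹ * h)).coeff n₀ = 1
      rw [coeffEmb_coeff, algebraMap_laurentSeries_eq_single, HahnSeries.coeff_single_zero_mul,
        inv_mul_cancel₀ hn₀, map_one]
    rw [h3, map_one] at h2
    exact one_ne_zero h2
  · rw [coeffMap_liftA, map_mul, coeffEmb_algebraMap]
    have e : f * (algebraMap K (LaurentSeries K) (algebraMap ℚ K (h.coeff n₀)⁻¹) *
        coeffEmb K h) = algebraMap K (LaurentSeries K) (algebraMap ℚ K (h.coeff n₀)⁻¹) *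
        (f * coeffEmb K h) := by ring
    rw [e]
    exact (FGCoeff.const _).mul h1
  · intro σ
    rw [coeffMap_liftA, coeffMap_coeffEmb]

/-- **The wild estimate.** -/
theorem gred_smul_sub (hπ : Function.Surjective π) {H : Set (K ≃ₐ[ℚ] K)} {τ : K ≃ₐ[ℚ] K} {ϖ : K}
    (hW : ∀ c ∈ A, (∀ σ ∈ H, σ c = c) → ϖ⁻¹ * (τ c - c) ∈ A) {f : LaurentSeries K}
    (hf : RatDen f) (hH : ∀ σ ∈ H, coeffMap (σ : K →+* K) f = f) {u : LaurentSeries k}
    (hu : GRed π f u) :
    ∃ ψ, GRed π (algebraMap K (LaurentSeries K) ϖ⁻¹ * (coeffMap (τ : K →+* K) f - f)) ψ := by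
  obtain ⟨b, hb, hg, hσ⟩ := hf.exists_integral π
  set h : LaurentSeries K := coeffMap A.subtype b with hh
  have hhr : GRed π h (coeffMap π b) := GRed.of_integral b
  have hgr : GRed π (f * h) (u * coeffMap π b) := hu.mul hhr
  have hgA := coeff_mem_of_gred hπ hg hgr
  -- the coefficients of `g` are fixed by `H`
  have hgH : ∀ n, ∀ σ ∈ H, σ ((f * h).coeff n) = (f * h).coeff n := by
    intro n σ hσH
    have h1 : coeffMap (σ : K →+* K) (f * h) = f * h := by rw [map_mul, hH σ hσH, hσ]
    have h2 := congrArg (fun x => HahnSeries.coeff x n) h1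
    simp only [coeffMap_coeff] at h2
    exact h2
  have hc : ∀ n, (algebraMap K (LaurentSeries K) ϖ⁻¹ *
      (coeffMap (τ : K →+* K) (f * h) - f * h)).coeff n ∈ A := by
    intro n
    rw [algebraMap_laurentSeries_eq_single, HahnSeries.coeff_single_zero_mul,
      HahnSeries.coeff_sub, coeffMap_coeff]
    exact hW _ (hgA n) (hgH n)
  have hb0 : coeffMap A.subtype b ≠ 0 := by
    intro h0
    have h1 := hhr
    rw [hh, h0] at h1
    exact hb (h1.unique GRed.zero)
  have h3 : GRed π (algebraMap K (LaurentSeries K) ϖ⁻¹ *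
      (coeffMap (τ : K →+* K) (f * h) - f * h)) (coeffMap π (liftA A _ hc)) := by
    have := GRed.of_integral (π := π) (liftA A _ hc)
    rwa [coeffMap_liftA] at this
  have h4 := h3.mul (hhr.inv hb)
  have e : algebraMap K (LaurentSeries K) ϖ⁻¹ *
      (coeffMap (τ : K →+* K) (f * h) - f * h) * h⁻¹ =
      algebraMap K (LaurentSeries K) ϖ⁻¹ * (coeffMap (τ : K →+* K) f - f) := by
    rw [map_mul, hσ, ← sub_mul, mul_assoc, mul_assoc, mul_inv_cancel₀ hb0, mul_one]
  rw [e] at h4
  exact ⟨_, h4⟩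

/-- Normalisation by a fixed constant. -/
theorem exists_fixed_normalize {H : Set (K ≃ₐ[ℚ] K)} {f : LaurentSeries K} (hf : RatDen f)
    (hf0 : f ≠ 0) (hH : ∀ σ ∈ H, coeffMap (σ : K →+* K) f = f) :
    ∃ c : K, c ≠ 0 ∧ (∀ σ ∈ H, σ c = c) ∧ ∃ u : LaurentSeries k, u ≠ 0 ∧
      GRed π (algebraMap K (LaurentSeries K) c * f) u := by
  obtain ⟨b, hb, hg, hσ⟩ := hf.exists_integral π
  set h : LaurentSeries K := coeffMap A.subtype b with hh
  have hhr : GRed π h (coeffMap π b) := GRed.of_integral b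
  have hb0 : coeffMap A.subtype b ≠ 0 := by
    intro h0
    have h1 := hhr
    rw [hh, h0] at h1
    exact hb (h1.unique GRed.zero)
  have hg0 : f * h ≠ 0 := mul_ne_zero hf0 hb0
  obtain ⟨n₀, hn₀, hn⟩ := hg.exists_scale A hg0
  have hgH : ∀ n, ∀ σ ∈ H, σ ((f * h).coeff n) = (f * h).coeff n := by
    intro n σ hσH
    have h1 : coeffMap (σ : K →+* K) (f * h) = f * h := by rw [map_mul, hH σ hσH, hσ]
    have h2 := congrArg (fun x => HahnSeries.coeff x n) h1
    simp only [coeffMap_coeff] at h2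
    exact h2
  have hc : ∀ n, (algebraMap K (LaurentSeries K) ((f * h).coeff n₀)⁻¹ * (f * h)).coeff n ∈ A := by
    intro n
    have e : (algebraMap K (LaurentSeries K) ((f * h).coeff n₀)⁻¹ * (f * h)).coeff n =
        (f * h).coeff n / (f * h).coeff n₀ := by
      rw [algebraMap_laurentSeries_eq_single, HahnSeries.coeff_single_zero_mul]
      field_simp
    rw [e]
    exact hn n
  have h3 : GRed π (algebraMap K (LaurentSeries K) ((f * h).coeff n₀)⁻¹ * (f * h))
      (coeffMap π (liftA A _ hc)) := by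
    have := GRed.of_integral (π := π) (liftA A _ hc)
    rwa [coeffMap_liftA] at this
  have h0 : coeffMap π (liftA A _ hc) ≠ 0 := by
    intro h0
    have h2 := congrArg (fun x => HahnSeries.coeff x n₀) h0
    simp only [coeffMap_coeff, HahnSeries.coeff_zero] at h2
    have h3 : (liftA A _ hc).coeff n₀ = 1 := by
      apply Subtype.ext
      show (algebraMap K (LaurentSeries K) ((f * h).coeff n₀)⁻¹ * (f * h)).coeff n₀ = 1
      rw [algebraMap_laurentSeries_eq_single, HahnSeries.coeff_single_zero_mul,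
        inv_mul_cancel₀ hn₀]
    rw [h3, map_one] at h2
    exact one_ne_zero h2
  refine ⟨((f * h).coeff n₀)⁻¹, inv_ne_zero hn₀, fun σ hσH => by rw [map_inv₀, hgH _ σ hσH],
    _, mul_ne_zero h0 (inv_ne_zero hb), ?_⟩
  have h4 := h3.mul (hhr.inv hb)
  have e : algebraMap K (LaurentSeries K) ((f * h).coeff n₀)⁻¹ * (f * h) * h⁻¹ =
      algebraMap K (LaurentSeries K) ((f * h).coeff n₀)⁻¹ * f := by
    rw [mul_assoc, mul_assoc, mul_inv_cancel₀ hb0, mul_one]
  rw [e] at h4
  exact h4

end Main

end Fermat.Agent.DR.AtP
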