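import Fermat.Agent.DR.AtP.WildConst
import Fermat.Agent.DR.AtP.WildMod
import Fermat.Agent.DR.Mod.SepMod

set_option autoImplicit false
set_option linter.unusedSectionVars false

/-!
# DR / AtP: the monodromy formula at `p` for `X₀(Mp)`
-/

noncomputable section

open AlgebraicCurve Fermat.Agent.RR Fermat.Agent.JRED ModularCurve IntermediateField
open Fermat.Agent.DR.Mono Fermat.Agent.Jan.HeckeNorm Fermat.Agent.Jan.HeckeInputs
  Fermat.Agent.DR.Mod2 Fermat.Agent.DR.Nodes Fermat.Agent.DR.S36.Unit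
  Fermat.Agent.JRED.ESGalois Fermat.Agent.JRED.ESSemi Fermat.Agent.JAN.AnFun
  Fermat.Agent.Q2.Ord Fermat.Agent.DR.S36.L Fermat.Agent.DR.Mod

namespace Fermat.Agent.DR.AtP

local notation "Qb" => AlgebraicClosure ℚ
local notation "Γℚ" => (AlgebraicClosure ℚ ≃ₐ[ℚ] AlgebraicClosure ℚ)

/-- the stabiliser of `μ` in inertia, as a subgroup -/
def wildHs (A : ValuationSubring Qb) (μ : Qb) : Subgroup Γℚ :=
  A.inertiaSubgroupIn ℚ ⊓ MulAction.stabilizer Γℚ μ

theorem mem_wildHs {A : ValuationSubring Qb} {μ : Qb} {σ : Γℚ} :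
    σ ∈ wildHs A μ ↔ σ ∈ A.inertiaSubgroupIn ℚ ∧ σ μ = μ := Iff.rfl

section Modular

variable {A : ValuationSubring (AlgebraicClosure ℚ)} {k : Type} [Field k] {π : A →+* k}
  {M p : ℕ} [NeZero M] [hp : Fact p.Prime] [IsAlgClosed k] [hchar : CharP k p]
  {w : laurentBaseChange (AlgebraicClosure ℚ) (modularFunctionFieldFull (M * p)) ≃ₐ[AlgebraicClosure ℚ]
      laurentBaseChange (AlgebraicClosure ℚ) (modularFunctionFieldFull (M * p))}
  [FunctionField (AlgebraicClosure ℚ) (modularFunctionFieldBar (M * p))]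
  [FunctionField (AlgebraicClosure ℚ) (modularFunctionFieldBar M)]
  [FunctionField k (modularFunctionFieldFullC k M)]
  {r : Place (AlgebraicClosure ℚ) (modularFunctionFieldBar M) →
    Place k (modularFunctionFieldFullC k M)}
  (S : Setup π w) (hpM : ¬ p ∣ M) (hdeg : DegreeInput M k)
  (hgood : GoodReduction M k) (hr : PlaceRed (hdeg.redDatum S.surj) r)
  (hA : A.LiesOverPrime p) {ζ μ v' : Qb} (hP : Peu A p ζ μ v')
  {τ : Γℚ} (hτ : τ ∈ A.inertiaSubgroupIn ℚ) (hτμ : τ μ = ζ * μ)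

omit [IsAlgClosed k] [FunctionField (AlgebraicClosure ℚ) (modularFunctionFieldBar (M * p))]
  [FunctionField (AlgebraicClosure ℚ) (modularFunctionFieldBar M)]
  [FunctionField k (modularFunctionFieldFullC k M)] in
theorem charP_expChar : ExpChar k p := ExpChar.prime hp.out

/-- **The wild data of `X₀(Mp)` at `p`.** -/
def wildInst : Wild (redOne S) (redTwo S) p :=
  haveI : ExpChar k p := ExpChar.prime hp.out
  { H := (wildHs A μ).map (arithmeticGalois (modularFunctionFieldFull (M * p)))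
    τ := arithmeticGalois (modularFunctionFieldFull (M * p)) τ
    ϖ := ζ - 1
    ε := hP.eps π
    ϖ_ne := hP.varpi_ne hp.out
    ϖ_mem := hP.varpi_mem hp.out
    ϖ_res := hP.varpi_res hp.out hA S.surj
    p_ne := by exact_mod_cast hp.out.ne_zero
    ε_ne := hP.eps_ne S.surj
    inertia_τ := inertiaAut_modular S hτ
    inertia_H := by
      rintro _ ⟨σ, hσ, rfl⟩
      exact inertiaAut_modular S hσ.1
    hW₁ := fun a ha u hu => redOne_smul_sub S
      (wild_hW hp.out hA hP.zeta hP.mu hP.val hP.fix hτ)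
      (fun σ hσ => ha _ ⟨σ, ⟨hσ.1, hσ.2⟩, rfl⟩) hu
    hW₂ := fun a ha u hu => redTwo_smul_sub S hp.out
      (wild_hW hp.out hA hP.zeta hP.mu hP.val hP.fix hτ)
      (fun σ hσ => ha _ ⟨σ, ⟨hσ.1, hσ.2⟩, rfl⟩) hu
    hN := fun b hb hbH => hP.constN hp.out hA S.surj hτ hτμ hb
      (fun σ hσ hσμ => hbH _ ⟨σ, ⟨hσ, hσμ⟩, rfl⟩) }

theorem wildInst_fix {f : modularFunctionFieldBar (M * p)}
    (hf : ∀ σ ∈ A.inertiaSubgroupIn ℚ, σ μ = μ →
      arithmeticGalois (modularFunctionFieldFull (M * p)) σ • f = f) :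
    (wildInst S hA hP hτ hτμ).Fix f := by
  rintro _ ⟨σ, hσ, rfl⟩
  exact hf σ hσ.1 hσ.2

theorem wildInst_fix_of_mem (L : Type) [Field L] [Algebra L (AlgebraicClosure ℚ)]
    [IsInertiaField A L] {f : modularFunctionFieldBar (M * p)} (hf : f ∈ F0 L (M * p)) :
    (wildInst S hA hP hτ hτμ).Fix f :=
  wildInst_fix S hA hP hτ hτμ fun σ hσ _ => (mem_F0_iff (A := A)).mp hf σ hσ

theorem wildInst_stable (s : Place k (modularFunctionFieldFullC k M)) :
    (wildInst S hA hP hτ hτμ).Stable ((modMono S hpM hdeg hgood hr).Ann s) where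
  τ_inv P hP' := by
    have h1 : ((arithmeticGalois (modularFunctionFieldFull (M * p)) τ)⁻¹ • P) =
        arithmeticGalois (modularFunctionFieldFull (M * p)) τ⁻¹ • P := by rw [map_inv]
    change ((arithmeticGalois (modularFunctionFieldFull (M * p)) τ)⁻¹ • P) ∈ _
    rw [h1]
    exact (mem_Ann_smul_inertia S hpM hdeg hgood hr (Subgroup.inv_mem _ hτ)).mpr hP'
  H := by
    rintro _ ⟨σ, hσ, rfl⟩ P hP'
    exact (mem_Ann_smul_inertia S hpM hdeg hgood hr hσ.1).mpr hP'

theorem wildInst_nodeFix (L : Type) [Field L] [Algebra L (AlgebraicClosure ℚ)]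
    [IsInertiaField A L] {s : Place k (modularFunctionFieldFullC k M)}
    {N : Node (redOne S) (redTwo S) p} (hN : N.toPlacePair = (modMono S hpM hdeg hgood hr).pair s)
    {C : Coord N.toPlacePair (p : Qb)} (hC : C.y ∈ F0 L (M * p)) :
    (wildInst S hA hP hτ hτμ).NodeFix N C where
  stable := by rw [hN]; exact wildInst_stable S hpM hdeg hgood hr hA hP hτ hτμ s
  yτ := (mem_F0_iff (A := A)).mp hC τ hτ
  yH := wildInst_fix_of_mem S hA hP hτ hτμ L hC

theorem wildInst_sepFix (L : Type) [Field L] [Algebra L (AlgebraicClosure ℚ)]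
    [IsInertiaField A L] {s : Place k (modularFunctionFieldFullC k M)}
    {N : SepF (redOne S) (redTwo S) (F0 L (M * p))}
    (hN : N.toPlacePair = (modMono S hpM hdeg hgood hr).pair s) :
    (wildInst S hA hP hτ hτμ).SepFix N.toSep where
  stable := by rw [hN]; exact wildInst_stable S hpM hdeg hgood hr hA hP hτ hτμ s
  e := wildInst_fix_of_mem S hA hP hτ hτμ L N.e_mem
  e' := wildInst_fix_of_mem S hA hP hτ hτμ L N.e'_mem
  z := wildInst_fix_of_mem S hA hP hτ hτμ L N.z_mem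
  z' := wildInst_fix_of_mem S hA hP hτ hτμ L N.z'_mem

/-- Every place of `F̄_M` gives a node or a separated pair. -/
theorem wildInst_cover_aux (L : Type) [Field L] [Algebra L (AlgebraicClosure ℚ)]
    [IsInertiaField A L] (s : Place k (modularFunctionFieldFullC k M)) :
    (∃ (N : Node (redOne S) (redTwo S) p) (C : Coord N.toPlacePair (p : Qb)),
      N.toPlacePair = (modMono S hpM hdeg hgood hr).pair s ∧
        (wildInst S hA hP hτ hτμ).NodeFix N C) ∨
    ∃ N : Sep (redOne S) (redTwo S), N.toPlacePair = (modMono S hpM hdeg hgood hr).pair s ∧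
        (wildInst S hA hP hτ hτμ).SepFix N := by
  by_cases hs : jRed k M ∈ s.toValuationSubring ∧ 0 < s.ord (ssj k p M)
  · left
    obtain ⟨C, hC, -⟩ := exists_modCoord S hpM hdeg hgood hr hA L hs.1 hs.2
    exact ⟨(modNodeData S hpM hdeg hgood hr hA L hs.1 hs.2).toNode, C, rfl,
      wildInst_nodeFix S hpM hdeg hgood hr hA hP hτ hτμ L rfl hC⟩
  · right
    obtain ⟨N, hN⟩ := exists_sepF S hpM hdeg hgood hr hA L hs
    exact ⟨N.toSep, hN, wildInst_sepFix S hpM hdeg hgood hr hA hP hτ hτμ L hN⟩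

include hpM hdeg hgood hr in
theorem wildInst_cover (L : Type) [Field L] [Algebra L (AlgebraicClosure ℚ)]
    [IsInertiaField A L] : (wildInst S hA hP hτ hτμ).Cover where
  cov₁ P := by
    rcases wildInst_cover_aux S hpM hdeg hgood hr hA hP hτ hτμ L P with
      ⟨N, C, hN, hN'⟩ | ⟨N, hN, hN'⟩
    · exact Or.inl ⟨N, C, by rw [hN]; rfl, hN'⟩
    · exact Or.inr ⟨N, by rw [hN]; rfl, hN'⟩
  cov₂ P := by
    have key : ((modMono S hpM hdeg hgood hr).pair (frobSemi k M p • P)).s₂ = P :=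
      inv_smul_smul (frobSemi k M p) P
    rcases wildInst_cover_aux S hpM hdeg hgood hr hA hP hτ hτμ L (frobSemi k M p • P) with
      ⟨N, C, hN, hN'⟩ | ⟨N, hN, hN'⟩
    · exact Or.inl ⟨N, C, by rw [hN]; exact key, hN'⟩
    · exact Or.inr ⟨N, by rw [hN]; exact key, hN'⟩

include hpM hdeg hgood hr hA hP in
/-- **The monodromy formula at `p` for `X₀(Mp)`** (peu ramifiee case). -/
theorem monoP {f : modularFunctionFieldBar (M * p)} (hf : f ≠ 0)
    (hfix : ∀ σ ∈ A.inertiaSubgroupIn ℚ, σ μ = μ →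
      arithmeticGalois (modularFunctionFieldFull (M * p)) σ • f = f)
    (hdiv : ∀ P : Place Qb (modularFunctionFieldBar (M * p)), (p : ℤ) ∣ P.ord f)
    {s t : Place k (modularFunctionFieldFullC k M)}
    (hs : jRed k M ∈ s.toValuationSubring) (hs' : 0 < s.ord (ssj k p M))
    (ht : jRed k M ∈ t.toValuationSubring) (ht' : 0 < t.ord (ssj k p M))
    {ws wt : ℤ} (hws : s.ord (ssj k p M) * ws = 12) (hwt : t.ord (ssj k p M) * wt = 12) :
    (p : ℤ) ∣ ws * o (redOne S) s f - wt * o (redOne S) t f := by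
  have hexp : ExpChar k p := ExpChar.prime hp.out
  have hFF : Fermat.FF.IsFF1 Qb (modularFunctionFieldBar (M * p)) :=
    Descent.isFF1_of_functionField (K := Qb) (F := modularFunctionFieldBar (M * p))
  have I := inertialAction A hp.out hA
  obtain ⟨⟨τ, hτ⟩, hτμ⟩ := I.exists_smul_mu hP.zeta hP.mu hP.val (fun σ => hP.fix σ.1 σ.2) 1
  have hτμ' : τ μ = ζ * μ := by
    have : τ μ = ζ ^ 1 * μ := hτμ
    rwa [pow_one] at this
  set W := wildInst S hA hP hτ hτμ' with hW
  have hfH : W.Fix f := wildInst_fix S hA hP hτ hτμ' hfix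
  -- normalise
  obtain ⟨c, hc, hcH, u, hu, hcu⟩ := redOne_fixed_normalize S (H := wildH A μ) hf
    (fun σ hσ => hfix σ hσ.1 hσ.2)
  have hcF : algebraMap Qb (modularFunctionFieldBar (M * p)) c ≠ 0 :=
    (_root_.map_ne_zero _).mpr hc
  have hcfix : W.Fix (algebraMap Qb (modularFunctionFieldBar (M * p)) c) := by
    rintro _ ⟨σ, hσ, rfl⟩
    rw [SemilinearAut.smul_algebraMap]
    exact congrArg _ (hcH σ ⟨hσ.1, hσ.2⟩)
  have hmem : (p : Qb) ∈ A := natCast_mem A p
  have hres : π ⟨(p : Qb), hmem⟩ = 0 :=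
    (map_natCast π p).trans (map_natCast_eq_zero π hA S.surj)
  obtain ⟨Cs, hCs, hws'⟩ := exists_modCoord S hpM hdeg hgood hr hA (K0 A) hs hs'
  obtain ⟨Ct, hCt, hwt'⟩ := exists_modCoord S hpM hdeg hgood hr hA (K0 A) ht ht'
  have hmain := W.mono S.surj (arch_modular hA S.surj) hmem hres
    (wildInst_cover S hpM hdeg hgood hr hA hP hτ hτμ' (K0 A))
    (Ns := (modNodeData S hpM hdeg hgood hr hA (K0 A) hs hs').toNode)
    (Nt := (modNodeData S hpM hdeg hgood hr hA (K0 A) ht ht').toNode)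
    (Cs := Cs) (Ct := Ct)
    (wildInst_nodeFix S hpM hdeg hgood hr hA hP hτ hτμ' (K0 A) rfl hCs)
    (wildInst_nodeFix S hpM hdeg hgood hr hA hP hτ hτμ' (K0 A) rfl hCt)
    (mul_ne_zero hcF hf) (hcfix.mul hfH)
    (fun P => by rw [P.ord_mul hcF hf, Fermat.FF.ord_algebraMap, zero_add]; exact hdiv P)
    hcu hu
  have e1 : ws = Cs.w := mul_left_cancel₀ hs'.ne' (hws.trans hws'.symm)
  have e2 : wt = Ct.w := mul_left_cancel₀ ht'.ne' (hwt.trans hwt'.symm)
  have e3 : o (redOne S) s (algebraMap Qb (modularFunctionFieldBar (M * p)) c * f) =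
      o (redOne S) s f := o_smul s S.surj hc f
  have e4 : o (redOne S) t (algebraMap Qb (modularFunctionFieldBar (M * p)) c * f) =
      o (redOne S) t f := o_smul t S.surj hc f
  rw [e1, e2, ← e3, ← e4]
  exact hmain

end Modular

end Fermat.Agent.DR.AtP
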