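import Fermat.Agent.DR.AtP.Wild

set_option autoImplicit false
set_option linter.unusedSectionVars false

/-!
# DR / AtP: wild monodromy at a node
-/

noncomputable section

open AlgebraicCurve Fermat.Agent.JRED Fermat.Agent.RR Fermat.Agent.DR.Mono

namespace Fermat.Agent.DR.AtP

variable {K F k F₁ F₂ : Type*} [Field K] [Field F] [Algebra K F] [Field k] [Field F₁] [Field F₂]
  [Algebra k F₁] [Algebra k F₂] {A : ValuationSubring K} {π : A →+* k}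
  [HasPrincipalDivisors K F]
  {R₁ : RedDatum K F k F₁ A π} {R₂ : RedDatum K F k F₂ A π}

/-- A set of places stable under `τ` and `H`. -/
structure Wild.Stable {p : ℕ} (W : Wild R₁ R₂ p) (S : Set (Place K F)) : Prop where
  τ_inv : ∀ P ∈ S, W.τ⁻¹ • P ∈ S
  H : ∀ h ∈ W.H, ∀ P ∈ S, h • P ∈ S

/-- A unit of `A` as a multiplier. -/
theorem red_unit_mul {Fk : Type*} [Field Fk] [Algebra k Fk] {R : RedDatum K F k Fk A π}
    {c : K} (hc : c ∈ A) (hc0 : π ⟨c, hc⟩ ≠ 0) {w : F} {u : Fk} (h : R.Red w u) (hu : u ≠ 0) :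
    ∃ u', u' ≠ 0 ∧ R.Red (algebraMap K F c * w) u' :=
  ⟨_, mul_ne_zero (by simpa using hc0) hu, R.mul (R.const ⟨c, hc⟩) h⟩

theorem unit_inv {c : K} (hπ : Function.Surjective π) (hc : c ∈ A) (hc0 : π ⟨c, hc⟩ ≠ 0) :
    ∃ h : c⁻¹ ∈ A, π ⟨c⁻¹, h⟩ ≠ 0 := by
  obtain ⟨h, e⟩ := unit_div hc hc0 A.one_mem hπ
  have e1 : (1 : K) / c = c⁻¹ := one_div c
  refine ⟨e1 ▸ h, ?_⟩
  have : (⟨c⁻¹, e1 ▸ h⟩ : A) = ⟨1 / c, h⟩ := Subtype.ext e1.symm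
  rw [this, e]
  refine div_ne_zero ?_ hc0
  rw [show (⟨1, A.one_mem⟩ : A) = 1 from rfl, map_one]
  exact one_ne_zero

theorem unit_mul {c d : K} (hc : c ∈ A) (hc0 : π ⟨c, hc⟩ ≠ 0) (hd : d ∈ A)
    (hd0 : π ⟨d, hd⟩ ≠ 0) : ∃ h : c * d ∈ A, π ⟨c * d, h⟩ ≠ 0 := by
  refine ⟨mul_mem hc hd, ?_⟩
  have : (⟨c * d, mul_mem hc hd⟩ : A) = ⟨c, hc⟩ * ⟨d, hd⟩ := rfl
  rw [this, map_mul]
  exact mul_ne_zero hc0 hd0

section NodeThm

variable [IsAlgClosed K] [Fermat.FF.IsFF1 K F] [IsAlgClosed k] {p : ℕ} [hp : Fact p.Prime]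
  [CharP k p] [Fermat.FF.IsFF1 k F₁] [Fermat.FF.IsFF1 k F₂]

/-- **Wild monodromy at a node.** -/
theorem Wild.node (W : Wild R₁ R₂ p) (hπ : Function.Surjective π) (hA : Arch π)
    (hpA : (p : K) ∈ A) (hp0 : π ⟨p, hpA⟩ = 0)
    {N : Node R₁ R₂ p} (C : Coord N.toPlacePair (p : K)) (hS : W.Stable N.Ann)
    (hyτ : W.τ • C.y = C.y) (hyH : W.Fix C.y)
    {f : F} (hf : f ≠ 0) (hfH : W.Fix f) (hdiv : ∀ P ∈ N.Ann, (p : ℤ) ∣ P.ord f)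
    {u₁ : F₁} (h1 : R₁.Red f u₁) (hu₁ : u₁ ≠ 0) :
    ∃ n j : ℤ, (∃ u₂, u₂ ≠ 0 ∧ R₂.Red (algebraMap K F ((p : K) ^ (-j)) * f) u₂) ∧
      (p : ℤ) ∣ j - n - C.w * o R₁ N.s₁ f ∧
      ∀ φ₁ φ₂, DL R₁ W.τ W.ϖ f φ₁ → DL R₂ W.τ W.ϖ f φ₂ →
        ∃ c, Val N.s₁ φ₁ c ∧ Val N.s₂ φ₂ (c + n * W.ε) := by
  classical
  set T := supp N.Ann f with hTdef
  have hT : ∀ P ∈ T, P ∈ N.Ann := fun P hP => (mem_supp.mp hP).2
  set D : Place K F → ℤ := dv p f with hDdef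
  have hD : ∀ P ∈ N.Ann, P.ord f = (p : ℤ) * D P := fun P hP => dv_spec (hdiv P hP)
  have hT' : ∀ P ∈ N.Ann, P ∉ T → D P = 0 := fun P hP hPT => dv_eq_zero hP hPT
  have hpK := W.p_ne
  have hsp := fun P (hP : P ∈ T) =>
    C.value_spec hπ hpA hp0 hpK (hT P hP) (C.v_spec N (hT P hP))
  obtain ⟨c₂, hc2, u₂, hu2, h2⟩ := R₂.normalize f hf
  obtain ⟨hs, hs0⟩ := C.slope N hπ hA hpA hp0 hpK hf (p : ℤ) D hD hT hT' (c₁ := 1)
    (by rw [map_one, one_mul]; exact h1) hu₁ h2 hu2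
  set b := C.b N T D with hb
  have hb0 : b ≠ 0 := C.b_ne_zero N hπ hpA hp0 hpK hT D
  set m : ℤ := o R₁ N.s₁ f - (p : ℤ) * ∑ P ∈ T, D P with hm
  -- stability
  have hTH : ∀ h ∈ W.H, ∀ P ∈ T, h • P ∈ T := fun h hh P hP =>
    smul_mem_supp (hS.H h hh) (hfH h hh) hP
  have hvH : ∀ h ∈ W.H, ∀ P ∈ T, SemilinearAut.baseAut h (C.v N P) = C.v N (h • P) := by
    intro h hh P hP
    have h3 := (C.v_spec N (hT P hP)).smul (g := h)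
    rw [hyH h hh] at h3
    exact h3.unique (C.v_spec N (hS.H h hh P (hT P hP)))
  have hbH : ∀ h ∈ W.H, SemilinearAut.baseAut h b = b := by
    intro h hh
    rw [hb, Coord.b]
    refine baseAut_prod_eq (hTH h hh) (w := fun P => (C.v N P) ^ D P) fun P hP => ?_
    rw [map_zpow₀, hvH h hh P hP, hDdef, dv_smul (hfH h hh)]
  -- the product of local parameters
  set ν : F := ∏ P ∈ T, (C.y - algebraMap K F (C.v N P)) ^ D P with hν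
  have hfac : ∀ P ∈ T, C.y - algebraMap K F (C.v N P) ≠ 0 := fun P hP =>
    Fermat.FF.ne_zero_of_ord_ne_zero P (by rw [(hsp P hP).2.2.2.1]; exact one_ne_zero)
  have hν0 : ν ≠ 0 := Finset.prod_ne_zero_iff.mpr fun P hP => zpow_ne_zero _ (hfac P hP)
  have hνH : W.Fix ν := by
    intro h hh
    refine smul_prod_eq (hTH h hh)
      (w := fun P => (C.y - algebraMap K F (C.v N P)) ^ D P) fun P hP => ?_
    rw [smul_zpow₀', smul_sub, hyH h hh, SemilinearAut.smul_algebraMap, hvH h hh P hP, hDdef,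
      dv_smul (hfH h hh)]
  have hνord : ∀ Q ∈ N.Ann, Q.ord ν = D Q := fun Q hQ =>
    ord_prod_local hT (fun P hP => (hsp P hP).2.2.2.1)
      (fun P hP Q hQ hPQ => (hsp P hP).2.2.2.2 Q hQ hPQ) hT' hQ
  have hν1 : R₁.Red ν (C.y₁ ^ (∑ P ∈ T, D P)) := by
    have h3 : R₁.Red ν (∏ P ∈ T, C.y₁ ^ (D P)) :=
      red_prod T fun P hP => red_zpow hπ (hsp P hP).2.1 C.y₁_ne _
    rwa [prod_zpow_const C.y₁_ne] at h3
  have hν2 : R₂.Red (algebraMap K F b⁻¹ * ν) ((-1) ^ (∑ P ∈ T, D P)) := by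
    have h3 : R₂.Red (∏ P ∈ T, (algebraMap K F (C.v N P)⁻¹ *
        (C.y - algebraMap K F (C.v N P))) ^ (D P)) (∏ P ∈ T, (-1 : F₂) ^ (D P)) :=
      red_prod T fun P hP => red_zpow hπ (hsp P hP).2.2.1 (by simp) _
    rw [prod_zpow_const (by simp)] at h3
    have h4 : ∏ P ∈ T, (algebraMap K F (C.v N P)⁻¹ *
        (C.y - algebraMap K F (C.v N P))) ^ (D P) = algebraMap K F b⁻¹ * ν := by
      rw [hν, hb, Coord.b, Finset.prod_congr rfl fun P _ => mul_zpow _ _ _,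
        Finset.prod_mul_distrib, ← Finset.prod_inv_distrib, map_prod]
      congr 1
      refine Finset.prod_congr rfl fun P _ => ?_
      rw [← map_zpow₀, inv_zpow]
    rwa [h4] at h3
  have hbF : algebraMap K F b ≠ 0 := (_root_.map_ne_zero _).mpr hb0
  have hy1 : C.y₁ ^ (∑ P ∈ T, D P) ≠ 0 := zpow_ne_zero _ C.y₁_ne
  have hm1 : ((-1 : F₂)) ^ (∑ P ∈ T, D P) ≠ 0 := zpow_ne_zero _ (by simp)
  -- the arithmetic of `b`
  obtain ⟨n, ⟨hnA, hn0⟩, ⟨hnA', hnv⟩⟩ := W.hN b hb0 hbH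
  set j : ℤ := n + C.w * m with hj
  -- `c₂ p^j` is a unit
  have hunit : ∃ h : c₂ * (p : K) ^ j ∈ A, π ⟨_, h⟩ ≠ 0 := by
    obtain ⟨h3, h3'⟩ := unit_inv hπ hnA hn0
    obtain ⟨h4, h4'⟩ := unit_mul hs hs0 h3 h3'
    have e1 : c₂ / 1 * b ^ (p : ℤ) * (p : K) ^ (C.w * m) * (b ^ p * (p : K) ^ (-n))⁻¹ =
        c₂ * (p : K) ^ j := by
      rw [hj, zpow_add₀ hpK, zpow_neg, zpow_natCast]
      have := zpow_ne_zero n hpK
      have hbp := pow_ne_zero p hb0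
      field_simp
    rw [e1] at h4
    exact ⟨h4, by
      have : (⟨_, h4⟩ : A) = ⟨_, mul_mem hs h3⟩ := Subtype.ext e1.symm
      rw [this]; exact h4'⟩
  obtain ⟨huA, hu0⟩ := hunit
  obtain ⟨huiA, hui0⟩ := unit_inv hπ huA hu0
  obtain ⟨u₂', hu2', h2'⟩ := red_unit_mul huiA hui0 h2 hu2
  have e2 : algebraMap K F (c₂ * (p : K) ^ j)⁻¹ * (algebraMap K F c₂ * f) =
      algebraMap K F ((p : K) ^ (-j)) * f := by
    rw [← mul_assoc, ← map_mul, zpow_neg]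
    congr 2
    have := zpow_ne_zero j hpK
    field_simp
  rw [e2] at h2'
  refine ⟨n, j, ⟨u₂', hu2', h2'⟩, ?_, ?_⟩
  · rw [hj, hm]
    refine ⟨-(C.w * ∑ P ∈ T, D P), ?_⟩
    ring
  intro φ₁ φ₂ hφ1 hφ2
  -- the invertible part
  have hyF : C.y ≠ 0 := C.inv.1
  set U : F := f / ν ^ p * C.y ^ (-m) with hU
  have hνp : ν ^ p ≠ 0 := pow_ne_zero p hν0
  have hUH : W.Fix U := (hfH.div (hνH.pow p)).mul (Wild.Fix.zpow hyH _)
  have hUinv : Inv N.Ann U := by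
    refine Inv.mul ⟨div_ne_zero hf hνp, ?_⟩ (C.inv.zpow _)
    intro Q hQ
    rw [div_eq_mul_inv, Q.ord_mul hf (inv_ne_zero hνp), Q.ord_inv, Fermat.FF.ord_pow, hνord Q hQ,
      hD Q hQ]
    ring
  have hU1 : R₁.Red U (u₁ / (C.y₁ ^ (∑ P ∈ T, D P)) ^ p * C.y₁ ^ (-m)) :=
    R₁.mul (RedDatum.div hπ h1 (RedDatum.pow hν1 p) (pow_ne_zero p hy1))
      (red_zpow hπ C.red₁ C.y₁_ne _)
  have hU1ne : u₁ / (C.y₁ ^ (∑ P ∈ T, D P)) ^ p * C.y₁ ^ (-m) ≠ 0 :=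
    mul_ne_zero (div_ne_zero hu₁ (pow_ne_zero p hy1)) (zpow_ne_zero _ C.y₁_ne)
  have hUred2 : ∃ u, u ≠ 0 ∧ R₂.Red U u := by
    have h3 := R₂.mul (RedDatum.div hπ h2' (RedDatum.pow hν2 p) (pow_ne_zero p hm1))
      (red_zpow hπ C.red₂ C.y₂_ne (-m))
    have hne : u₂' / ((-1 : F₂) ^ (∑ P ∈ T, D P)) ^ p * C.y₂ ^ (-m) ≠ 0 :=
      mul_ne_zero (div_ne_zero hu2' (pow_ne_zero p hm1)) (zpow_ne_zero _ C.y₂_ne)
    obtain ⟨h4, h4'⟩ := unit_inv hπ hnA hn0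
    obtain ⟨u, hu, h5⟩ := red_unit_mul h4 h4' h3 hne
    refine ⟨u, hu, ?_⟩
    have e3 : algebraMap K F (b ^ p * (p : K) ^ (-n))⁻¹ *
        (algebraMap K F ((p : K) ^ (-j)) * f / (algebraMap K F b⁻¹ * ν) ^ p *
          (algebraMap K F ((p : K) ^ (C.w : ℤ))⁻¹ * C.y) ^ (-m)) = U := by
      have hpF : algebraMap K F (p : K) ≠ 0 := (_root_.map_ne_zero _).mpr hpK
      rw [hU, hj, mul_zpow, mul_pow, map_inv₀, map_mul, map_inv₀, map_inv₀, map_pow, map_zpow₀,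
        map_zpow₀, map_zpow₀, inv_zpow, zpow_neg, zpow_neg _ (n + C.w * m), zpow_add₀ hpF,
        zpow_neg _ m, zpow_neg _ m, inv_inv, ← zpow_mul, inv_pow]
      have h6 := zpow_ne_zero n hpF
      have h7 := zpow_ne_zero ((C.w : ℤ) * m) hpF
      have h8 := zpow_ne_zero m hyF
      field_simp
    rwa [e3] at h5
  obtain ⟨v₂, hv2, hU2⟩ := hUred2
  obtain ⟨ψ₁, hψ1⟩ := W.exists_DL₁ hπ hUH hU1 hU1ne
  obtain ⟨ψ₂, hψ2⟩ := W.exists_DL₂ hπ hUH hU2 hv2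
  obtain ⟨c, hc1, hc2⟩ := N.regs hπ hA hψ1 hψ2 (W.pf_DL hS.τ_inv hUinv)
  have hyfix : W.τ • C.y ^ m = C.y ^ m := by rw [smul_zpow₀', hyτ]
  have hyDL1 : DL R₁ W.τ W.ϖ (C.y ^ m) 0 := DL.fixed (zpow_ne_zero _ hyF) hyfix
  have hyDL2 : DL R₂ W.τ W.ϖ (C.y ^ m) 0 := DL.fixed (zpow_ne_zero _ hyF) hyfix
  have hfU : f = ν ^ p * U * C.y ^ m := by
    rw [hU, zpow_neg]
    have h8 := zpow_ne_zero m hyF
    field_simp
  refine ⟨c, ?_, ?_⟩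
  · -- first component
    obtain ⟨x, hx⟩ := W.exists_DL₁ hπ hνH hν1 hy1
    have h3 := DL.pow_char (p := p) W.ϖ_ne W.ϖ_mem W.ϖ_res hx
    have h4 := DL.mul W.ϖ_ne W.ϖ_mem W.ϖ_res (DL.mul W.ϖ_ne W.ϖ_mem W.ϖ_res h3 hψ1)
      hyDL1
    rw [← hfU, zero_add, add_zero] at h4
    rwa [hφ1.unique h4]
  · -- second component
    have hbνH : W.Fix (algebraMap K F b⁻¹ * ν) :=
      (Wild.Fix.const fun h hh => by rw [map_inv₀, hbH h hh]).mul hνH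
    obtain ⟨x, hx⟩ := W.exists_DL₂ hπ hbνH hν2 hm1
    have h3 := DL.pow_char (p := p) W.ϖ_ne W.ϖ_mem W.ϖ_res hx
    have h4 : DL R₂ W.τ W.ϖ (algebraMap K F (b ^ p)) (algebraMap k F₂ (π ⟨_, hnA'⟩)) :=
      DL.const rfl
    rw [hnv] at h4
    have h5 := DL.mul W.ϖ_ne W.ϖ_mem W.ϖ_res h4 h3
    have e4 : algebraMap K F (b ^ p) * (algebraMap K F b⁻¹ * ν) ^ p = ν ^ p := by
      rw [mul_pow, map_inv₀, map_pow, inv_pow]
      field_simp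
    rw [e4, add_zero] at h5
    have h6 := DL.mul W.ϖ_ne W.ϖ_mem W.ϖ_res (DL.mul W.ϖ_ne W.ϖ_mem W.ϖ_res h5 hψ2)
      hyDL2
    rw [← hfU, add_zero] at h6
    rw [hφ2.unique h6, add_comm c]
    exact (val_const _).add hc2

end NodeThm

end Fermat.Agent.DR.AtP
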