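import Fermat.Agent.DR.AtP.WildNode
import Fermat.Agent.RR.Corollaries

set_option autoImplicit false
set_option linter.unusedSectionVars false

/-!
# DR / AtP: regularity of the wild logarithmic derivative at separated points, and the
monodromy formula
-/

noncomputable section

open AlgebraicCurve Fermat.Agent.JRED Fermat.Agent.RR Fermat.Agent.DR.Mono

namespace Fermat.Agent.DR.AtP

variable {K F k F₁ F₂ : Type*} [Field K] [Field F] [Algebra K F] [Field k] [Field F₁] [Field F₂]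
  [Algebra k F₁] [Algebra k F₂] {A : ValuationSubring K} {π : A →+* k}
  [HasPrincipalDivisors K F]
  {R₁ : RedDatum K F k F₁ A π} {R₂ : RedDatum K F k F₂ A π}

/-- The separating functions are `H`-invariant. -/
structure Wild.SepFix {p : ℕ} (W : Wild R₁ R₂ p) (N : Sep R₁ R₂) : Prop where
  stable : W.Stable N.Ann
  e : W.Fix N.e
  e' : W.Fix N.e'
  z : W.Fix N.z
  z' : W.Fix N.z'

theorem Wild.SepFix.swap {p : ℕ} {W : Wild R₁ R₂ p} {N : Sep R₁ R₂} (h : W.SepFix N) :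
    W.swap.SepFix N.swap where
  stable := ⟨h.stable.τ_inv, h.stable.H⟩
  e := h.e'
  e' := h.e
  z := h.z'
  z' := h.z

theorem Wild.SepFix.c₁ {p : ℕ} {W : Wild R₁ R₂ p} {N : Sep R₁ R₂} (h : W.SepFix N) :
    W.Fix N.c₁ := (h.z.mul h.e).add h.e'

section Value

variable [IsAlgClosed K] [Fermat.FF.IsFF1 K F]

open Classical in
/-- value of a function at a place -/
def vl (c : F) (P : Place K F) : K :=
  if h : c ∈ P.toValuationSubring then (exists_val (s := P) h).choose else 0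

theorem vl_spec {c : F} {P : Place K F} (h : c ∈ P.toValuationSubring) : Val P c (vl c P) := by
  rw [vl, dif_pos h]
  exact (exists_val (s := P) h).choose_spec

theorem vl_smul {g : SemilinearAut K F} {c : F} (hc : g • c = c) {P : Place K F}
    (h : c ∈ P.toValuationSubring) : vl c (g • P) = SemilinearAut.baseAut g (vl c P) := by
  have h1 := (vl_spec h).smul (g := g)
  rw [hc] at h1
  exact (vl_spec h1.mem).unique h1

end Value

/-- elements of the maximal ideal -/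
def Small (π : A →+* k) (a : K) : Prop := ∃ h : a ∈ A, π ⟨a, h⟩ = 0

theorem InertiaAut.small_iff (hπ : Function.Surjective π) {g : SemilinearAut K F}
    (hg : InertiaAut R₁ R₂ g) {a : K} : Small π (SemilinearAut.baseAut g a) ↔ Small π a := by
  rcases eq_or_ne a 0 with rfl | ha
  · rw [map_zero]
  obtain ⟨h, h0⟩ := hg.unit a ha
  constructor
  · rintro ⟨h1, h2⟩
    have haA : a ∈ A := by
      by_contra hna
      obtain ⟨hi, hi0⟩ := res_inv_eq_zero hπ hna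
      apply h0
      have e2 : (⟨_, h⟩ : A) = ⟨_, h1⟩ * ⟨a⁻¹, hi⟩ := Subtype.ext (div_eq_mul_inv _ _)
      rw [e2, map_mul, hi0, mul_zero]
    refine ⟨haA, ?_⟩
    have e2 : (⟨_, h1⟩ : A) = ⟨_, h⟩ * ⟨a, haA⟩ := Subtype.ext (div_mul_cancel₀ _ ha).symm
    rw [e2, map_mul] at h2
    exact (mul_eq_zero.mp h2).resolve_left h0
  · rintro ⟨h1, h2⟩
    have e2 : SemilinearAut.baseAut g a = SemilinearAut.baseAut g a / a * a :=
      (div_mul_cancel₀ _ ha).symm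
    have h3 : SemilinearAut.baseAut g a ∈ A := by rw [e2]; exact mul_mem h h1
    refine ⟨h3, ?_⟩
    have e3 : (⟨_, h3⟩ : A) = ⟨_, h⟩ * ⟨a, h1⟩ := Subtype.ext e2
    rw [e3, map_mul, h2, mul_zero]

section Param

variable [IsAlgClosed K] [Fermat.FF.IsFF1 K F] [IsAlgClosed k] [Fermat.FF.IsFF1 k F₁]
    [Fermat.FF.IsFF1 k F₂]

open Classical in
/-- local parameters, chosen equivariantly -/
def param (N : Sep R₁ R₂) (P : Place K F) : F :=
  if Small π (vl N.c₁ P) then N.c₁ - algebraMap K F (vl N.c₁ P)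
  else N.swap.c₁ - algebraMap K F (vl N.swap.c₁ P)

theorem small_or (hπ : Function.Surjective π) (N : Sep R₁ R₂) {P : Place K F} (hP : P ∈ N.Ann)
    (h1 : ¬ Small π (vl N.c₁ P)) : Small π (vl N.swap.c₁ P) := by
  have ha1 := vl_spec (N.pf_c₁ P hP)
  have ha2 := vl_spec (N.swap.pf_c₁ P hP)
  have hA1 := N.toPlacePair.value_mem hπ N.pf_c₁ N.red₁_c₁ N.red₂_c₁ hP ha1
  have hA2 := N.toPlacePair.value_mem hπ N.swap.pf_c₁ N.swap.red₂_c₁ N.swap.red₁_c₁ hP ha2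
  by_contra h2
  have h1' : π ⟨_, hA1⟩ ≠ 0 := fun h => h1 ⟨hA1, h⟩
  have h2' : π ⟨_, hA2⟩ ≠ 0 := fun h => h2 ⟨hA2, h⟩
  have hv1 : Val N.s₁ (N.z₁ * N.e₁ * N.e₁) 0 := by
    obtain ⟨b, hb⟩ := exists_val (s := N.s₁) (u := N.e₁)
      ((Fermat.FF.mem_iff_ord _ N.e₁_ne).mpr N.ord_e₁.ge)
    have := (val_zero_of_ord_pos (s := N.s₁) (u := N.z₁ * N.e₁)
      (by rw [N.ord_c₁]; exact one_pos)).mul hb
    rwa [zero_mul] at this
  have hv2 : Val N.s₂ (N.e₂ * (N.swap.z₁ * N.swap.e₁)) 0 := by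
    obtain ⟨b, hb⟩ := exists_val (s := N.s₂) (u := N.e₂)
      ((Fermat.FF.mem_iff_ord _ N.e₂_ne).mpr N.ord_e₂.ge)
    have := hb.mul (val_zero_of_ord_pos (s := N.s₂) (u := N.swap.z₁ * N.swap.e₁)
      (by have := N.swap.ord_c₁; change N.s₂.ord _ = 1 at this; rw [this]; exact one_pos))
    rwa [mul_zero] at this
  have hprodA : vl N.c₁ P * vl N.swap.c₁ P ∈ A := mul_mem hA1 hA2
  have key := N.toPlacePair.value_ne hπ (N.pf_c₁.mul N.swap.pf_c₁)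
    (R₁.mul N.red₁_c₁ N.swap.red₂_c₁) (R₂.mul N.red₂_c₁ N.swap.red₁_c₁) hv1 hv2 hP
    (ha1.mul ha2) hprodA
  have hne : π ⟨_, hprodA⟩ ≠ 0 := by
    have : (⟨_, hprodA⟩ : A) = ⟨_, hA1⟩ * ⟨_, hA2⟩ := rfl
    rw [this, map_mul]
    exact mul_ne_zero h1' h2'
  rcases key with h | h <;> exact hne h

theorem param_aux (hπ : Function.Surjective π) (N : Sep R₁ R₂) {P : Place K F} (hP : P ∈ N.Ann)
    (h1 : Small π (vl N.c₁ P)) :
    P.ord (N.c₁ - algebraMap K F (vl N.c₁ P)) = 1 ∧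
    (∀ Q ∈ N.Ann, Q ≠ P → Q.ord (N.c₁ - algebraMap K F (vl N.c₁ P)) = 0) ∧
    R₁.Red (N.c₁ - algebraMap K F (vl N.c₁ P)) (N.z₁ * N.e₁) ∧
    R₂.Red (N.c₁ - algebraMap K F (vl N.c₁ P)) N.e₂ := by
  obtain ⟨hA, h0⟩ := h1
  obtain ⟨-, h4, h5, -, -⟩ := N.toPlacePair.sub_value hπ N.pf_c₁ N.red₁_c₁ N.red₂_c₁ N.ord_c₁
    N.e₂_ne N.ord_e₂ hP (vl_spec (N.pf_c₁ P hP)) hA h0
  refine ⟨h4, h5, ?_, ?_⟩
  · have := RedDatum.sub N.red₁_c₁ (R₁.const ⟨_, hA⟩)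
    rwa [h0, map_zero, sub_zero] at this
  · have := RedDatum.sub N.red₂_c₁ (R₂.const ⟨_, hA⟩)
    rwa [h0, map_zero, sub_zero] at this

theorem param_spec (hπ : Function.Surjective π) (N : Sep R₁ R₂) {P : Place K F}
    (hP : P ∈ N.Ann) :
    P.ord (param N P) = 1 ∧ (∀ Q ∈ N.Ann, Q ≠ P → Q.ord (param N P) = 0) ∧
    (∃ u, u ≠ 0 ∧ R₁.Red (param N P) u) ∧ ∃ u, u ≠ 0 ∧ R₂.Red (param N P) u := by
  rw [param]
  split_ifs with h1
  · obtain ⟨h2, h3, h4, h5⟩ := param_aux hπ N hP h1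
    exact ⟨h2, h3, ⟨_, mul_ne_zero (Fermat.FF.ne_zero_of_ord_ne_zero N.s₁
      (by rw [N.ord_z₁]; exact one_ne_zero)) N.e₁_ne, h4⟩, ⟨_, N.e₂_ne, h5⟩⟩
  · obtain ⟨h2, h3, h4, h5⟩ := param_aux hπ N.swap hP (small_or hπ N hP h1)
    exact ⟨h2, h3, ⟨_, N.swap.e₂_ne, h5⟩, ⟨_, mul_ne_zero
      (Fermat.FF.ne_zero_of_ord_ne_zero N.swap.s₁
      (by rw [N.swap.ord_z₁]; exact one_ne_zero)) N.swap.e₁_ne, h4⟩⟩

theorem param_smul {p : ℕ} (W : Wild R₁ R₂ p) (hπ : Function.Surjective π) {N : Sep R₁ R₂}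
    (hN : W.SepFix N) {h : SemilinearAut K F} (hh : h ∈ W.H) {P : Place K F} (hP : P ∈ N.Ann) :
    h • param N P = param N (h • P) := by
  have h1 : vl N.c₁ (h • P) = SemilinearAut.baseAut h (vl N.c₁ P) :=
    vl_smul (hN.c₁ h hh) (N.pf_c₁ P hP)
  have h2 : vl N.swap.c₁ (h • P) = SemilinearAut.baseAut h (vl N.swap.c₁ P) :=
    vl_smul (hN.swap.c₁ h hh) (N.swap.pf_c₁ P hP)
  rw [param, param, h1, h2]
  have h3 := InertiaAut.small_iff hπ (W.inertia_H h hh) (a := vl N.c₁ P)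
  by_cases h4 : Small π (vl N.c₁ P)
  · rw [if_pos h4, if_pos (h3.mpr h4), smul_sub, hN.c₁ h hh, SemilinearAut.smul_algebraMap]
  · rw [if_neg h4, if_neg (fun h5 => h4 (h3.mp h5)), smul_sub, hN.swap.c₁ h hh,
      SemilinearAut.smul_algebraMap]

/-- **Regularity of the wild logarithmic derivative at a separated point.** -/
theorem Wild.sep {p : ℕ} [Fact p.Prime] [CharP k p] (W : Wild R₁ R₂ p)
    (hπ : Function.Surjective π) (hA : Arch π) {N : Sep R₁ R₂} (hN : W.SepFix N) {f : F}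
    (hf : f ≠ 0) (hfH : W.Fix f) (hdiv : ∀ P ∈ N.Ann, (p : ℤ) ∣ P.ord f) {u₁ : F₁}
    (h1 : R₁.Red f u₁) (hu₁ : u₁ ≠ 0) {φ : F₁} (hφ : DL R₁ W.τ W.ϖ f φ) :
    φ ∈ N.s₁.toValuationSubring := by
  classical
  set T := supp N.Ann f with hTdef
  have hT : ∀ P ∈ T, P ∈ N.Ann := fun P hP => (mem_supp.mp hP).2
  set D : Place K F → ℤ := dv p f with hDdef
  have hD : ∀ P ∈ N.Ann, P.ord f = (p : ℤ) * D P := fun P hP => dv_spec (hdiv P hP)
  have hT' : ∀ P ∈ N.Ann, P ∉ T → D P = 0 := fun P hP hPT => dv_eq_zero hP hPT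
  have hsp := fun P (hP : P ∈ T) => param_spec hπ N (hT P hP)
  set ν : F := ∏ P ∈ T, param N P ^ D P with hν
  have hfac : ∀ P ∈ T, param N P ≠ 0 := fun P hP =>
    Fermat.FF.ne_zero_of_ord_ne_zero P (by rw [(hsp P hP).1]; exact one_ne_zero)
  have hν0 : ν ≠ 0 := Finset.prod_ne_zero_iff.mpr fun P hP => zpow_ne_zero _ (hfac P hP)
  have hνH : W.Fix ν := by
    intro h hh
    refine smul_prod_eq (fun P hP => smul_mem_supp (hN.stable.H h hh) (hfH h hh) hP)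
      (w := fun P => param N P ^ D P) fun P hP => ?_
    rw [smul_zpow₀', param_smul W hπ hN hh (hT P hP), hDdef, dv_smul (hfH h hh)]
  have hνord : ∀ Q ∈ N.Ann, Q.ord ν = D Q := fun Q hQ =>
    ord_prod_local hT (fun P hP => (hsp P hP).1)
      (fun P hP Q hQ hPQ => (hsp P hP).2.1 Q hQ hPQ) hT' hQ
  have hν1 : ∃ u, u ≠ 0 ∧ R₁.Red ν u := by
    choose! u hu hur using fun P (hP : P ∈ T) => (hsp P hP).2.2.1
    refine ⟨∏ P ∈ T, u P ^ D P, Finset.prod_ne_zero_iff.mpr fun P hP =>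
      zpow_ne_zero _ (hu P hP), red_prod T fun P hP => red_zpow hπ (hur P hP) (hu P hP) _⟩
  obtain ⟨u, hu, hνu⟩ := hν1
  have hνp : ν ^ p ≠ 0 := pow_ne_zero p hν0
  have hUH : W.Fix (f / ν ^ p) := hfH.div (hνH.pow p)
  have hUinv : Inv N.Ann (f / ν ^ p) := by
    refine ⟨div_ne_zero hf hνp, ?_⟩
    intro Q hQ
    rw [div_eq_mul_inv, Q.ord_mul hf (inv_ne_zero hνp), Q.ord_inv, Fermat.FF.ord_pow, hνord Q hQ,
      hD Q hQ]
    ring
  have hU1 : R₁.Red (f / ν ^ p) (u₁ / u ^ p) :=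
    RedDatum.div hπ h1 (RedDatum.pow hνu p) (pow_ne_zero p hu)
  have hU1ne : u₁ / u ^ p ≠ 0 := div_ne_zero hu₁ (pow_ne_zero p hu)
  obtain ⟨ψ, hψ⟩ := W.exists_DL₁ hπ hUH hU1 hU1ne
  have hreg := N.reg hπ hA hψ (W.pf_DL hN.stable.τ_inv hUinv)
  obtain ⟨x, hx⟩ := W.exists_DL₁ hπ hνH hνu hu
  have h3 := DL.pow_char (p := p) W.ϖ_ne W.ϖ_mem W.ϖ_res hx
  have h4 := DL.mul W.ϖ_ne W.ϖ_mem W.ϖ_res h3 hψ
  rw [zero_add, mul_div_cancel₀ _ hνp] at h4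
  rwa [hφ.unique h4]

end Param

section Mono

variable [IsAlgClosed K] [Fermat.FF.IsFF1 K F] [IsAlgClosed k] {p : ℕ} [hp : Fact p.Prime]
  [CharP k p] [FunctionField k F₁] [FunctionField k F₂]

/-- A node with a coordinate adapted to the wild data. -/
structure Wild.NodeFix (W : Wild R₁ R₂ p) (N : Node R₁ R₂ p)
    (C : Coord N.toPlacePair (p : K)) : Prop where
  stable : W.Stable N.Ann
  yτ : W.τ • C.y = C.y
  yH : W.Fix C.y

/-- All places of the two components are nodes or separated. -/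
structure Wild.Cover (W : Wild R₁ R₂ p) : Prop where
  cov₁ : ∀ P : Place k F₁,
    (∃ (N : Node R₁ R₂ p) (C : Coord N.toPlacePair (p : K)), N.s₁ = P ∧ W.NodeFix N C) ∨
    ∃ N : Sep R₁ R₂, N.s₁ = P ∧ W.SepFix N
  cov₂ : ∀ P : Place k F₂,
    (∃ (N : Node R₁ R₂ p) (C : Coord N.toPlacePair (p : K)), N.s₂ = P ∧ W.NodeFix N C) ∨
    ∃ N : Sep R₁ R₂, N.s₂ = P ∧ W.SepFix N

theorem eq_of_red {R : RedDatum K F k F₁ A π} (hpK : (p : K) ≠ 0)
    (hpA : (p : K) ∈ A) (hp0 : π ⟨p, hpA⟩ = 0) {f : F} {i j : ℤ} {u u' : F₁}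
    (h : R.Red (algebraMap K F ((p : K) ^ (-i)) * f) u) (hu : u ≠ 0)
    (h' : R.Red (algebraMap K F ((p : K) ^ (-j)) * f) u') (hu' : u' ≠ 0) : i = j := by
  have key : ∀ {i j : ℤ} {u u' : F₁}, R.Red (algebraMap K F ((p : K) ^ (-i)) * f) u → u ≠ 0 →
      R.Red (algebraMap K F ((p : K) ^ (-j)) * f) u' → u' ≠ 0 → ¬ j < i := by
    intro i j u u' h hu h' hu' hlt
    have e : algebraMap K F ((p : K) ^ (-j)) * f =
        algebraMap K F ((p : K) ^ (i - j)) * (algebraMap K F ((p : K) ^ (-i)) * f) := by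
      rw [← mul_assoc, ← map_mul, ← zpow_add₀ hpK]
      congr 3
      ring
    have hpos : 0 < i - j := sub_pos.mpr hlt
    have h1 := red_zero_of_mem (zpow_mem_of_nonneg hpA hpos.le) (res_zpow_of_pos hpA hp0 hpos) h
    rw [← e] at h1
    exact hu' (R.unique h' h1)
  rcases lt_trichotomy i j with h1 | h1 | h1
  · exact absurd h1 (key h' hu' h hu)
  · exact h1
  · exact absurd h1 (key h hu h' hu')

/-- **The monodromy formula at `p`.** -/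
theorem Wild.mono (W : Wild R₁ R₂ p) (hπ : Function.Surjective π) (hA : Arch π)
    (hpA : (p : K) ∈ A) (hp0 : π ⟨p, hpA⟩ = 0) (hW : W.Cover)
    {Ns Nt : Node R₁ R₂ p} {Cs : Coord Ns.toPlacePair (p : K)}
    {Ct : Coord Nt.toPlacePair (p : K)} (hs : W.NodeFix Ns Cs) (ht : W.NodeFix Nt Ct)
    {f : F} (hf : f ≠ 0) (hfH : W.Fix f) (hdiv : ∀ P : Place K F, (p : ℤ) ∣ P.ord f)
    {u₁ : F₁} (h1 : R₁.Red f u₁) (hu₁ : u₁ ≠ 0) :
    (p : ℤ) ∣ Cs.w * o R₁ Ns.s₁ f - Ct.w * o R₁ Nt.s₁ f := by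
  have hFF1 : Fermat.FF.IsFF1 k F₁ := Descent.isFF1_of_functionField (K := k) (F := F₁)
  have hFF2 : Fermat.FF.IsFF1 k F₂ := Descent.isFF1_of_functionField (K := k) (F := F₂)
  have hpK := W.p_ne
  obtain ⟨n, j, ⟨u₂, hu₂, h2⟩, hdj, hv⟩ := W.node hπ hA hpA hp0 Cs hs.stable hs.yτ hs.yH hf hfH
    (fun P _ => hdiv P) h1 hu₁
  obtain ⟨n', j', ⟨u₂', hu₂', h2'⟩, hdj', hv'⟩ := W.node hπ hA hpA hp0 Ct ht.stable ht.yτ ht.yH
    hf hfH (fun P _ => hdiv P) h1 hu₁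
  have hjj : j = j' := eq_of_red hpK hpA hp0 h2 hu₂ h2' hu₂'
  subst hjj
  obtain ⟨φ₁, hφ1⟩ := W.exists_DL₁ hπ hfH h1 hu₁
  have hf'H : W.Fix (algebraMap K F ((p : K) ^ (-j)) * f) := (Wild.Fix.natZPow (-j)).mul hfH
  have hpj : algebraMap K F ((p : K) ^ (-j)) ≠ 0 :=
    (_root_.map_ne_zero _).mpr (zpow_ne_zero _ hpK)
  have hf'0 : algebraMap K F ((p : K) ^ (-j)) * f ≠ 0 := mul_ne_zero hpj hf
  obtain ⟨φ₂, hφ2'⟩ := W.exists_DL₂ hπ hf'H h2 hu₂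
  have hφ2 : DL R₂ W.τ W.ϖ f φ₂ := by
    have h3 := DL.mul W.ϖ_ne W.ϖ_mem W.ϖ_res (W.DL_natZPow (R := R₂) j) hφ2'
    rw [zero_add] at h3
    have e : algebraMap K F ((p : K) ^ j) * (algebraMap K F ((p : K) ^ (-j)) * f) = f := by
      rw [← mul_assoc, ← map_mul, ← zpow_add₀ hpK, add_neg_cancel, zpow_zero, map_one, one_mul]
    rwa [e] at h3
  -- constants
  obtain ⟨c₁, rfl⟩ : ∃ c, φ₁ = algebraMap k F₁ c := by
    refine exists_const_of_forall_ord_nonneg fun P => Fermat.FF.ord_nonneg_of_mem P ?_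
    rcases hW.cov₁ P with ⟨N, C, rfl, hN⟩ | ⟨N, rfl, hN⟩
    · obtain ⟨_, _, _, _, h3⟩ := W.node hπ hA hpA hp0 C hN.stable hN.yτ hN.yH hf hfH
        (fun P _ => hdiv P) h1 hu₁
      obtain ⟨c, hc, -⟩ := h3 _ _ hφ1 hφ2
      exact hc.mem
    · exact W.sep hπ hA hN hf hfH (fun P _ => hdiv P) h1 hu₁ hφ1
  obtain ⟨c₂, rfl⟩ : ∃ c, φ₂ = algebraMap k F₂ c := by
    refine exists_const_of_forall_ord_nonneg fun P => Fermat.FF.ord_nonneg_of_mem P ?_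
    rcases hW.cov₂ P with ⟨N, C, rfl, hN⟩ | ⟨N, rfl, hN⟩
    · obtain ⟨_, _, _, _, h3⟩ := W.node hπ hA hpA hp0 C hN.stable hN.yτ hN.yH hf hfH
        (fun P _ => hdiv P) h1 hu₁
      obtain ⟨c, -, hc⟩ := h3 _ _ hφ1 hφ2
      exact hc.mem
    · refine W.swap.sep (N := N.swap) hπ hA hN.swap hf'0 hf'H (fun P _ => ?_) h2 hu₂ hφ2'
      rw [P.ord_mul hpj hf, Fermat.FF.ord_algebraMap, zero_add]
      exact hdiv P
  have key : ∀ {N : Node R₁ R₂ p} {n : ℤ}, (∀ φ₁ φ₂, DL R₁ W.τ W.ϖ f φ₁ → DL R₂ W.τ W.ϖ f φ₂ →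
        ∃ c, Val N.s₁ φ₁ c ∧ Val N.s₂ φ₂ (c + n * W.ε)) → (n : k) * W.ε = c₂ - c₁ := by
    intro N n h
    obtain ⟨c, h3, h4⟩ := h _ _ hφ1 hφ2
    have e1 := h3.unique (val_const _)
    have e2 := h4.unique (val_const _)
    rw [← e2, e1]
    ring
  have hn : (n : k) = n' := mul_right_cancel₀ W.ε_ne ((key hv).trans (key hv').symm)
  have hnn : (p : ℤ) ∣ n - n' := by
    rw [← CharP.intCast_eq_zero_iff k p, Int.cast_sub, hn, sub_self]
  have e : (Cs.w : ℤ) * o R₁ Ns.s₁ f - Ct.w * o R₁ Nt.s₁ f =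
      -(j - n - Cs.w * o R₁ Ns.s₁ f) + (j - n' - Ct.w * o R₁ Nt.s₁ f) - (n - n') := by
    ring
  rw [e]
  exact dvd_sub (dvd_add (dvd_neg.mpr hdj) hdj') hnn

end Mono

end Fermat.Agent.DR.AtP
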